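import Fermat.Agent.S36.K0
import Fermat.Agent.S36.Abs.ExtFund

/-!
# S36 / modular part : `[LZ]` the valuation `A` is discrete on `K0(ζ_q)`, with uniformizer `1 - ζ_q`

`∏_{0 < i < q} (1 - ζ^i) = q` and `(1 - ζ^i) / (1 - ζ)` is a unit of `A` (it and its inverse are
polynomials in a root of unity), so `v(1 - ζ)^(q-1) = v(q)`.
`[K0(ζ) : K0] ≤ q - 1`, so the fundamental inequality (`ExtSys.isUnif`) shows that `1 - ζ` is a
uniformizer of `A ∩ K0(ζ)`.
-/

set_option autoImplicit false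

namespace Fermat.Agent.S36

local notation "Qbar" => AlgebraicClosure ℚ

section General

variable {E L : Type*} [Field E] [Field L]

theorem isEquiv_valuation_comap (A : ValuationSubring L) (φ : E →+* L) :
    (A.comap φ).valuation.IsEquiv (A.valuation.comap φ) := by
  rw [Valuation.isEquiv_iff_valuationSubring, ValuationSubring.valuationSubring_valuation]
  ext x
  rw [Valuation.mem_valuationSubring_iff, ValuationSubring.mem_comap, Valuation.comap_apply,
    ValuationSubring.valuation_le_one_iff]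

theorem valuation_eq_one_of_pow_eq_one {Γ : Type*} [LinearOrderedCommGroupWithZero Γ]
    (v : Valuation L Γ) {μ : L} {m : ℕ} (hm : m ≠ 0) (hμ : μ ^ m = 1) : v μ = 1 := by
  have h : v μ ^ m = 1 := by rw [← map_pow, hμ, map_one]
  exact (pow_eq_one_iff_of_nonneg zero_le hm).mp h

theorem valuation_one_sub_le_of_pow {Γ : Type*} [LinearOrderedCommGroupWithZero Γ]
    (v : Valuation L Γ) {a : L} {m : ℕ} (hm : m ≠ 0) (ha : a ^ m = 1) (i : ℕ) :
    v (1 - a ^ i) ≤ v (1 - a) := by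
  rw [← mul_neg_geom_sum a i, map_mul]
  refine mul_le_of_le_one_right' ?_
  refine Valuation.map_sum_le _ (fun j _ => ?_)
  rw [map_pow, valuation_eq_one_of_pow_eq_one v hm ha, one_pow]

theorem valuation_one_sub_pow_card {Γ : Type*} [LinearOrderedCommGroupWithZero Γ]
    (v : Valuation L Γ) {q : ℕ} (hq : q.Prime) {ζ : L} (hζ : IsPrimitiveRoot ζ q) :
    v (1 - ζ) ^ (q - 1) = v (q : L) := by
  obtain ⟨n, rfl⟩ : ∃ n, q = n + 1 := ⟨q - 1, by have := hq.pos; omega⟩
  have hprod := hζ.prod_one_sub_pow_eq_order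
  have h1 : ((n + 1 : ℕ) : L) = (n : L) + 1 := by push_cast; ring
  rw [h1, ← hprod, map_prod, Nat.add_sub_cancel]
  symm
  calc _ = ∏ _k ∈ Finset.range n, v (1 - ζ) := by
        refine Finset.prod_congr rfl (fun k hk => ?_)
        rw [Finset.mem_range] at hk
        refine le_antisymm (valuation_one_sub_le_of_pow v hq.ne_zero hζ.pow_eq_one _) ?_
        have hcop : Nat.Coprime (k + 1) (n + 1) :=
          (Nat.coprime_of_lt_prime (by omega) (by omega) hq).symm
        have hν : IsPrimitiveRoot (ζ ^ (k + 1)) (n + 1) := hζ.pow_of_coprime _ hcop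
        obtain ⟨i, -, hi⟩ := hν.eq_pow_of_pow_eq_one hζ.pow_eq_one
        calc v (1 - ζ) = v (1 - (ζ ^ (k + 1)) ^ i) := by rw [hi]
          _ ≤ _ := valuation_one_sub_le_of_pow v hq.ne_zero hν.pow_eq_one _
    _ = _ := by rw [Finset.prod_const, Finset.card_range]

end General

variable {A : ValuationSubring Qbar} {q : ℕ}

theorem valuation_one_sub_zeta_pow (hq : q.Prime) (hA : A.LiesOverPrime q) {ζ : Qbar}
    (hζ : IsPrimitiveRoot ζ q) : A.valuation (1 - ζ) ^ (q - 1) = A.valuation (q : Qbar) :=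
  valuation_one_sub_pow_card A.valuation hq hζ

theorem valuation_one_sub_zeta_lt (hq : q.Prime) (hA : A.LiesOverPrime q) {ζ : Qbar}
    (hζ : IsPrimitiveRoot ζ q) : A.valuation (1 - ζ) < 1 := by
  have h := valuation_one_sub_zeta_pow hq hA hζ
  have hq1 : A.valuation (q : Qbar) < 1 := A.mem_nonunits_iff.mp hA
  by_contra hcon
  have h2 : 1 ≤ A.valuation (1 - ζ) ^ (q - 1) := one_le_pow₀ (not_lt.mp hcon)
  rw [h] at h2
  exact absurd hq1 (not_lt.mpr h2)

/-- `q` is a uniformizer of `R0 A`. -/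
theorem isUnif_R0 (hq : q.Prime) (hA : A.LiesOverPrime q) : IsUnif (R0 A) (q : K0 A) := by
  have hE := isEquiv_valuation_comap A (algebraMap (K0 A) Qbar)
  have hq1 : A.valuation (q : Qbar) < 1 := A.mem_nonunits_iff.mp hA
  refine ⟨?_, by exact_mod_cast hq.ne_zero, fun x hx => ?_⟩
  · refine hE.lt_one_iff_lt_one.mpr ?_
    rw [Valuation.comap_apply, map_natCast]
    exact hq1
  · have hx0 : ((x : K0 A) : Qbar) ≠ 0 := fun h => hx (Subtype.ext h)
    obtain ⟨n, hn⟩ := exists_zpow_of_inertia_fixed hq hA hx0 (mem_K0.mp x.2)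
    refine ⟨n, ?_⟩
    rw [← map_zpow₀]
    refine hE.eq_iff.mpr ?_
    rw [Valuation.comap_apply, Valuation.comap_apply, map_zpow₀, map_zpow₀, map_natCast]
    exact hn

theorem finrank_adjoin_zeta_le (hq : q.Prime) {ζ : Qbar} (hζ : IsPrimitiveRoot ζ q) :
    Module.finrank (K0 A) (IntermediateField.adjoin (K0 A) {ζ}) ≤ q - 1 := by
  have hroot : Polynomial.aeval ζ (Polynomial.cyclotomic q (K0 A)) = 0 := by
    rw [Polynomial.aeval_def, ← Polynomial.eval_map, Polynomial.map_cyclotomic]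
    exact hζ.isRoot_cyclotomic hq.pos
  have hint : IsIntegral (K0 A) ζ := ⟨_, Polynomial.cyclotomic.monic q (K0 A), hroot⟩
  rw [IntermediateField.adjoin.finrank hint]
  have h1 := Polynomial.natDegree_le_of_dvd (minpoly.dvd (K0 A) ζ hroot)
    (Polynomial.cyclotomic_ne_zero q (K0 A))
  rwa [Polynomial.natDegree_cyclotomic, Nat.totient_prime hq] at h1

theorem extSys_zeta (hq : q.Prime) (hA : A.LiesOverPrime q) {ζ : Qbar}
    (hζ : IsPrimitiveRoot ζ q) :
    ExtSys (F' := K0 A) (F := IntermediateField.adjoin (K0 A) {ζ}) (R0 A) (q : K0 A)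
      (fun _ : Unit => A.comap (algebraMap (IntermediateField.adjoin (K0 A) {ζ}) Qbar))
      (fun _ => q - 1) (fun _ => 1) := by
  have hE := isEquiv_valuation_comap A (algebraMap (IntermediateField.adjoin (K0 A) {ζ}) Qbar)
  have hE0 := isEquiv_valuation_comap A (algebraMap (K0 A) Qbar)
  refine ⟨isUnif_R0 hq hA, fun _ _ _ => rfl, fun _ => ?_, fun _ => ?_, fun _ => ?_, ?_⟩
  · rw [ValuationSubring.comap_comap]
    rfl
  · refine ⟨1 - ⟨ζ, IntermediateField.mem_adjoin_simple_self _ ζ⟩, ?_, ?_⟩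
    · refine hE.lt_one_iff_lt_one.mpr ?_
      exact valuation_one_sub_zeta_lt hq hA hζ
    · rw [← map_pow]
      refine (hE _ _).mpr ?_
      rw [Valuation.comap_apply, Valuation.comap_apply, map_natCast, map_natCast, map_pow, map_pow]
      exact (valuation_one_sub_zeta_pow hq hA hζ).ge
  · refine ⟨fun _ => 1, fun _ => one_mem _, fun c _ h k => ?_⟩
    have hk : k = 0 := Subsingleton.elim _ _
    subst hk
    rw [Fin.sum_univ_one, mul_one] at h
    have h2 := hE.lt_one_iff_lt_one.mp h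
    exact hE0.lt_one_iff_lt_one.mpr h2
  · simpa using finrank_adjoin_zeta_le hq hζ

/-- **[LZ]** -/
theorem exists_zpow_of_mem_adjoin_zeta (hq : q.Prime) (hA : A.LiesOverPrime q) {ζ : Qbar}
    (hζ : IsPrimitiveRoot ζ q) {x : Qbar} (hx0 : x ≠ 0)
    (hx : x ∈ IntermediateField.adjoin (K0 A) {ζ}) :
    ∃ n : ℤ, A.valuation x = A.valuation (1 - ζ) ^ n := by
  have hE := isEquiv_valuation_comap A (algebraMap (IntermediateField.adjoin (K0 A) {ζ}) Qbar)
  have hroot : Polynomial.aeval ζ (Polynomial.cyclotomic q (K0 A)) = 0 := by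
    rw [Polynomial.aeval_def, ← Polynomial.eval_map, Polynomial.map_cyclotomic]
    exact hζ.isRoot_cyclotomic hq.pos
  have hint : IsIntegral (K0 A) ζ := ⟨_, Polynomial.cyclotomic.monic q (K0 A), hroot⟩
  have : FiniteDimensional (K0 A) (IntermediateField.adjoin (K0 A) {ζ}) :=
    IntermediateField.adjoin.finiteDimensional hint
  have S := extSys_zeta hq hA hζ
  have h1 : (A.comap (algebraMap (IntermediateField.adjoin (K0 A) {ζ}) Qbar)).valuation
      (1 - ⟨ζ, IntermediateField.mem_adjoin_simple_self _ ζ⟩) < 1 :=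
    hE.lt_one_iff_lt_one.mpr (valuation_one_sub_zeta_lt hq hA hζ)
  have h2 : (A.comap (algebraMap (IntermediateField.adjoin (K0 A) {ζ}) Qbar)).valuation
      (algebraMap (K0 A) (IntermediateField.adjoin (K0 A) {ζ}) (q : K0 A)) ≤
      (A.comap (algebraMap (IntermediateField.adjoin (K0 A) {ζ}) Qbar)).valuation
      (1 - ⟨ζ, IntermediateField.mem_adjoin_simple_self _ ζ⟩) ^ (q - 1) := by
    rw [← map_pow]
    refine (hE _ _).mpr ?_
    rw [Valuation.comap_apply, Valuation.comap_apply, map_natCast, map_natCast, map_pow, map_pow]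
    exact (valuation_one_sub_zeta_pow hq hA hζ).ge
  obtain ⟨hU, -⟩ := S.isUnif () h1 h2
  obtain ⟨n, hn⟩ := hU.disc ⟨x, hx⟩ (fun h => hx0 (congrArg Subtype.val h))
  refine ⟨n, ?_⟩
  rw [← map_zpow₀] at hn
  have h3 := hE.eq_iff.mp hn
  rw [Valuation.comap_apply, Valuation.comap_apply, map_zpow₀, map_zpow₀] at h3
  exact h3

/-- integral version -/
theorem exists_pow_of_mem_adjoin_zeta (hq : q.Prime) (hA : A.LiesOverPrime q) {ζ : Qbar}
    (hζ : IsPrimitiveRoot ζ q) {x : Qbar} (hx0 : x ≠ 0)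
    (hx : x ∈ IntermediateField.adjoin (K0 A) {ζ}) (hxA : A.valuation x ≤ 1) :
    ∃ n : ℕ, A.valuation x = A.valuation (1 - ζ) ^ n := by
  obtain ⟨n, hn⟩ := exists_zpow_of_mem_adjoin_zeta hq hA hζ hx0 hx
  have hlt := valuation_one_sub_zeta_lt hq hA hζ
  have hne : (1 : Qbar) - ζ ≠ 0 := sub_ne_zero.mpr (hζ.ne_one hq.one_lt).symm
  have hpos : 0 < A.valuation (1 - ζ) := zero_lt_iff.mpr ((Valuation.ne_zero_iff _).mpr hne)
  rw [hn, zpow_le_one_iff_right_of_lt_one₀ hpos hlt] at hxA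
  obtain ⟨k, rfl⟩ := Int.eq_ofNat_of_zero_le hxA
  exact ⟨k, by rw [hn, zpow_natCast]⟩

/-- integral version for `K0` -/
theorem exists_pow_of_mem_K0 (hq : q.Prime) (hA : A.LiesOverPrime q) {x : Qbar} (hx0 : x ≠ 0)
    (hx : x ∈ K0 A) (hxA : A.valuation x ≤ 1) :
    ∃ n : ℕ, A.valuation x = A.valuation (q : Qbar) ^ n := by
  obtain ⟨n, hn⟩ := exists_zpow_of_inertia_fixed hq hA hx0 (mem_K0.mp hx)
  have hlt : A.valuation (q : Qbar) < 1 := A.mem_nonunits_iff.mp hA
  have hne : (q : Qbar) ≠ 0 := by exact_mod_cast hq.ne_zero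
  have hpos : 0 < A.valuation (q : Qbar) := zero_lt_iff.mpr ((Valuation.ne_zero_iff _).mpr hne)
  rw [hn, zpow_le_one_iff_right_of_lt_one₀ hpos hlt] at hxA
  obtain ⟨k, rfl⟩ := Int.eq_ofNat_of_zero_le hxA
  exact ⟨k, by rw [hn, zpow_natCast]⟩

end Fermat.Agent.S36
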