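import Fermat.Agent.S36.Mod.F0Defs

/-!
# S36 / modular part : `K` is integrally closed in `F0 A N` (for the field `glob`)
-/


set_option autoImplicit false
set_option synthInstance.maxHeartbeats 400000
noncomputable section

namespace Fermat.Agent.S36

open ModularCurve

theorem laurent_eq_zero_of_isIntegral_of_order_pos {K : Type*} [Field K] {z : LaurentSeries K}
    (hz : IsIntegral K z) (ho : 0 < z.order) : z = 0 := by
  by_contra h0
  obtain ⟨m, hm⟩ : ∃ m : ℕ, z.order = (m : ℤ) := ⟨z.order.toNat, (Int.toNat_of_nonneg ho.le).symm⟩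
  have hm1 : m ≠ 0 := by
    rintro rfl
    simp [hm] at ho
  set p : PowerSeries K := PowerSeries.X ^ m * z.powerSeriesPart with hp
  have hzp : z = HahnSeries.ofPowerSeries ℤ K p := by
    rw [hp, map_mul, LaurentSeries.ofPowerSeries_powerSeriesPart, map_pow,
      HahnSeries.ofPowerSeries_X, HahnSeries.single_pow, one_pow, ← mul_assoc,
      HahnSeries.single_mul_single, hm]
    simp
  have h1 : Polynomial.eval₂ (algebraMap K (PowerSeries K)) p (minpoly K z) = 0 := by
    have h2 : Polynomial.eval₂ (algebraMap K (LaurentSeries K)) z (minpoly K z) = 0 :=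
      minpoly.aeval K z
    have h3 : algebraMap K (LaurentSeries K) =
        (HahnSeries.ofPowerSeries ℤ K).comp (algebraMap K (PowerSeries K)) := rfl
    rw [h3] at h2
    nth_rewrite 1 [hzp] at h2
    rw [← Polynomial.hom_eval₂] at h2
    exact (map_eq_zero_iff (HahnSeries.ofPowerSeries ℤ K) HahnSeries.ofPowerSeries_injective).1 h2
  have h3 := congrArg (PowerSeries.constantCoeff (R := K)) h1
  have h4 : PowerSeries.constantCoeff (R := K) p = 0 := by
    rw [hp, map_mul, map_pow, PowerSeries.constantCoeff_X, zero_pow hm1, zero_mul]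
  have h6 : (PowerSeries.constantCoeff (R := K)).comp (algebraMap K (PowerSeries K)) =
      RingHom.id K := by
    ext c
    simp
  rw [Polynomial.hom_eval₂, h4, h6, map_zero, Polynomial.eval₂_id,
    ← Polynomial.coeff_zero_eq_eval_zero] at h3
  exact minpoly.coeff_zero_ne_zero hz h0 h3

theorem laurent_algebraMap_eq_C {K : Type*} [Field K] (c : K) :
    algebraMap K (LaurentSeries K) c = HahnSeries.C c := by
  have h2 : algebraMap K (PowerSeries K) c = PowerSeries.C c := by simp
  rw [HahnSeries.algebraMap_apply', h2, HahnSeries.ofPowerSeries_C]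

theorem laurent_const_of_isIntegral {K : Type*} [Field K] {x : LaurentSeries K}
    (hx : IsIntegral K x) : ∃ c : K, x = algebraMap K (LaurentSeries K) c := by
  refine ⟨x.coeff 0, ?_⟩
  set y := x - algebraMap K (LaurentSeries K) (x.coeff 0) with hy
  have hyint : IsIntegral K y := hx.sub isIntegral_algebraMap
  have hy0 : y.coeff 0 = 0 := by
    rw [hy, HahnSeries.coeff_sub, laurent_algebraMap_eq_C, HahnSeries.C_apply,
      HahnSeries.coeff_single_same, sub_self]
  by_contra hne
  have hyne : y ≠ 0 := fun h => hne (sub_eq_zero.1 h)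
  have hord : y.order ≠ 0 := by
    intro h
    apply hyne
    rw [← HahnSeries.coeff_order_eq_zero, h]
    exact hy0
  rcases lt_or_gt_of_ne hord with h | h
  · have hinv : IsIntegral K y⁻¹ := by
      rw [← isAlgebraic_iff_isIntegral] at hyint ⊢
      exact hyint.inv
    have h1 : y.order + y⁻¹.order = 0 := by
      rw [← HahnSeries.order_mul hyne (inv_ne_zero hyne), mul_inv_cancel₀ hyne,
        HahnSeries.order_one]
    exact inv_ne_zero hyne (laurent_eq_zero_of_isIntegral_of_order_pos hinv (by omega))
  · exact hyne (laurent_eq_zero_of_isIntegral_of_order_pos hyint h)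

/-- `K` is integrally closed in `F0 A N`. -/
theorem F0_const_of_isIntegral (A : ValuationSubring Fermat.Agent.S24.Kb) (N : ℕ) (x : F0 A N)
    (hx : IsIntegral (KK A) x) : x ∈ Set.range (algebraMap (KK A) (F0 A N)) := by
  have h1 : IsIntegral (KK A) (x : LaurentSeries (KK A)) := by
    obtain ⟨P, hP, h0⟩ := hx
    refine ⟨P, hP, ?_⟩
    let φ : F0 A N →+* LaurentSeries (KK A) :=
      (laurentBaseChange (KK A) (modularFunctionFieldFull N)).val.toRingHom
    have h2 := congrArg φ h0
    rw [map_zero, Polynomial.hom_eval₂] at h2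
    exact h2
  obtain ⟨c, hc⟩ := laurent_const_of_isIntegral h1
  exact ⟨c, Subtype.ext hc.symm⟩

end Fermat.Agent.S36
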