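import Fermat.Agent.S36.Abs.DedRed
import Fermat.Agent.S36.F0.CtxM
import Fermat.Agent.RED.S37.Defs

/-!
# S36 / modular part : `[DED]` at the level `M` (good reduction, one component)

`intCl R s ⧸ p` is a Dedekind domain for `s = tM = jM ^ (q²) - jM` and `s = tM⁻¹`
(the fields `ded₁`, `ded₂` of `DedDatum`).
-/

set_option autoImplicit false
set_option synthInstance.maxHeartbeats 400000
noncomputable section

namespace Fermat.Agent.S36

open ModularCurve AlgebraicCurve Fermat.Agent.RED Fermat.Agent.RED.Gauss Fermat.Agent.S28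
open Fermat.Agent.S24 (Kb FN)

section General

variable (A : ValuationSubring S24.Kb) (M : ℕ) [NeZero M] {q : ℕ} [Fact q.Prime]
  (hA : A.LiesOverPrime q) (hqM : ¬ q ∣ M)

theorem gaussData0_red_eq_zero_iff (x : (gaussData0 A M hA hqM).O) :
    (gaussData0 A M hA hqM).red x = 0 ↔ (gaussData0 A M hA hqM).O.valuation (x : F0 A M) < 1 := by
  rw [← ValuationSubring.valuation_lt_one_iff, IsLocalRing.mem_maximalIdeal, mem_nonunits_iff,
    ← (gaussData0 A M hA hqM).red_ne_zero_iff, not_not]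

/-- **[DED-M]** for a general chart function `s` with separating reduction. -/
theorem isDedekindDomain_levelM [IsDiscreteValuationRing (RK A)] (h49 : 4 ∣ M ∨ 9 ∣ M) {s : F0 A M} {e f : Fin 1 → ℕ}
    {O : ValuationSubring (F0 A M)} (hO : O = (gaussData0 A M hA hqM).O)
    (S : GaussSys (KK A) ((q : ℕ) : RK A) s (fun _ : Fin 1 => O) e f)
    (hs : s ∈ (gaussData0 A M hA hqM).O)
    (hsep : IsSepParam (IsLocalRing.ResidueField A) ((gaussData0 A M hA hqM).red ⟨s, hs⟩)) :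
    IsDedekindDomain (intCl (RK A) s ⧸ S.p 0) := by
  subst hO
  have hq : q.Prime := Fact.out
  refine S.isDedekindDomain_of_red (irreducible_natCast_RK hq hA) (gaussData0 A M hA hqM).red
    (gaussData0_red_eq_zero_iff A M hA hqM) (S.gauss 0).const ?_ hs hsep ?_
  · intro r
    obtain ⟨a, ha⟩ := (gaussData0 A M hA hqM).red_const (r : KK A) ((S.gauss 0).const r)
    exact ⟨a, ha.symm⟩
  · intro u hu
    refine exists_lift_isIntegral A M hA hqM h49 ⟨s, hs⟩ ?_ u hu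
    rintro ⟨c, hc⟩
    apply hsep.transcendental
    rw [← hc]
    exact isAlgebraic_algebraMap c

end General

namespace Ctx

variable (C : Ctx)

theorem coe_jM : ((C.jM : C.FM) : LaurentSeries C.K) = iota C.R (jqModC C.R) := by
  show coeffEmb C.K (qExpand ℚ 1 jq) = _
  rw [qExpand_one_apply, ← jqModC_rat, coeffEmb, coeffMap_jqModC, iota, coeffMap_jqModC]

theorem jM_mem : C.jM ∈ C.gd0.O := by
  rw [mem_gaussData0_O, coe_jM]
  exact iota_mem_bigO _ _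

theorem red_jM : C.gd0.red ⟨C.jM, C.jM_mem⟩ = Cusp.jb C.k C.M := by
  apply Subtype.ext
  refine (coe_gaussData0_red C.A C.M C.hA C.hqM _).trans ?_
  show bigRed (pi0 C.A) ⟨(C.jM : LaurentSeries C.K), _⟩ = jqModC C.k
  have h := bigRed_iota (pi0 C.A) (jqModC C.R)
  rw [pi, coeffMap_jqModC] at h
  rw [← h]
  congr 1
  exact Subtype.ext C.coe_jM

local notation "tM'" => (Ctx.jM C ^ (Ctx.q C ^ 2) - Ctx.jM C)

theorem tM_mem : tM' ∈ C.gd0.O := sub_mem (pow_mem C.jM_mem _) C.jM_mem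

theorem red_tM : C.gd0.red ⟨tM', C.tM_mem⟩ = Cusp.jb C.k C.M ^ (C.q ^ 2) - Cusp.jb C.k C.M := by
  have : (⟨tM', C.tM_mem⟩ : C.gd0.O) = ⟨C.jM, C.jM_mem⟩ ^ (C.q ^ 2) - ⟨C.jM, C.jM_mem⟩ := rfl
  rw [this, map_sub, map_pow, red_jM]

theorem isSepParam_red_tM : IsSepParam C.k (C.gd0.red ⟨tM', C.tM_mem⟩) := by
  rw [red_tM]
  refine IsSepParam.pow_sub_self (Cusp.isSepParam_jb C.M C.k C.q C.hqM) ?_ ?_
  · rw [Nat.cast_pow, CharP.cast_eq_zero C.k C.q, zero_pow two_ne_zero]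
  · have := C.hq.two_le
    nlinarith

theorem red_tM_ne_zero : C.gd0.red ⟨tM', C.tM_mem⟩ ≠ 0 := by
  intro h
  apply C.isSepParam_red_tM.transcendental
  rw [h]
  exact isAlgebraic_zero

theorem tM_inv_mem : tM'⁻¹ ∈ C.gd0.O := by
  have := C.gd0.inv_mem_of_red_ne_zero (x := ⟨tM', C.tM_mem⟩) C.red_tM_ne_zero
  exact this

theorem isSepParam_red_tM_inv : IsSepParam C.k (C.gd0.red ⟨tM'⁻¹, C.tM_inv_mem⟩) := by
  have := C.gd0.red_inv (x := ⟨tM', C.tM_mem⟩) C.red_tM_ne_zero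
  have h2 : C.gd0.red ⟨tM'⁻¹, C.tM_inv_mem⟩ = (C.gd0.red ⟨tM', C.tM_mem⟩)⁻¹ := this
  rw [h2]
  exact C.isSepParam_red_tM.inv

theorem h49_of_aux (h49 : Fermat.Agent.RED.aux C.q ∣ C.M) : 4 ∣ C.M ∨ 9 ∣ C.M := by
  rcases Fermat.Agent.RED.aux_eq C.q with h | h
  · exact Or.inl (h ▸ h49)
  · exact Or.inr (h ▸ h49)

/-- **[DED-M]**, first chart (the field `ded₁` of `DedDatum`). -/
theorem dedM₁_gen (h49 : 4 ∣ C.M ∨ 9 ∣ C.M) {e f : Fin 1 → ℕ}
    (S : GaussSys C.K ((C.q : ℕ) : C.R) (C.jM ^ (C.q ^ 2) - C.jM) (fun _ : Fin 1 => C.O1) e f) :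
    IsDedekindDomain (intCl C.R (C.jM ^ (C.q ^ 2) - C.jM) ⧸ S.p 0) :=
  isDedekindDomain_levelM C.A C.M C.hA C.hqM h49 C.O1_eq S C.tM_mem
    C.isSepParam_red_tM

/-- **[DED-M]**, second chart (the field `ded₂` of `DedDatum`). -/
theorem dedM₂_gen (h49 : 4 ∣ C.M ∨ 9 ∣ C.M) {e f : Fin 1 → ℕ}
    (S : GaussSys C.K ((C.q : ℕ) : C.R) (C.jM ^ (C.q ^ 2) - C.jM)⁻¹ (fun _ : Fin 1 => C.O1) e f) :
    IsDedekindDomain (intCl C.R (C.jM ^ (C.q ^ 2) - C.jM)⁻¹ ⧸ S.p 0) :=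
  isDedekindDomain_levelM C.A C.M C.hA C.hqM h49 C.O1_eq S C.tM_inv_mem
    C.isSepParam_red_tM_inv

end Ctx

end Fermat.Agent.S36
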