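import Fermat.Agent.S36.Mod.SysTop

/-!
# S36 / modular part : `[SYS-M]` the `GaussSys` instance at the level `M` (one component `C.O1`)   (owner helper6)
-/

set_option autoImplicit false
set_option linter.unusedSectionVars false
noncomputable section

open ModularCurve Polynomial

namespace Fermat.Agent.S36

open Fermat.Agent.S24 Fermat.Agent.RED.Gauss Fermat.Agent.GAL.AD Fermat.Agent.S28

namespace Ctx

variable (C : Ctx)

theorem e1_const_sysM (c : C.K) :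
    C.e1 (algebraMap C.K C.FM c) = HahnSeries.C (algebraMap C.K Kb c) := by
  have h0 : ((algebraMap Kb (FN C.M) (algebraMap C.K Kb c) : FN C.M) :
      LaurentSeries Kb) = HahnSeries.C (algebraMap C.K Kb c) := by
    show algebraMap Kb (LaurentSeries Kb) _ = _
    rw [algebraMap_laurentSeries_eq_single, HahnSeries.C_apply]
  show ((embF0 C.A C.M (algebraMap C.K C.FM c) : FN C.M) : LaurentSeries Kb) = _
  rw [embF0_algebraMap, h0]

theorem redsTo_e1_jM : RedsTo C.π (C.e1 C.jM) (jqModC C.k) := by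
  rw [e1_apply, jM_eq_jK, cK_jK]
  have := redsTo_jqNModC C.A 1
  rwa [jqNModC_one (K := C.k)] at this

theorem jM_mem_O1 : C.jM ∈ C.O1 := C.redsTo_e1_jM.mem_gvO C.hπ C.disc1

theorem isGaussAt_O1 : IsGaussAt ((C.q : ℕ) : C.R) C.jM C.O1 := by
  refine gv_isGaussAt C.hπ C.disc1 (ρ := pi0 C.A) (hc_of_const C.A _ C.e1_const_sysM) C.jM_mem_O1
    (dvd_of_pi0_eq_zero C.A C.hA) (pi0_natCast_eq_zero C.A C.hA) ?_
  rw [C.redsTo_e1_jM.gvRed_eq C.hπ C.disc1 C.jM_mem_O1]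
  exact P2MW.S_ModularCurve_coeff_jqModC_neg_one.ModularCurve.CharLRows.transcendental_jqModC C.k

theorem exists_res_O1 : ∃ ω : Fin C.psi → C.FM, (∀ j, ω j ∈ C.O1) ∧ ∀ c : Fin C.psi → C.R[X],
    C.O1.valuation (∑ j, aeval C.jM (c j) * ω j) < 1 → ∀ j, Polynomial.C ((C.q : ℕ) : C.R) ∣ c j := by
  have h1 := exists_resInd C.k C.q C.M C.hqM (n := 1) one_pos
  have e : 1 * dedekindPsi C.M = C.psi := one_mul _
  rw [e] at h1
  simp only [pow_one] at h1
  obtain ⟨b, hb⟩ := h1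
  choose v hv using fun j => exists_lift_F0 C.A C.hA C.M C.hqM (b j)
  have hv' : ∀ j, RedsTo C.π (C.e1 (v j)) (b j : LaurentSeries C.k) := hv
  have hω := fun j => (hv' j).mem_gvO C.hπ C.disc1
  refine ⟨v, hω, ?_⟩
  refine gv_res C.hπ C.disc1 (ρ := pi0 C.A) (hc_of_const C.A _ C.e1_const_sysM) C.jM_mem_O1
    (dvd_of_pi0_eq_zero C.A C.hA) _ hω ?_
  intro c hc
  apply hb c
  rw [← hc]
  refine Finset.sum_congr rfl fun j _ => ?_
  rw [C.redsTo_e1_jM.gvRed_eq C.hπ C.disc1 C.jM_mem_O1, (hv' j).gvRed_eq C.hπ C.disc1 (hω j)]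
  rfl

/-- **[SYS-M]** -/
theorem sysM_aux : GaussSys C.K ((C.q : ℕ) : C.R) C.jM (fun _ : Fin 1 => C.O1) (fun _ => 1)
    (fun _ => C.psi) := by
  have hdeg := finrank_F0_le (A := C.A) (N := C.M) C.jM (by
    rw [jM_eq_jK, embF0_jK_one]
    exact finrank_adjoin_jF' C.M)
  refine ⟨fun a b _ => Subsingleton.elim a b, fun _ => C.isGaussAt_O1, fun _ => ?_,
    fun _ => C.exists_res_O1, hdeg.1, ?_⟩
  · exact ⟨_, C.isGaussAt_O1.lt_one, by rw [pow_one]⟩
  · simpa [psi] using hdeg.2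

end Ctx

end Fermat.Agent.S36
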