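import Fermat.Agent.RED.ES.Swap

/-!
# S36 / [W] : the Atkin–Lehner involution `W_Q` on the function field of `X₀(N Q)`, `(N, Q) = 1`

General `Q` (not nec. prime), level written as `L` with `hL : L = N * Q` (so that `L = M * q * q`
can be used without casts).  Main results:

* `alW` : `FN L →+* FN L`, with `ThetaMer_alW : Θ (alW f) = (Θ f) ∘ W`;
* `alW_jBar : alW (jBar L (e * d)) = jBar L (e' * d)` for `d ∣ N`, `e * e' = Q`;
* `alW_alW : alW (alW f) = f`;
* `exists_W2` : the statement used in S36 at level `M * q * q`.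
-/

set_option autoImplicit false

open UpperHalfPlane ModularCurve Fermat.Agent.S24 Fermat.Agent.RED.ES
open scoped MatrixGroups

set_option linter.unusedSectionVars false

namespace Fermat.Agent.S36

noncomputable section

section Matrix

variable (N Q : ℕ) [NeZero Q] (x y : ℤ)

/-- Auxiliary element of `SL(2,ℤ)`. -/
def gamW (d d' e e' : ℕ) (hd : d * d' = N) (he : e * e' = Q) (h : (Q : ℤ) * x - N * y = 1) :
    SL(2, ℤ) :=
  ⟨!![e * x, d * y; d', e'], by
    rw [Matrix.det_fin_two_of]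
    have h1 : (N : ℤ) = d * d' := by exact_mod_cast hd.symm
    have h2 : (Q : ℤ) = e * e' := by exact_mod_cast he.symm
    rw [h1, h2] at h
    linear_combination h⟩

theorem scal_wGL_smul_gen [NeZero N] (d d' e e' : ℕ) [NeZero d] [NeZero e] [NeZero e']
    (hd : d * d' = N) (he : e * e' = Q) (h : (Q : ℤ) * x - N * y = 1) (τ : ℍ) :
    scal (e * d) (wGL N Q x y h • τ) = gamW N Q x y d d' e e' hd he h • scal (e' * d) τ := by
  apply UpperHalfPlane.ext
  have hden := den_ne_zero N Q τ
  have hN : (N : ℂ) = d * d' := by exact_mod_cast hd.symm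
  have hQ : (Q : ℂ) = e * e' := by exact_mod_cast he.symm
  have he0 : (e : ℂ) ≠ 0 := by exact_mod_cast NeZero.ne e
  rw [coe_scal, coe_wGL_smul, UpperHalfPlane.coe_specialLinearGroup_apply, coe_scal]
  have hden' : ((algebraMap ℤ ℝ (gamW N Q x y d d' e e' hd he h 1 0) : ℝ) : ℂ)
        * (((e' * d : ℕ) : ℂ) * τ)
      + ((algebraMap ℤ ℝ (gamW N Q x y d d' e e' hd he h 1 1) : ℝ) : ℂ)
      = (N : ℂ) * e' * τ + e' := by
    simp [gamW, hN]; ring
  have hden2 : (N : ℂ) * e' * τ + e' ≠ 0 := by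
    intro h0
    apply hden
    rw [hQ]
    linear_combination (e : ℂ) * h0
  rw [hden', mul_div_assoc', div_eq_div_iff hden hden2]
  simp [gamW, hQ]; ring

theorem jd_wGL_smul_gen [NeZero N] (d e e' : ℕ) [NeZero d] [NeZero e] [NeZero e']
    (hd : d ∣ N) (he : e * e' = Q) (h : (Q : ℤ) * x - N * y = 1) (τ : ℍ) :
    jd (e * d) (wGL N Q x y h • τ) = jd (e' * d) τ := by
  obtain ⟨d', hd'⟩ := hd
  rw [jd, scal_wGL_smul_gen N Q x y d d' e e' hd'.symm he h, jfun_isSLInvariant, jd]

end Matrix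

section W

variable (L N Q : ℕ) [NeZero L] [NeZero N] [NeZero Q] (hL : L = N * Q)
  (x y : ℤ) (h : (Q : ℤ) * x - N * y = 1)

theorem compGL_jdHol_gen (d e e' : ℕ) [NeZero d] [NeZero e] [NeZero e']
    (hd : d ∣ N) (he : e * e' = Q) :
    compGL (wGL N Q x y h) (det_wGL_pos N Q x y h) (jdHol (e * d)) = jdHol (e' * d) := by
  apply Subtype.ext
  funext τ
  exact jd_wGL_smul_gen N Q x y d e e' hd he h τ

include hL in
theorem mul_dvd_level {d e : ℕ} (hd : d ∣ N) (he : e ∣ Q) : e * d ∣ L := by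
  rw [hL, mul_comm N Q]; exact mul_dvd_mul he hd

/-- The ring hom `f ↦ (Θ f) ∘ W`. -/
def preW : FN L →+* Mer :=
  (compMer (wGL N Q x y h) (det_wGL_pos N Q x y h)).comp (ThetaMer L)

theorem preW_apply (f : FN L) :
    preW L N Q x y h f = compMer (wGL N Q x y h) (det_wGL_pos N Q x y h) (ThetaMer L f) := rfl

theorem preW_algebraMap (a : Kb) :
    preW L N Q x y h (algebraMap Kb (FN L) a) = ThetaMer L (algebraMap Kb _ a) := by
  rw [preW, RingHom.comp_apply, ThetaMer_algebraMap, compMer_const]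

theorem preW_jBar (d e e' : ℕ) [NeZero d] [NeZero e] [NeZero e'] (hd : d ∣ N) (he : e * e' = Q) :
    preW L N Q x y h (jBar L (e * d) (mul_dvd_level L N Q hL hd ⟨e', he.symm⟩))
      = ThetaMer L (jBar L (e' * d)
          (mul_dvd_level L N Q hL hd ⟨e, by rw [← he, mul_comm]⟩)) := by
  rw [preW, RingHom.comp_apply, ThetaMer_jBar, ThetaMer_jBar, compMer_algebraMap,
    compGL_jdHol_gen N Q x y h d e e' hd he]

include hL in
/-- Splitting of a divisor of the level. -/
theorem exists_split {D : ℕ} (hD : D ∣ L) :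
    ∃ d e e' : ℕ, d ∣ N ∧ e * e' = Q ∧ D = e * d := by
  rw [hL] at hD
  obtain ⟨d, e, hd, ⟨e', he⟩, hDe⟩ := exists_dvd_and_dvd_of_dvd_mul hD
  exact ⟨d, e, e', hd, he.symm, by rw [hDe, mul_comm]⟩

include hL in
theorem preW_mem_range (f : FN L) : preW L N Q x y h f ∈ (ThetaMer L).fieldRange := by
  let F := modularFunctionFieldBar L
  let S0 : Subfield F := (ThetaMer L).fieldRange.comap (preW L N Q x y h)
  let S : Subfield (LaurentSeries Kb) := S0.map F.val.toRingHom
  have key : ∀ z ∈ F, z ∈ S := by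
    apply bar_le
    · intro a
      exact ⟨algebraMap Kb F a, ⟨_, (preW_algebraMap L N Q x y h a).symm⟩, rfl⟩
    · intro D _ hD
      refine ⟨jBar L D hD, ?_, coe_jBar L D hD⟩
      obtain ⟨d, e, e', hd, he, rfl⟩ := exists_split L N Q hL hD
      have : NeZero d := ⟨fun h0 => NeZero.ne (e * d) (by rw [h0, mul_zero])⟩
      have : NeZero e := ⟨fun h0 => NeZero.ne (e * d) (by rw [h0, zero_mul])⟩
      have : NeZero e' := ⟨fun h0 => NeZero.ne Q (by rw [← he, h0, mul_zero])⟩
      exact ⟨_, (preW_jBar L N Q hL x y h d e e' hd he).symm⟩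
  obtain ⟨z, hz, hzf⟩ := key f f.2
  have : z = f := Subtype.ext hzf
  rw [← this]; exact hz

/-- The Atkin–Lehner involution `W_Q`. -/
def alW : FN L →+* FN L :=
  liftThrough (ThetaMer L) (preW L N Q x y h) (preW_mem_range L N Q hL x y h)

/-- Analytic characterisation of `alW`. -/
theorem ThetaMer_alW (f : FN L) :
    ThetaMer L (alW L N Q hL x y h f)
      = compMer (wGL N Q x y h) (det_wGL_pos N Q x y h) (ThetaMer L f) :=
  liftThrough_spec _ _ _ f

theorem alW_eq_iff (f g : FN L) :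
    alW L N Q hL x y h f = g ↔ preW L N Q x y h f = ThetaMer L g :=
  liftThrough_eq_iff _ _ _ f g

theorem alW_algebraMap (a : Kb) :
    alW L N Q hL x y h (algebraMap Kb _ a) = algebraMap Kb _ a := by
  rw [alW_eq_iff, preW_algebraMap]

theorem alW_jBar (d e e' : ℕ) [NeZero d] [NeZero e] [NeZero e'] (hd : d ∣ N) (he : e * e' = Q) :
    alW L N Q hL x y h (jBar L (e * d) (mul_dvd_level L N Q hL hd ⟨e', he.symm⟩))
      = jBar L (e' * d) (mul_dvd_level L N Q hL hd ⟨e, by rw [← he, mul_comm]⟩) := by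
  rw [alW_eq_iff, preW_jBar L N Q hL x y h d e e' hd he]

/-- Version with free divisors. -/
theorem alW_jBar' (d e e' D D' : ℕ) [NeZero d] [NeZero e] [NeZero e'] [NeZero D] [NeZero D']
    (hd : d ∣ N) (he : e * e' = Q) (hD : D = e * d) (hD' : D' = e' * d) (h1 : D ∣ L)
    (h2 : D' ∣ L) :
    alW L N Q hL x y h (jBar L D h1) = jBar L D' h2 := by
  subst hD hD'
  exact alW_jBar L N Q hL x y h d e e' hd he

theorem alW_alW (f : FN L) : alW L N Q hL x y h (alW L N Q hL x y h f) = f := by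
  have : (alW L N Q hL x y h).comp (alW L N Q hL x y h) = RingHom.id (FN L) := by
    apply ringHom_ext_bar
    · intro a
      simp only [RingHom.comp_apply, RingHom.id_apply, alW_algebraMap]
    · intro D _ hD
      obtain ⟨d, e, e', hd, he, rfl⟩ := exists_split L N Q hL hD
      have : NeZero d := ⟨fun h0 => NeZero.ne (e * d) (by rw [h0, mul_zero])⟩
      have : NeZero e := ⟨fun h0 => NeZero.ne (e * d) (by rw [h0, zero_mul])⟩
      have : NeZero e' := ⟨fun h0 => NeZero.ne Q (by rw [← he, h0, mul_zero])⟩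
      simp only [RingHom.comp_apply, RingHom.id_apply]
      rw [alW_jBar L N Q hL x y h d e e' hd he,
        alW_jBar L N Q hL x y h d e' e hd (by rw [← he, mul_comm])]
  exact congrArg (fun φ => φ f) this

end W

section Level2

variable (M q : ℕ) [NeZero M] [NeZero q] (x y : ℤ) (h : ((q * q : ℕ) : ℤ) * x - M * y = 1)

/-- The Atkin–Lehner involution `W_{q²}` at level `M q²`. -/
def W2 : FN (M * q * q) →+* FN (M * q * q) :=
  alW (M * q * q) M (q * q) (mul_assoc M q q) x y h

theorem ThetaMer_W2 (f : FN (M * q * q)) :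
    ThetaMer (M * q * q) (W2 M q x y h f)
      = compMer (wGL M (q * q) x y h) (det_wGL_pos M (q * q) x y h) (ThetaMer (M * q * q) f) :=
  ThetaMer_alW _ _ _ _ _ _ _ f

theorem W2_algebraMap (a : Kb) : W2 M q x y h (algebraMap Kb _ a) = algebraMap Kb _ a :=
  alW_algebraMap _ _ _ _ _ _ _ a

theorem W2_W2 (f : FN (M * q * q)) : W2 M q x y h (W2 M q x y h f) = f :=
  alW_alW _ _ _ _ _ _ _ f

/-- `W ∘ α = β ∘ s` for any swap `s` at level `M q`. -/
theorem W2_alpha (s : FN (M * q) →+* FN (M * q))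
    (hs0 : ∀ a : Kb, s (algebraMap Kb _ a) = algebraMap Kb _ a)
    (hs1 : ∀ f : FN M, s (heckeAlphaBar Kb M q f) = heckeBetaBar Kb M q f)
    (hs2 : ∀ f : FN M, s (heckeBetaBar Kb M q f) = heckeAlphaBar Kb M q f)
    (hq : q.Prime) (f : FN (M * q)) :
    W2 M q x y h (heckeAlphaBar Kb (M * q) q f) = heckeBetaBar Kb (M * q) q (s f) := by
  have : (W2 M q x y h).comp (heckeAlphaBar Kb (M * q) q : FN (M * q) →+* FN (M * q * q))
      = (heckeBetaBar Kb (M * q) q : FN (M * q) →+* FN (M * q * q)).comp s := by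
    apply ringHom_ext_bar
    · intro a
      simp only [RingHom.comp_apply, RingHom.coe_coe, AlgHom.commutes, hs0]
      exact W2_algebraMap M q x y h a
    · intro D _ hD
      simp only [RingHom.comp_apply, RingHom.coe_coe]
      rw [heckeAlphaBar_jBar]
      by_cases hqD : q ∣ D
      · obtain ⟨d, rfl⟩ := hqD
        have hd : d ∣ M := by
          rw [mul_comm M q] at hD
          exact Nat.dvd_of_mul_dvd_mul_left hq.pos hD
        have : NeZero d := ⟨fun h0 => NeZero.ne (q * d) (by rw [h0, mul_zero])⟩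
        have e1 : jBar (M * q) (q * d) hD = heckeBetaBar Kb M q (jBar M d hd) := by
          rw [heckeBetaBar_jBar]
        rw [e1, hs2, heckeAlphaBar_jBar, heckeBetaBar_jBar]
        exact alW_jBar' _ _ _ _ _ _ _ d q q _ _ hd rfl rfl rfl _ _
      · have hd : D ∣ M :=
          (Nat.Coprime.dvd_of_dvd_mul_right ((Nat.Prime.coprime_iff_not_dvd hq).mpr hqD).symm hD)
        have e1 : jBar (M * q) D hD = heckeAlphaBar Kb M q (jBar M D hd) := by
          rw [heckeAlphaBar_jBar]
        rw [e1, hs1, heckeBetaBar_jBar, heckeBetaBar_jBar]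
        exact alW_jBar' _ _ _ _ _ _ _ D 1 (q * q) _ _ hd (one_mul _) (one_mul _).symm
          (mul_assoc _ _ _).symm _ _
  exact congrArg (fun φ => φ f) this

/-- `W ∘ β = α ∘ s` for any swap `s` at level `M q`. -/
theorem W2_beta (s : FN (M * q) →+* FN (M * q))
    (hs0 : ∀ a : Kb, s (algebraMap Kb _ a) = algebraMap Kb _ a)
    (hs1 : ∀ f : FN M, s (heckeAlphaBar Kb M q f) = heckeBetaBar Kb M q f)
    (hs2 : ∀ f : FN M, s (heckeBetaBar Kb M q f) = heckeAlphaBar Kb M q f)
    (hq : q.Prime) (f : FN (M * q)) :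
    W2 M q x y h (heckeBetaBar Kb (M * q) q f) = heckeAlphaBar Kb (M * q) q (s f) := by
  have hss : ∀ g : FN (M * q), s (s g) = g := by
    have : s.comp s = RingHom.id _ := by
      apply ringHom_ext_bar
      · intro a
        simp only [RingHom.comp_apply, RingHom.id_apply, hs0]
      · intro D _ hD
        simp only [RingHom.comp_apply, RingHom.id_apply]
        by_cases hqD : q ∣ D
        · obtain ⟨d, rfl⟩ := hqD
          have hd : d ∣ M := by
            rw [mul_comm M q] at hD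
            exact Nat.dvd_of_mul_dvd_mul_left hq.pos hD
          have : NeZero d := ⟨fun h0 => NeZero.ne (q * d) (by rw [h0, mul_zero])⟩
          have e1 : jBar (M * q) (q * d) hD = heckeBetaBar Kb M q (jBar M d hd) := by
            rw [heckeBetaBar_jBar]
          rw [e1, hs2, hs1]
        · have hd : D ∣ M :=
            (Nat.Coprime.dvd_of_dvd_mul_right
              ((Nat.Prime.coprime_iff_not_dvd hq).mpr hqD).symm hD)
          have e1 : jBar (M * q) D hD = heckeAlphaBar Kb M q (jBar M D hd) := by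
            rw [heckeAlphaBar_jBar]
          rw [e1, hs1, hs2]
    exact fun g => congrArg (fun φ => φ g) this
  have h1 := W2_alpha M q x y h s hs0 hs1 hs2 hq (s f)
  rw [hss] at h1
  rw [← h1, W2_W2]

end Level2

/-- **[W]** The Atkin–Lehner involution `W_{q²}` on the function field of `X₀(M q²)`. -/
theorem exists_W2 (M q : ℕ) [NeZero M] [NeZero q] (hq : q.Prime) (hqM : ¬ q ∣ M) :
    ∃ w : FN (M * q * q) →+* FN (M * q * q),
      (∀ a : Kb, w (algebraMap Kb _ a) = algebraMap Kb _ a) ∧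
      (∀ f, w (w f) = f) ∧
      (∀ u : FN M, w (heckeAlphaBar Kb (M * q) q (heckeAlphaBar Kb M q u))
        = heckeBetaBar Kb (M * q) q (heckeBetaBar Kb M q u)) ∧
      (∀ u : FN M, w (heckeAlphaBar Kb (M * q) q (heckeBetaBar Kb M q u))
        = heckeAlphaBar Kb (M * q) q (heckeBetaBar Kb M q u)) ∧
      (∀ u : FN M, w (heckeBetaBar Kb (M * q) q (heckeBetaBar Kb M q u))
        = heckeAlphaBar Kb (M * q) q (heckeAlphaBar Kb M q u)) ∧
      (∀ s : FN (M * q) →+* FN (M * q),
        (∀ a : Kb, s (algebraMap Kb _ a) = algebraMap Kb _ a) →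
        (∀ f : FN M, s (heckeAlphaBar Kb M q f) = heckeBetaBar Kb M q f) →
        (∀ f : FN M, s (heckeBetaBar Kb M q f) = heckeAlphaBar Kb M q f) →
        (∀ f : FN (M * q), w (heckeAlphaBar Kb (M * q) q f) = heckeBetaBar Kb (M * q) q (s f)) ∧
        (∀ f : FN (M * q), w (heckeBetaBar Kb (M * q) q f) = heckeAlphaBar Kb (M * q) q (s f))) := by
  have hcop : IsCoprime ((q * q : ℕ) : ℤ) (M : ℤ) := by
    apply Nat.isCoprime_iff_coprime.mpr
    have := (Nat.Prime.coprime_iff_not_dvd hq).mpr hqM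
    exact Nat.Coprime.mul_left this this
  obtain ⟨a, b, hab⟩ := hcop
  have h : ((q * q : ℕ) : ℤ) * a - M * (-b) = 1 := by linear_combination hab
  obtain ⟨s, hs0, hs1, hs2⟩ := exists_swap M q hq hqM
  have hA := W2_alpha M q a (-b) h s hs0 hs1 hs2 hq
  have hB := W2_beta M q a (-b) h s hs0 hs1 hs2 hq
  refine ⟨W2 M q a (-b) h, W2_algebraMap M q a (-b) h, W2_W2 M q a (-b) h, ?_, ?_, ?_, ?_⟩
  · intro u; rw [hA, hs1]
  · intro u
    rw [hA, hs2]
    apply Subtype.ext
    simp
  · intro u; rw [hB, hs2]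
  · intro s' h0 h1 h2
    exact ⟨W2_alpha M q a (-b) h s' h0 h1 h2 hq, W2_beta M q a (-b) h s' h0 h1 h2 hq⟩

end

end Fermat.Agent.S36
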