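import Fermat.Agent.S36.Mod.Trans
import Fermat.Agent.S24.Cusp.SigmaInf

set_option autoImplicit false

open UpperHalfPlane Function Complex ModularForm ModularCurve CongruenceSubgroup
open scoped Manifold MatrixGroups Real
open Fermat.Agent.S24

set_option linter.unusedSectionVars false

noncomputable section

namespace Fermat.Agent.S36

section Matrix

/-- The matrix sending `∞` to the cusp `1/(qMk)`. -/
def gam (M q : ℕ) (k : ℤ) : SL(2, ℤ) :=
  ⟨!![1, 0; (q : ℤ) * M * k, 1], by rw [Matrix.det_fin_two_of]; ring⟩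

/-- Auxiliary element of `SL(2,ℤ)`. -/
def del (q d d' : ℕ) (k B n : ℤ) (h : (q : ℤ) * n + d * d' * k * B = 1) : SL(2, ℤ) :=
  ⟨!![(q : ℤ), -(d * B); d' * k, n], by rw [Matrix.det_fin_two_of]; linear_combination h⟩

theorem scal_gam_smul (M q d d' : ℕ) [NeZero q] [NeZero d] (k B n : ℤ) (hdd : d * d' = M)
    (h : (q : ℤ) * n + d * d' * k * B = 1) (τ : ℍ) :
    scal (d * q * q) (gam M q k • τ) = del q d d' k B n h • scal d (((B : ℝ) / q) +ᵥ τ) := by
  apply UpperHalfPlane.ext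
  have hq : (q : ℂ) ≠ 0 := by exact_mod_cast NeZero.ne q
  have hM : (M : ℂ) = d * d' := by exact_mod_cast hdd.symm
  have h' : (q : ℂ) * n + d * d' * k * B = 1 := by exact_mod_cast h
  have hden1 : (q : ℂ) * M * k * (τ : ℂ) + 1 ≠ 0 := by
    have := UpperHalfPlane.linear_ne_zero (cd := ![(q : ℝ) * M * k, 1]) τ (by
        intro h0
        have := congrFun h0 1
        simp at this)
    simpa using this
  have hden2 : (d' : ℂ) * k * ((d : ℂ) * ((B : ℂ) / q + τ)) + n ≠ 0 := by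
    intro h0
    apply hden1
    have : (q : ℂ) * M * k * (τ : ℂ) + 1
        = q * ((d' : ℂ) * k * ((d : ℂ) * ((B : ℂ) / q + τ)) + n) := by
      rw [hM, ← h']
      field_simp
      ring
    rw [this, h0, mul_zero]
  rw [coe_scal, UpperHalfPlane.coe_specialLinearGroup_apply,
    UpperHalfPlane.coe_specialLinearGroup_apply, coe_scal, coe_vadd]
  have e1 : ((algebraMap ℤ ℝ (gam M q k 1 0) : ℝ) : ℂ) * (τ : ℂ)
      + ((algebraMap ℤ ℝ (gam M q k 1 1) : ℝ) : ℂ) = (q : ℂ) * M * k * (τ : ℂ) + 1 := by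
    simp [gam]
  have e2 : ((algebraMap ℤ ℝ (del q d d' k B n h 1 0) : ℝ) : ℂ) *
      ((d : ℂ) * ((((B : ℝ) / q : ℝ) : ℂ) + τ))
      + ((algebraMap ℤ ℝ (del q d d' k B n h 1 1) : ℝ) : ℂ)
      = (d' : ℂ) * k * ((d : ℂ) * ((B : ℂ) / q + τ)) + n := by
    simp [del]
  rw [e1, e2, mul_div_assoc', div_eq_div_iff hden1 hden2]
  simp only [gam, del]
  simp
  rw [hM]
  field_simp
  linear_combination ((d : ℂ) * q * τ) * h'


theorem gam_mem_Gamma0 (M q : ℕ) (k : ℤ) : gam M q k ∈ Gamma0 (M * q) := by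
  rw [Gamma0_mem]
  have : ((gam M q k) 1 0 : ℤ) = ((M * q : ℕ) : ℤ) * k := by
    have h1 : ((gam M q k) 1 0 : ℤ) = (q : ℤ) * M * k := by simp [gam]
    rw [h1]; push_cast; ring
  rw [this]
  push_cast
  have h0 : ((M : ZMod (M * q)) * (q : ZMod (M * q))) = 0 := by
    have := ZMod.natCast_self (M * q)
    push_cast at this
    exact this
  rw [h0, zero_mul]

theorem jd_gam_smul (M q d : ℕ) [NeZero q] [NeZero d] (k B n : ℤ) (hd : d ∣ M)
    (h : (q : ℤ) * n + M * k * B = 1) (τ : ℍ) :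
    jd (d * q * q) (gam M q k • τ) = jd d (((B : ℝ) / q) +ᵥ τ) := by
  obtain ⟨d', hdd⟩ := hd
  have h' : (q : ℤ) * n + d * d' * k * B = 1 := by
    rw [← h, hdd]; push_cast; ring
  rw [jd, scal_gam_smul M q d d' k B n hdd.symm h', jfun_isSLInvariant, jd]

theorem exists_decomp {M q D : ℕ} (hq : q.Prime) (hD : D ∣ M * q * q) :
    D ∣ M * q ∨ ∃ d, d ∣ M ∧ D = d * q * q := by
  rw [mul_assoc, ← sq] at hD
  obtain ⟨d, e, hd, he, rfl⟩ := exists_dvd_and_dvd_of_dvd_mul hD
  obtain ⟨i, hi, rfl⟩ := (Nat.dvd_prime_pow hq).1 he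
  interval_cases i
  · left
    rw [pow_zero, mul_one]
    exact hd.trans (dvd_mul_right M q)
  · left
    rw [pow_one]
    exact mul_dvd_mul_right hd q
  · right
    exact ⟨d, hd, by ring⟩

end Matrix

section Sigma2

variable (M q : ℕ) [NeZero M] [NeZero q] (k B n : ℤ)

theorem actHol_gam_inv_jdHol (d : ℕ) [NeZero d] (hd : d ∣ M)
    (h : (q : ℤ) * n + M * k * B = 1) :
    actHol (gam M q k)⁻¹ (jdHol (d * q * q)) = transHol ((B : ℝ) / q) (jdHol d) := by
  apply Subtype.ext
  funext τ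
  rw [actHol_apply, inv_inv, transHol_apply]
  exact jd_gam_smul M q d k B n hd h τ

/-- `f ↦ (Θ f) ∘ γ₂`. -/
def pre2 : FN (M * q * q) →+* Mer := sigma0 (M * q * q) (gam M q k)⁻¹

theorem pre2_apply (f : FN (M * q * q)) :
    pre2 M q k f = actMer (gam M q k)⁻¹ (ThetaMer (M * q * q) f) := rfl

theorem pre2_algebraMap (a : Kb) :
    pre2 M q k (algebraMap Kb (FN (M * q * q)) a) = algebraMap ℂ Mer (iotaK a) :=
  sigma0_algebraMap _ _ a

theorem pre2_jBar_of_dvd (D : ℕ) [NeZero D] (hD : D ∣ M * q) :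
    pre2 M q k (jBar (M * q * q) D (hD.trans (dvd_mul_right _ q)))
      = algebraMap Hol Mer (jdHol D) := by
  rw [pre2, sigma0_jBar,
    actHol_jdHol_of_mem jfun_isSLInvariant hD (inv_mem (gam_mem_Gamma0 M q k))]

theorem mul_mul_dvd {d : ℕ} (hd : d ∣ M) : d * q * q ∣ M * q * q :=
  mul_dvd_mul_right (mul_dvd_mul_right hd q) q

theorem pre2_jBar_mul (d : ℕ) [NeZero d] (hd : d ∣ M) (h : (q : ℤ) * n + M * k * B = 1) :
    pre2 M q k (jBar (M * q * q) (d * q * q) (mul_mul_dvd M q hd))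
      = algebraMap Hol Mer (transHol ((B : ℝ) / q) (jdHol d)) := by
  rw [pre2, sigma0_jBar, actHol_gam_inv_jdHol M q k B n d hd h]

variable (hq : q.Prime) (h : (q : ℤ) * n + M * k * B = 1)

include hq h in
theorem pre2_mem_range (f : FN (M * q * q)) : pre2 M q k f ∈ (toMer 1).fieldRange := by
  apply map_mem_of_gen
  · intro a
    exact ⟨algebraMap ℂ (MerPer 1) (iotaK a), by rw [toMer_const, pre2_algebraMap]⟩
  · intro D _ hD
    rcases exists_decomp hq hD with hD' | ⟨d, hd, rfl⟩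
    · exact ⟨jdPer D, by rw [toMer_jdPer, pre2_jBar_of_dvd M q k D hD']⟩
    · have : NeZero d := ⟨fun h0 => NeZero.ne (d * q * q) (by rw [h0]; simp)⟩
      exact ⟨transMerPer 1 ((B : ℝ) / q) (jdPer d), by
        rw [toMer_transMerPer, toMer_jdPer, transMer_algebraMap, pre2_jBar_mul M q k B n d hd h]⟩

/-- `pre2` with values in `MerPer 1`. -/
def per2 : FN (M * q * q) →+* MerPer 1 :=
  liftThrough (toMer 1) (pre2 M q k) (pre2_mem_range M q k B n hq h)

theorem toMer_per2 (f : FN (M * q * q)) :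
    toMer 1 (per2 M q k B n hq h f) = actMer (gam M q k)⁻¹ (ThetaMer (M * q * q) f) :=
  liftThrough_spec _ _ _ f

theorem per2_eq_iff (f : FN (M * q * q)) (u : MerPer 1) :
    per2 M q k B n hq h f = u ↔ pre2 M q k f = toMer 1 u :=
  liftThrough_eq_iff _ _ _ f u

/-- The `q`-expansion (over `ℂ`) at the cusp `γ₂ ∞`. -/
def lau2 : FN (M * q * q) →+* LaurentSeries ℂ := (toLaurent 1).comp (per2 M q k B n hq h)

theorem lau2_apply (f : FN (M * q * q)) :
    lau2 M q k B n hq h f = toLaurent 1 (per2 M q k B n hq h f) := rfl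

theorem lau2_algebraMap (a : Kb) :
    lau2 M q k B n hq h (algebraMap Kb (FN (M * q * q)) a) = HahnSeries.C (iotaK a) := by
  have : per2 M q k B n hq h (algebraMap Kb (FN (M * q * q)) a)
      = algebraMap ℂ (MerPer 1) (iotaK a) := by
    rw [per2_eq_iff, pre2_algebraMap, toMer_const]
  rw [lau2_apply, this, toLaurent_const]

theorem lau2_jBar_of_dvd (D : ℕ) [NeZero D] (hD : D ∣ M * q) :
    lau2 M q k B n hq h (jBar (M * q * q) D (hD.trans (dvd_mul_right _ q))) = jqNModC ℂ D := by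
  have : per2 M q k B n hq h (jBar (M * q * q) D (hD.trans (dvd_mul_right _ q))) = jdPer D := by
    rw [per2_eq_iff, pre2_jBar_of_dvd M q k D hD, toMer_jdPer]
  rw [lau2_apply, this, toLaurent_jdPer]

theorem lau2_jBar_mul (d : ℕ) [NeZero d] (hd : d ∣ M) :
    lau2 M q k B n hq h (jBar (M * q * q) (d * q * q) (mul_mul_dvd M q hd))
      = rot (expU 1 ((B : ℝ) / q)) (jqNModC ℂ d) := by
  have : per2 M q k B n hq h (jBar (M * q * q) (d * q * q) (mul_mul_dvd M q hd))
      = transMerPer 1 ((B : ℝ) / q) (jdPer d) := by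
    rw [per2_eq_iff, pre2_jBar_mul M q k B n d hd h, toMer_transMerPer, toMer_jdPer,
      transMer_algebraMap]
  rw [lau2_apply, this, toLaurent_transMerPer, toLaurent_jdPer]

/-! ### Descent of the coefficients to `Kb` -/

theorem coeffMap_C {K L : Type*} [Field K] [Field L] (ι : K →+* L) (a : K) :
    coeffMap ι (HahnSeries.C a : LaurentSeries K) = HahnSeries.C (ι a) := by
  rw [HahnSeries.C_apply, coeffMap_single, HahnSeries.C_apply]

theorem rot_C {K : Type*} [Field K] (ζ : Kˣ) (a : K) :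
    rot ζ (HahnSeries.C a : LaurentSeries K) = HahnSeries.C a := by
  ext m
  rw [rot_coeff, HahnSeries.C_apply, HahnSeries.coeff_single]
  split_ifs with hm
  · subst hm; simp
  · simp

theorem coeffMap_rot {K L : Type*} [Field K] [Field L] (ι : K →+* L) (ζ : Kˣ) (ξ : Lˣ)
    (hζ : ι ζ = ξ) (x : LaurentSeries K) : coeffMap ι (rot ζ x) = rot ξ (coeffMap ι x) := by
  ext m
  rw [coeffMap_coeff, rot_coeff, rot_coeff, coeffMap_coeff, map_mul, Units.val_zpow_eq_zpow_val,
    Units.val_zpow_eq_zpow_val, map_zpow₀, hζ]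

variable (ζ : Kbˣ) (hζ : iotaK (ζ : Kb) = (expU 1 ((B : ℝ) / q) : ℂ))

include hζ in
theorem lau2_mem_range (f : FN (M * q * q)) :
    lau2 M q k B n hq h f ∈ (coeffMap iotaK.toRingHom).fieldRange := by
  apply map_mem_of_gen
  · intro a
    refine ⟨HahnSeries.C a, ?_⟩
    rw [lau2_algebraMap, coeffMap_C]
    rfl
  · intro D _ hD
    rcases exists_decomp hq hD with hD' | ⟨d, hd, rfl⟩
    · exact ⟨jqNModC Kb D, by rw [S24.coeffMap_jqNModC, lau2_jBar_of_dvd M q k B n hq h D hD']⟩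
    · have : NeZero d := ⟨fun h0 => NeZero.ne (d * q * q) (by rw [h0]; simp)⟩
      exact ⟨rot ζ (jqNModC Kb d), by
        rw [coeffMap_rot iotaK.toRingHom ζ _ hζ, S24.coeffMap_jqNModC,
          lau2_jBar_mul M q k B n hq h d hd]⟩

/-- **The expansion at the cusp `1/q`**, with coefficients in `Kb`. -/
def sigma2 : FN (M * q * q) →+* LaurentSeries Kb :=
  liftThrough (coeffMap iotaK.toRingHom) (lau2 M q k B n hq h)
    (lau2_mem_range M q k B n hq h ζ hζ)

theorem coeffMap_sigma2 (f : FN (M * q * q)) :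
    coeffMap iotaK.toRingHom (sigma2 M q k B n hq h ζ hζ f) = lau2 M q k B n hq h f :=
  liftThrough_spec _ _ _ f

theorem sigma2_eq_iff (f : FN (M * q * q)) (x : LaurentSeries Kb) :
    sigma2 M q k B n hq h ζ hζ f = x ↔ lau2 M q k B n hq h f = coeffMap iotaK.toRingHom x :=
  liftThrough_eq_iff _ _ _ f x

theorem sigma2_algebraMap (a : Kb) :
    sigma2 M q k B n hq h ζ hζ (algebraMap Kb (FN (M * q * q)) a) = HahnSeries.C a := by
  rw [sigma2_eq_iff, lau2_algebraMap, coeffMap_C]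
  rfl

theorem sigma2_jBar_of_dvd (D : ℕ) [NeZero D] (hD : D ∣ M * q) :
    sigma2 M q k B n hq h ζ hζ (jBar (M * q * q) D (hD.trans (dvd_mul_right _ q)))
      = jqNModC Kb D := by
  rw [sigma2_eq_iff, lau2_jBar_of_dvd M q k B n hq h D hD, S24.coeffMap_jqNModC]

theorem sigma2_jBar_mul (d : ℕ) [NeZero d] (hd : d ∣ M) :
    sigma2 M q k B n hq h ζ hζ (jBar (M * q * q) (d * q * q) (mul_mul_dvd M q hd))
      = rot ζ (jqNModC Kb d) := by
  rw [sigma2_eq_iff, lau2_jBar_mul M q k B n hq h d hd, coeffMap_rot iotaK.toRingHom ζ _ hζ,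
    S24.coeffMap_jqNModC]

/-- `σ₂` is the identity on the functions of level `M q`. -/
theorem sigma2_alpha (y : FN (M * q)) :
    sigma2 M q k B n hq h ζ hζ (heckeAlphaBar Kb (M * q) q y) = (y : LaurentSeries Kb) := by
  have : (sigma2 M q k B n hq h ζ hζ).comp
      (heckeAlphaBar Kb (M * q) q : FN (M * q) →+* FN (M * q * q))
      = (modularFunctionFieldBar (M * q)).val.toRingHom := by
    apply ringHom_ext_bar
    · intro a
      simp only [RingHom.comp_apply, RingHom.coe_coe, AlgHom.commutes]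
      rw [sigma2_algebraMap, HahnSeries.C_apply]
      exact (algebraMap_laurentSeries_eq_single _ a).symm
    · intro D _ hD
      simp only [RingHom.comp_apply, RingHom.coe_coe]
      rw [RED.ES.heckeAlphaBar_jBar, sigma2_jBar_of_dvd M q k B n hq h ζ hζ D hD]
      exact (coe_jBar (M * q) D hD).symm
  exact congrArg (fun φ => φ y) this

/-- `σ₂ (u(q² τ)) = u(ζ T)` for `u` of level `M`. -/
theorem sigma2_beta_beta (u : FN M) :
    sigma2 M q k B n hq h ζ hζ (heckeBetaBar Kb (M * q) q (heckeBetaBar Kb M q u))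
      = rot ζ (u : LaurentSeries Kb) := by
  have : (sigma2 M q k B n hq h ζ hζ).comp
      ((heckeBetaBar Kb (M * q) q : FN (M * q) →+* FN (M * q * q)).comp
        (heckeBetaBar Kb M q : FN M →+* FN (M * q)))
      = (rotHom ζ).comp (modularFunctionFieldBar M).val.toRingHom := by
    apply ringHom_ext_bar
    · intro a
      simp only [RingHom.comp_apply, RingHom.coe_coe, AlgHom.commutes]
      rw [sigma2_algebraMap]
      show _ = rot ζ (algebraMap Kb (LaurentSeries Kb) a)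
      rw [algebraMap_laurentSeries_eq_single, ← HahnSeries.C_apply, rot_C]
    · intro d _ hd
      simp only [RingHom.comp_apply, RingHom.coe_coe]
      rw [RED.ES.heckeBetaBar_jBar, RED.ES.heckeBetaBar_jBar,
        RED.ES.jBar_congr (show q * (q * d) = d * q * q by ring),
        sigma2_jBar_mul M q k B n hq h ζ hζ d hd]
      show _ = rot ζ ((jBar M d hd : FN M) : LaurentSeries Kb)
      rw [coe_jBar]
  exact congrArg (fun φ => φ u) this

end Sigma2

/-- **[V2]** For every primitive `q`-th root of unity `ζ` there is an embedding of the function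
field of `X₀(M q²)` into `Kb((T))` (the expansion at a cusp `k/q`) which is the identity on the
functions of level `M q` and sends `u(q² τ)` to `u(ζ T)` for `u` of level `M`. -/
theorem exists_sigma2 (M q : ℕ) [NeZero M] [NeZero q] (hq : q.Prime) (hqM : ¬ q ∣ M) (ζ : Kbˣ)
    (hζ : IsPrimitiveRoot ζ q) :
    ∃ s : FN (M * q * q) →+* LaurentSeries Kb,
      (∀ a : Kb, s (algebraMap Kb (FN (M * q * q)) a) = HahnSeries.C a) ∧
      (∀ y : FN (M * q), s (heckeAlphaBar Kb (M * q) q y) = (y : LaurentSeries Kb)) ∧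
      (∀ u : FN M, s (heckeBetaBar Kb (M * q) q (heckeBetaBar Kb M q u))
        = rot ζ (u : LaurentSeries Kb)) := by
  have h1 : IsPrimitiveRoot (iotaK (ζ : Kb)) q :=
    (IsPrimitiveRoot.coe_units_iff.mpr hζ).map_of_injective iotaK.toRingHom.injective
  obtain ⟨i, -, hcop, hexp⟩ := (Complex.isPrimitiveRoot_iff _ q hq.ne_zero).1 h1
  have hc : IsCoprime (q : ℤ) ((M * i : ℕ) : ℤ) := by
    rw [Nat.isCoprime_iff_coprime]
    exact Nat.Coprime.mul_right ((Nat.Prime.coprime_iff_not_dvd hq).mpr hqM) hcop.symm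
  obtain ⟨a, b, hab⟩ := hc
  have h : (q : ℤ) * a + M * b * (i : ℤ) = 1 := by
    rw [← hab]; push_cast; ring
  have hζ' : iotaK (ζ : Kb) = (expU 1 (((i : ℤ) : ℝ) / q) : ℂ) := by
    rw [← hexp, coe_expU]
    congr 1
    push_cast
    ring
  exact ⟨sigma2 M q b i a hq h ζ hζ', sigma2_algebraMap M q b i a hq h ζ hζ',
    sigma2_alpha M q b i a hq h ζ hζ', sigma2_beta_beta M q b i a hq h ζ hζ'⟩

end Fermat.Agent.S36
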