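import Fermat.Agent.RED.Gauss.Basic
import Fermat.Agent.S36.Abs.ExtDefs

/-!
# S36 / modular part : `[GV]` the Gauss valuation ring of an embedding into Laurent series

`L` a field with a valuation ring `A` (in the application `L = Qbar`, NOT discrete) and residue map
`π : A → k`.  `e : F → L((T))` is an embedding of a field such that every `e y` is a fraction `a / b`
of series with coefficients in `A` whose values are powers of `v(lam)` ("discrete coefficients":
in the application the coefficients lie in `K0` (`lam = q`) or in `K0(ζ_q)` (`lam = 1 - ζ_q`)).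
Then `{y | e y ∈ bigO π}` is a discrete valuation ring of `F`, with residue map
`y ↦ bigRed π (e y) ∈ k((T))`.

Proofs.  `DiscS.exists_scale`: the set of exponents `j` occurring in `a ≠ 0` has a minimum `j₀`
(`Nat.find`); divide all the coefficients by `lam ^ j₀`.  `exists_normal`: scale `a` and `b`.
Everything else follows from the normal form `e y = lam ^ n * u`, `u` a unit of `bigO π`
(`SS.inv_mem_bigO` in `SS/Z1/Emb.lean` may be copied: an element of `bigO` with nonzero reduction is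
a unit).
-/

set_option autoImplicit false
noncomputable section

open ModularCurve

namespace Fermat.Agent.S36

open Fermat.Agent.RED.Gauss

variable {L : Type*} [Field L] {A : ValuationSubring L} {k : Type*} [Field k]

/-- `π` is "the" residue map of `A`. -/
structure IsResMap (π : A →+* k) : Prop where
  surj : Function.Surjective π
  ker : ∀ a : A, π a = 0 ↔ A.valuation (a : L) < 1

/-- the coefficients of `a` have values in `v(lam) ^ ℕ`. -/
def DiscS (A : ValuationSubring L) (lam : L) (a : LaurentSeries A) : Prop :=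
  ∀ n : ℤ, a.coeff n = 0 ∨ ∃ j : ℕ, A.valuation ((a.coeff n : A) : L) = A.valuation lam ^ j

/-- `e` takes its values in the fractions of series with discrete coefficients. -/
structure IsDiscEmb (A : ValuationSubring L) (lam : L) {F : Type*} [Field F]
    (e : F →+* LaurentSeries L) : Prop where
  lam_lt : A.valuation lam < 1
  lam_ne : lam ≠ 0
  frac : ∀ y : F, ∃ a b : LaurentSeries A, b ≠ 0 ∧ DiscS A lam a ∧ DiscS A lam b ∧
    e y * iota A b = iota A a

theorem DiscS.exists_scale {π : A →+* k} (hπ : IsResMap π) {lam : L} (hlt : A.valuation lam < 1)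
    (hne : lam ≠ 0) {a : LaurentSeries A} (ha : DiscS A lam a) (ha0 : a ≠ 0) :
    ∃ (j : ℕ) (a' : LaurentSeries A), pi π a' ≠ 0 ∧
      iota A a = HahnSeries.C (lam ^ j) * iota A a' := by
  classical
  have hv0 : A.valuation lam ≠ 0 := (Valuation.ne_zero_iff _).2 hne
  have hex : ∃ j : ℕ, ∃ n : ℤ, a.coeff n ≠ 0 ∧
      A.valuation ((a.coeff n : A) : L) = A.valuation lam ^ j := by
    obtain ⟨n, hn⟩ : ∃ n, a.coeff n ≠ 0 := by
      by_contra hcon
      push Not at hcon
      exact ha0 (HahnSeries.ext (funext hcon))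
    rcases ha n with h | ⟨j, hj⟩
    · exact absurd h hn
    · exact ⟨j, n, hn, hj⟩
  set j₀ := Nat.find hex with hj₀
  obtain ⟨n₀, hn₀, hv₀⟩ := Nat.find_spec hex
  have hmem : ∀ n : ℤ, ((a.coeff n : A) : L) / lam ^ j₀ ∈ A := by
    intro n
    rcases ha n with h | ⟨j, hj⟩
    · rw [h]; simp
    · by_cases h0 : a.coeff n = 0
      · rw [h0]; simp
      · have hle : j₀ ≤ j := Nat.find_min' hex ⟨n, h0, hj⟩
        rw [← ValuationSubring.valuation_le_one_iff, map_div₀, map_pow, hj,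
          ← Nat.sub_add_cancel hle, pow_add, mul_div_assoc, div_self (pow_ne_zero _ hv0), mul_one]
        exact pow_le_one' hlt.le _
  let a' : LaurentSeries A :=
    { coeff := fun n => ⟨((a.coeff n : A) : L) / lam ^ j₀, hmem n⟩
      isPWO_support' := by
        refine a.isPWO_support.mono ?_
        intro n hn
        simp only [Function.mem_support, ne_eq] at hn
        simp only [HahnSeries.mem_support, ne_eq]
        intro h0
        apply hn
        apply Subtype.ext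
        simp [h0] }
  refine ⟨j₀, a', ?_, ?_⟩
  · intro h0
    have h1 : π (a'.coeff n₀) = 0 := by
      have := congrArg (fun z => z.coeff n₀) h0
      simpa [pi] using this
    rw [hπ.ker] at h1
    have h2 : A.valuation ((a'.coeff n₀ : A) : L) = 1 := by
      show A.valuation (((a.coeff n₀ : A) : L) / lam ^ j₀) = 1
      rw [map_div₀, map_pow, hv₀, div_self (pow_ne_zero _ hv0)]
    rw [h2] at h1
    exact lt_irrefl _ h1
  · ext n
    rw [HahnSeries.C_mul_eq_smul, HahnSeries.coeff_smul]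
    show ((a.coeff n : A) : L) = lam ^ j₀ • (((a.coeff n : A) : L) / lam ^ j₀)
    rw [smul_eq_mul, mul_div_cancel₀ _ (pow_ne_zero _ hne)]

variable {F : Type*} [Field F] {e : F →+* LaurentSeries L} {lam : L}

/-- `x = lam ^ n * (unit of bigO)` -/
def NormalForm (π : A →+* k) (lam : L) (x : LaurentSeries L) (n : ℤ) : Prop :=
  ∃ (u : LaurentSeries L) (hu : u ∈ bigO π), bigRed π ⟨u, hu⟩ ≠ 0 ∧ x = HahnSeries.C (lam ^ n) * u

/-- an element of `bigO` with nonzero reduction is a unit. -/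
theorem gv_inv_mem_bigO (π : A →+* k) {y : LaurentSeries L} (hy : y ∈ bigO π)
    (h : bigRed π ⟨y, hy⟩ ≠ 0) : y⁻¹ ∈ bigO π := by
  obtain ⟨a, b, hb, hab⟩ := id hy
  rw [bigRed_eq π ⟨y, hy⟩ hb hab] at h
  have ha : pi π a ≠ 0 := by
    intro h0; rw [h0, zero_div] at h; exact h rfl
  have hy0 : y ≠ 0 := by
    rintro rfl
    rw [zero_mul] at hab
    exact iota_ne_zero_of_pi_ne_zero π ha hab.symm
  exact ⟨b, a, ha, by rw [← hab, inv_mul_cancel_left₀ hy0]⟩

theorem gv_ne_zero_of_bigRed_ne_zero (π : A →+* k) {y : LaurentSeries L} (hy : y ∈ bigO π)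
    (h : bigRed π ⟨y, hy⟩ ≠ 0) : y ≠ 0 := by
  rintro rfl
  exact h (map_zero (bigRed π))

theorem gv_bigRed_inv (π : A →+* k) {y : LaurentSeries L} (hy : y ∈ bigO π)
    (h : bigRed π ⟨y, hy⟩ ≠ 0) :
    bigRed π ⟨y⁻¹, gv_inv_mem_bigO π hy h⟩ = (bigRed π ⟨y, hy⟩)⁻¹ := by
  have hy0 := gv_ne_zero_of_bigRed_ne_zero π hy h
  have h1 : (⟨y, hy⟩ : bigO π) * ⟨y⁻¹, gv_inv_mem_bigO π hy h⟩ = 1 :=
    Subtype.ext (mul_inv_cancel₀ hy0)
  have h2 := congrArg (bigRed π) h1
  rw [map_mul, map_one] at h2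
  exact eq_inv_of_mul_eq_one_right h2

theorem NormalForm.ne_zero {π : A →+* k} (hne : lam ≠ 0) {x : LaurentSeries L} {n : ℤ}
    (hx : NormalForm π lam x n) : x ≠ 0 := by
  obtain ⟨u, hu, hu0, rfl⟩ := hx
  exact mul_ne_zero (HahnSeries.C_ne_zero (zpow_ne_zero _ hne))
    (gv_ne_zero_of_bigRed_ne_zero π hu hu0)

theorem NormalForm.mul {π : A →+* k} (hne : lam ≠ 0) {x y : LaurentSeries L} {n m : ℤ}
    (hx : NormalForm π lam x n) (hy : NormalForm π lam y m) : NormalForm π lam (x * y) (n + m) := by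
  obtain ⟨u, hu, hu0, rfl⟩ := hx
  obtain ⟨w, hw, hw0, rfl⟩ := hy
  refine ⟨u * w, (bigO π).mul_mem hu hw, ?_, ?_⟩
  · have : (⟨u * w, (bigO π).mul_mem hu hw⟩ : bigO π) = ⟨u, hu⟩ * ⟨w, hw⟩ := rfl
    rw [this, map_mul]
    exact mul_ne_zero hu0 hw0
  · rw [zpow_add₀ hne, map_mul]; ring

theorem NormalForm.inv {π : A →+* k} {x : LaurentSeries L} {n : ℤ}
    (hx : NormalForm π lam x n) : NormalForm π lam x⁻¹ (-n) := by
  obtain ⟨u, hu, hu0, rfl⟩ := hx
  refine ⟨u⁻¹, gv_inv_mem_bigO π hu hu0, ?_, ?_⟩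
  · rw [gv_bigRed_inv π hu hu0]; exact inv_ne_zero hu0
  · rw [mul_inv, zpow_neg, map_inv₀]

theorem NormalForm.one (π : A →+* k) (lam : L) : NormalForm π lam 1 0 :=
  ⟨1, (bigO π).one_mem, by
    have : (⟨1, (bigO π).one_mem⟩ : bigO π) = 1 := rfl
    rw [this, map_one]; exact one_ne_zero, by simp⟩

theorem NormalForm.pow {π : A →+* k} (hne : lam ≠ 0) {x : LaurentSeries L} {n : ℤ}
    (hx : NormalForm π lam x n) (m : ℕ) : NormalForm π lam (x ^ m) (n * m) := by
  induction m with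
  | zero => simpa using NormalForm.one π lam
  | succ m ih =>
    rw [pow_succ]
    have := ih.mul hne hx
    convert this using 1
    push_cast; ring

theorem NormalForm.zpow {π : A →+* k} (hne : lam ≠ 0) {x : LaurentSeries L} {n : ℤ}
    (hx : NormalForm π lam x n) (m : ℤ) : NormalForm π lam (x ^ m) (n * m) := by
  obtain ⟨m, rfl | rfl⟩ := m.eq_nat_or_neg
  · rw [zpow_natCast]; exact hx.pow hne m
  · rw [zpow_neg, zpow_natCast, mul_neg]; exact (hx.pow hne m).inv

/-- constants -/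
theorem gv_C_eq_iota (c : A) : HahnSeries.C ((c : A) : L) = iota A (HahnSeries.C c) := by
  show HahnSeries.single 0 _ = coeffMap A.subtype (HahnSeries.single 0 c)
  rw [coeffMap_single]; rfl

theorem gv_pi_C (π : A →+* k) (c : A) : pi π (HahnSeries.C c) = HahnSeries.C (π c) := by
  show coeffMap π (HahnSeries.single 0 c) = HahnSeries.single 0 _
  rw [coeffMap_single]

theorem gv_C_mem_bigO (π : A →+* k) {c : L} (hc : c ∈ A) : HahnSeries.C c ∈ bigO π := by
  have := gv_C_eq_iota (⟨c, hc⟩ : A)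
  simp only at this
  rw [this]; exact iota_mem_bigO π _

theorem gv_bigRed_C (π : A →+* k) {c : L} (hc : c ∈ A) :
    bigRed π ⟨HahnSeries.C c, gv_C_mem_bigO π hc⟩ = HahnSeries.C (π ⟨c, hc⟩) := by
  rw [← gv_pi_C, ← bigRed_iota]
  congr 1
  exact Subtype.ext (gv_C_eq_iota (⟨c, hc⟩ : A))

theorem gv_pow_mem (hlt : A.valuation lam < 1) (m : ℕ) : lam ^ m ∈ A := by
  rw [← ValuationSubring.valuation_le_one_iff, map_pow]
  exact pow_le_one' hlt.le _

theorem gv_bigRed_C_pow {π : A →+* k} (hπ : IsResMap π) (hlt : A.valuation lam < 1) {m : ℕ}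
    (hm : 0 < m) : bigRed π ⟨HahnSeries.C (lam ^ m), gv_C_mem_bigO π (gv_pow_mem hlt m)⟩ = 0 := by
  rw [gv_bigRed_C π (gv_pow_mem hlt m), (hπ.ker _).2, map_zero]
  show A.valuation (lam ^ m) < 1
  rw [map_pow]
  exact pow_lt_one₀ zero_le hlt hm.ne'

/-- **normal form** -/
theorem IsDiscEmb.exists_normal (h : IsDiscEmb A lam e) {π : A →+* k} (hπ : IsResMap π) {y : F}
    (hy : y ≠ 0) : ∃ n : ℤ, NormalForm π lam (e y) n := by
  obtain ⟨a, b, hb, ha', hb', hab⟩ := h.frac y
  have hey : e y ≠ 0 := (map_ne_zero e).2 hy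
  have hib : iota A b ≠ 0 := fun h0 => hb (iota_injective A (by rw [h0, map_zero]))
  have ha : a ≠ 0 := by
    rintro rfl
    rw [map_zero] at hab
    exact mul_ne_zero hey hib hab
  obtain ⟨j, a₁, ha₁, hja⟩ := ha'.exists_scale hπ h.lam_lt h.lam_ne ha
  obtain ⟨i, b₁, hb₁, hib₁⟩ := hb'.exists_scale hπ h.lam_lt h.lam_ne hb
  refine ⟨(j : ℤ) - i, iota A a₁ / iota A b₁, div_mem_bigO π a₁ hb₁, ?_, ?_⟩
  · rw [bigRed_div π a₁ hb₁]; exact div_ne_zero ha₁ hb₁
  · have hb₁0 := iota_ne_zero_of_pi_ne_zero π hb₁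
    have hCi : (HahnSeries.C (lam ^ i) : LaurentSeries L) ≠ 0 :=
      HahnSeries.C_ne_zero (pow_ne_zero _ h.lam_ne)
    rw [zpow_sub₀ h.lam_ne, zpow_natCast, zpow_natCast, map_div₀]
    rw [hja, hib₁] at hab
    field_simp
    rw [← hab]; ring

/-- the exponent of the normal form decides membership in `bigO` -/
theorem NormalForm.mem_bigO_iff {π : A →+* k} (hπ : IsResMap π) (hlt : A.valuation lam < 1)
    (hne : lam ≠ 0) {x : LaurentSeries L} {n : ℤ} (hx : NormalForm π lam x n) :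
    x ∈ bigO π ↔ 0 ≤ n := by
  obtain ⟨u, hu, hu0, rfl⟩ := hx
  have hu1 := gv_ne_zero_of_bigRed_ne_zero π hu hu0
  constructor
  · intro hmem
    by_contra hn
    push Not at hn
    obtain ⟨m, hm⟩ : ∃ m : ℕ, -n = m := ⟨(-n).toNat, by omega⟩
    have hm0 : 0 < m := by omega
    have h1 : (HahnSeries.C (lam ^ n) : LaurentSeries L) ∈ bigO π := by
      have := (bigO π).mul_mem hmem (gv_inv_mem_bigO π hu hu0)
      rwa [mul_assoc, mul_inv_cancel₀ hu1, mul_one] at this
    have h2 : (⟨HahnSeries.C (lam ^ m), gv_C_mem_bigO π (gv_pow_mem hlt m)⟩ : bigO π) *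
        ⟨HahnSeries.C (lam ^ n), h1⟩ = 1 := by
      apply Subtype.ext
      show (HahnSeries.C (lam ^ m) : LaurentSeries L) * HahnSeries.C (lam ^ n) = 1
      rw [← map_mul, ← zpow_natCast, ← hm, ← zpow_add₀ hne]
      simp
    have h3 := congrArg (bigRed π) h2
    rw [map_mul, gv_bigRed_C_pow hπ hlt hm0, zero_mul, map_one] at h3
    exact zero_ne_one h3
  · intro hn
    obtain ⟨m, rfl⟩ := Int.eq_ofNat_of_zero_le hn
    rw [zpow_natCast]
    exact (bigO π).mul_mem (gv_C_mem_bigO π (gv_pow_mem hlt m)) hu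

theorem NormalForm.bigRed_eq_zero_iff {π : A →+* k} (hπ : IsResMap π) (hlt : A.valuation lam < 1)
    (hne : lam ≠ 0) {x : LaurentSeries L} {n : ℤ} (hx : NormalForm π lam x n)
    (hmem : x ∈ bigO π) : bigRed π ⟨x, hmem⟩ = 0 ↔ 0 < n := by
  have hn := (hx.mem_bigO_iff hπ hlt hne).1 hmem
  obtain ⟨u, hu, hu0, rfl⟩ := hx
  obtain ⟨m, rfl⟩ := Int.eq_ofNat_of_zero_le hn
  have h1 : (⟨HahnSeries.C (lam ^ (m : ℤ)) * u, hmem⟩ : bigO π) =
      ⟨HahnSeries.C (lam ^ m), gv_C_mem_bigO π (gv_pow_mem hlt m)⟩ * ⟨u, hu⟩ := by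
    apply Subtype.ext
    show (HahnSeries.C (lam ^ (m : ℤ)) : LaurentSeries L) * u = HahnSeries.C (lam ^ m) * u
    rw [zpow_natCast]
  rw [h1, map_mul]
  constructor
  · intro h0
    rcases Nat.eq_zero_or_pos m with rfl | hm
    · exfalso
      rcases mul_eq_zero.1 h0 with h | h
      · rw [gv_bigRed_C π (gv_pow_mem hlt 0)] at h
        have h2 : (⟨lam ^ 0, gv_pow_mem hlt 0⟩ : A) = 1 := Subtype.ext (pow_zero _)
        rw [h2, map_one, map_one] at h
        exact one_ne_zero h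
      · exact hu0 h
    · exact_mod_cast hm
  · intro hm
    rw [gv_bigRed_C_pow hπ hlt (by exact_mod_cast hm), zero_mul]

/-- **[GV]** the Gauss valuation ring of `e`. -/
def gvO (π : A →+* k) (hπ : IsResMap π) (h : IsDiscEmb A lam e) : ValuationSubring F :=
  { (bigO π).comap e with
    mem_or_inv_mem' := by
      intro y
      rcases eq_or_ne y 0 with rfl | hy
      · left; exact ((bigO π).comap e).zero_mem
      · obtain ⟨n, hn⟩ := h.exists_normal hπ hy
        rcases le_total 0 n with h0 | h0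
        · left
          exact (hn.mem_bigO_iff hπ h.lam_lt h.lam_ne).2 h0
        · right
          show e y⁻¹ ∈ bigO π
          rw [map_inv₀]
          exact (hn.inv.mem_bigO_iff hπ h.lam_lt h.lam_ne).2 (by omega) }

variable {π : A →+* k} (hπ : IsResMap π) (h : IsDiscEmb A lam e)

theorem mem_gvO {y : F} : y ∈ gvO π hπ h ↔ e y ∈ bigO π := Iff.rfl

/-- the residue map of the Gauss valuation ring. -/
def gvRed : gvO π hπ h →+* LaurentSeries k :=
  (bigRed π).comp (e.restrict (gvO π hπ h).toSubring (bigO π) fun _ hy => hy)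

theorem gvRed_apply (y : gvO π hπ h) : gvRed hπ h y = bigRed π ⟨e y, y.2⟩ := rfl

/-- the valuation in terms of the exponent of the normal form -/
theorem gv_valuation_le_one_iff_of_normal {y : F} {n : ℤ} (hy : NormalForm π lam (e y) n) :
    (gvO π hπ h).valuation y ≤ 1 ↔ 0 ≤ n := by
  rw [ValuationSubring.valuation_le_one_iff, mem_gvO, hy.mem_bigO_iff hπ h.lam_lt h.lam_ne]

theorem gv_valuation_lt_one_iff_of_normal {y : F} {n : ℤ} (hy : NormalForm π lam (e y) n) :
    (gvO π hπ h).valuation y < 1 ↔ 0 < n := by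
  have hy0 : y ≠ 0 := by
    rintro rfl
    exact hy.ne_zero h.lam_ne (map_zero e)
  have hinv : NormalForm π lam (e y⁻¹) (-n) := by rw [map_inv₀]; exact hy.inv
  have h1 := gv_valuation_le_one_iff_of_normal hπ h hinv
  rw [map_inv₀, inv_le_one₀ (zero_lt_iff.2 ((Valuation.ne_zero_iff _).2 hy0))] at h1
  rw [← not_le, h1]; omega

theorem gv_valuation_eq_one_iff_of_normal {y : F} {n : ℤ} (hy : NormalForm π lam (e y) n) :
    (gvO π hπ h).valuation y = 1 ↔ n = 0 := by
  have h1 := gv_valuation_le_one_iff_of_normal hπ h hy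
  have h2 := gv_valuation_lt_one_iff_of_normal hπ h hy
  constructor
  · intro h3
    have h4 : 0 ≤ n := h1.1 h3.le
    have h5 : ¬ 0 < n := fun h6 => (h2.2 h6).ne h3
    omega
  · rintro rfl
    exact le_antisymm (h1.2 le_rfl) (not_lt.1 fun h6 => lt_irrefl _ (h2.1 h6))

theorem gv_valuation_lt_one_iff {y : F} :
    (gvO π hπ h).valuation y < 1 ↔ ∃ hy : e y ∈ bigO π, bigRed π ⟨e y, hy⟩ = 0 := by
  rcases eq_or_ne y 0 with rfl | hy
  · simp only [map_zero, zero_lt_one, true_iff]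
    exact ⟨(bigO π).zero_mem, map_zero (bigRed π)⟩
  · obtain ⟨n, hn⟩ := h.exists_normal hπ hy
    rw [gv_valuation_lt_one_iff_of_normal hπ h hn]
    constructor
    · intro h0
      have hm := (hn.mem_bigO_iff hπ h.lam_lt h.lam_ne).2 h0.le
      exact ⟨hm, (hn.bigRed_eq_zero_iff hπ h.lam_lt h.lam_ne hm).2 h0⟩
    · rintro ⟨hm, h0⟩
      exact (hn.bigRed_eq_zero_iff hπ h.lam_lt h.lam_ne hm).1 h0

theorem gv_valuation_eq_one_iff {y : F} :
    (gvO π hπ h).valuation y = 1 ↔ ∃ hy : e y ∈ bigO π, bigRed π ⟨e y, hy⟩ ≠ 0 := by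
  constructor
  · intro h1
    have hm : e y ∈ bigO π := (mem_gvO hπ h).1 ((ValuationSubring.valuation_le_one_iff _ _).1 h1.le)
    refine ⟨hm, fun h0 => ?_⟩
    exact ((gv_valuation_lt_one_iff hπ h).2 ⟨hm, h0⟩).ne h1
  · rintro ⟨hm, h0⟩
    have h1 : (gvO π hπ h).valuation y ≤ 1 := (ValuationSubring.valuation_le_one_iff _ _).2 hm
    refine le_antisymm h1 (not_lt.1 fun h2 => ?_)
    obtain ⟨hm', h3⟩ := (gv_valuation_lt_one_iff hπ h).1 h2
    exact h0 h3

/-- integral expansions -/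
theorem mem_gvO_of_iota {y : F} {a : LaurentSeries A} (hy : e y = iota A a) : y ∈ gvO π hπ h := by
  rw [mem_gvO, hy]
  exact iota_mem_bigO π a

theorem gvRed_of_iota {y : F} {a : LaurentSeries A} (hy : e y = iota A a) :
    gvRed hπ h ⟨y, mem_gvO_of_iota hπ h hy⟩ = pi π a := by
  rw [gvRed_apply, ← bigRed_iota]
  congr 1
  exact Subtype.ext hy

theorem gv_valuation_eq_zpow {y ϖ : F} {n : ℤ} (hϖ : NormalForm π lam (e ϖ) 1)
    (hy : NormalForm π lam (e y) n) :
    (gvO π hπ h).valuation y = (gvO π hπ h).valuation ϖ ^ n := by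
  have hϖ0 : ϖ ≠ 0 := by
    rintro rfl
    exact hϖ.ne_zero h.lam_ne (map_zero e)
  have h1 : NormalForm π lam (e (y * (ϖ ^ n)⁻¹)) 0 := by
    rw [map_mul, map_inv₀, map_zpow₀]
    have := hy.mul h.lam_ne (hϖ.zpow h.lam_ne n).inv
    simpa using this
  have h2 := (gv_valuation_eq_one_iff_of_normal hπ h h1).2 rfl
  rw [map_mul, map_inv₀, map_zpow₀] at h2
  have h3 : (gvO π hπ h).valuation ϖ ^ n ≠ 0 :=
    zpow_ne_zero _ ((Valuation.ne_zero_iff _).2 hϖ0)
  exact (mul_inv_eq_one₀ h3).1 h2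

/-- an element with normal form `lam * unit` is a uniformizer. -/
theorem gv_isUnif {ϖ : F} (hϖ : NormalForm π lam (e ϖ) 1) : IsUnif (gvO π hπ h) ϖ where
  lt_one := (gv_valuation_lt_one_iff_of_normal hπ h hϖ).2 one_pos
  ne_zero := by
    rintro rfl
    exact hϖ.ne_zero h.lam_ne (map_zero e)
  disc := by
    intro x hx
    obtain ⟨n, hn⟩ := h.exists_normal hπ hx
    exact ⟨n, gv_valuation_eq_zpow hπ h hϖ hn⟩

/-- **[GV-COMAP]** restriction to a subfield.  (`y ∉ O'` ⟹ `y⁻¹ ∈ 𝔪'` ⟹ `φ y⁻¹ ∈ 𝔪` ⟹ `φ y ∉ O`.) -/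
theorem gv_comap_eq {L' : Type*} [Field L'] {A' : ValuationSubring L'} {π' : A' →+* k}
    (hπ' : IsResMap π') {lam' : L'} {F' : Type*} [Field F'] {e' : F' →+* LaurentSeries L'}
    (h' : IsDiscEmb A' lam' e') (φ : F' →+* F)
    (hmem : ∀ y : F', e' y ∈ bigO π' → e (φ y) ∈ bigO π)
    (hzero : ∀ (y : F') (hy : e' y ∈ bigO π'), bigRed π' ⟨e' y, hy⟩ = 0 →
      bigRed π ⟨e (φ y), hmem y hy⟩ = 0) :
    (gvO π hπ h).comap φ = gvO π' hπ' h' := by
  ext y
  rw [ValuationSubring.mem_comap]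
  constructor
  · intro hy
    by_contra hcon
    rw [← ValuationSubring.valuation_le_one_iff, not_le] at hcon
    have hy0 : y ≠ 0 := by
      rintro rfl
      rw [map_zero] at hcon
      exact not_lt_of_ge zero_le hcon
    have h1 : (gvO π' hπ' h').valuation y⁻¹ < 1 := by
      rw [map_inv₀]
      exact inv_lt_one_of_one_lt₀ hcon
    obtain ⟨hm, h0⟩ := (gv_valuation_lt_one_iff hπ' h').1 h1
    have h2 : (gvO π hπ h).valuation (φ y⁻¹) < 1 :=
      (gv_valuation_lt_one_iff hπ h).2 ⟨hmem _ hm, hzero _ hm h0⟩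
    rw [map_inv₀, map_inv₀] at h2
    have h3 : (gvO π hπ h).valuation (φ y) ≤ 1 := (ValuationSubring.valuation_le_one_iff _ _).2 hy
    have h4 : (gvO π hπ h).valuation (φ y) ≠ 0 :=
      (Valuation.ne_zero_iff _).2 ((map_ne_zero φ).2 hy0)
    have h5 := (one_le_inv₀ (zero_lt_iff.2 h4)).2 h3
    exact absurd h2 (not_lt.2 h5)
  · intro hy
    exact hmem y hy

end Fermat.Agent.S36
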