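import Fermat.Agent.S36.Mod.F0Defs
import Fermat.Agent.S36.Mod.GV
import Fermat.Agent.S36.Mod.Lz
import Fermat.Agent.S36.Mod.AL2
import Fermat.Agent.S36.Mod.Cusp2
import Fermat.Agent.SS.Z1.Level

/-!
# S36 / modular part : `[DISC]` embeddings with discrete coefficients

General criterion: an embedding `s ∘ embF0` of `F0 A N` into `ℚbar((T))` which sends the constants
of `K0` and the generators `j(dτ)` to fractions of series with coefficients in `A ∩ L₁` is an
`IsDiscEmb`, as soon as the valuation is discrete on `L₁`.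
-/

set_option autoImplicit false
set_option linter.unusedSectionVars false
noncomputable section

open ModularCurve

namespace Fermat.Agent.S36

open Fermat.Agent.S24 Fermat.Agent.RED.Gauss

section Coeff

variable {R : Type*} [CommRing R]

/-- Laurent series with coefficients in a subring. -/
def coeffSubring (B : Subring R) : Subring (LaurentSeries R) := (coeffMap B.subtype).range

theorem mem_coeffSubring_iff {B : Subring R} {x : LaurentSeries R} :
    x ∈ coeffSubring B ↔ ∀ n, x.coeff n ∈ B := by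
  constructor
  · rintro ⟨y, rfl⟩ n
    rw [coeffMap_coeff]
    exact (y.coeff n).2
  · intro h
    refine ⟨⟨fun n => ⟨x.coeff n, h n⟩, x.isPWO_support.mono ?_⟩, ?_⟩
    · intro n hn
      rw [Function.mem_support] at hn
      rw [HahnSeries.mem_support]
      intro h0
      exact hn (Subtype.ext h0)
    · ext n
      rfl

end Coeff

section Frac

variable {L : Type*} [Field L]

/-- elements of the subfield generated by a subring are fractions. -/
theorem exists_frac_of_mem_closure (B : Subring L) {x : LaurentSeries L}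
    (hx : x ∈ Subfield.closure (coeffSubring B : Set (LaurentSeries L))) :
    ∃ y z : LaurentSeries L, y ∈ coeffSubring B ∧ z ∈ coeffSubring B ∧ z ≠ 0 ∧ x * z = y := by
  rw [Subfield.mem_closure_iff] at hx
  obtain ⟨y, hy, z, hz, rfl⟩ := hx
  rw [Subring.closure_eq] at hy hz
  by_cases hz0 : z = 0
  · refine ⟨0, 1, zero_mem _, one_mem _, one_ne_zero, ?_⟩
    rw [hz0, div_zero, zero_mul]
  · exact ⟨y, z, hy, hz, hz0, div_mul_cancel₀ _ hz0⟩

/-- **criterion** -/
theorem isDiscEmb_of_closure {A : ValuationSubring L} {lam : L} (L₁ : Subfield L)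
    (hlt : A.valuation lam < 1) (hne : lam ≠ 0)
    (hdisc : ∀ x ∈ L₁, x ≠ 0 → A.valuation x ≤ 1 → ∃ j : ℕ, A.valuation x = A.valuation lam ^ j)
    {F : Type*} [Field F] (e : F →+* LaurentSeries L)
    (he : ∀ y, e y ∈ Subfield.closure
      (coeffSubring (A.toSubring ⊓ L₁.toSubring) : Set (LaurentSeries L))) :
    IsDiscEmb A lam e := by
  have key : ∀ y : LaurentSeries L, y ∈ coeffSubring (A.toSubring ⊓ L₁.toSubring) →
      ∃ a : LaurentSeries A, DiscS A lam a ∧ iota A a = y := by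
    intro y hy
    rw [mem_coeffSubring_iff] at hy
    refine ⟨⟨fun n => ⟨y.coeff n, (hy n).1⟩, y.isPWO_support.mono ?_⟩, ?_, ?_⟩
    · intro n hn
      rw [Function.mem_support] at hn
      rw [HahnSeries.mem_support]
      intro h0
      exact hn (Subtype.ext h0)
    · intro n
      by_cases h0 : y.coeff n = 0
      · left
        exact Subtype.ext h0
      · right
        exact hdisc _ (hy n).2 h0 ((ValuationSubring.valuation_le_one_iff A _).mpr (hy n).1)
    · ext n
      rfl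
  refine ⟨hlt, hne, fun y => ?_⟩
  obtain ⟨u, z, hu, hz, hz0, huz⟩ := exists_frac_of_mem_closure _ (he y)
  obtain ⟨a, ha, rfl⟩ := key u hu
  obtain ⟨b, hb, rfl⟩ := key z hz
  refine ⟨a, b, ?_, ha, hb, huz⟩
  rintro rfl
  exact hz0 (map_zero _)

end Frac

section Gen

variable (A : ValuationSubring Kb) (N : ℕ) [NeZero N]

/-- generation principle over an arbitrary field of constants. -/
theorem baseChange_le (L : Type*) [Field L] [Algebra ℚ L] (S : Subfield (LaurentSeries L))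
    (hK : ∀ a : L, algebraMap L (LaurentSeries L) a ∈ S)
    (hj : ∀ (d : ℕ) [NeZero d], d ∣ N → coeffEmb L (qExpand ℚ d jq) ∈ S) :
    ∀ x ∈ laurentBaseChange L (modularFunctionFieldFull N), x ∈ S := by
  intro x hx
  rw [mem_laurentBaseChange_iff] at hx
  refine (Subfield.closure_le (t := S)).mpr ?_ hx
  rintro y (⟨a, rfl⟩ | ⟨z, hz, rfl⟩)
  · exact hK a
  · have hz' : z ∈ Subfield.closure
        (Set.range (algebraMap ℚ (LaurentSeries ℚ)) ∪ divisorExpansions N) := hz
    have : Subfield.closure (Set.range (algebraMap ℚ (LaurentSeries ℚ)) ∪ divisorExpansions N)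
        ≤ S.comap (coeffEmb L) := by
      rw [Subfield.closure_le]
      rintro w (⟨r, rfl⟩ | ⟨d, hd, hdN, rfl⟩)
      · show coeffEmb L (algebraMap ℚ (LaurentSeries ℚ) r) ∈ S
        have : coeffEmb L (algebraMap ℚ (LaurentSeries ℚ) r)
            = algebraMap L (LaurentSeries L) (algebraMap ℚ L r) := by
          rw [algebraMap_laurentSeries_eq_single, algebraMap_laurentSeries_eq_single, coeffEmb,
            coeffMap_single]
        rw [this]; exact hK _
      · exact hj d hdN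
    exact this hz'

/-- the generator `j(dτ)` of `F0 A N`. -/
def jF0 (d : ℕ) [NeZero d] (hd : d ∣ N) : F0 A N :=
  ⟨coeffEmb (KK A) (qExpand ℚ d jq), coeffEmb_mem_laurentBaseChange (KK A) (jqd_mem_full N hd)⟩

theorem embF0_jF0 (d : ℕ) [NeZero d] (hd : d ∣ N) : embF0 A N (jF0 A N d hd) = jBar N d hd := by
  apply Subtype.ext
  rw [coe_embF0]
  show cK A (coeffEmb (KK A) (qExpand ℚ d jq)) = coeffEmb Kb (qExpand ℚ d jq)
  rw [cK, coeffEmb, coeffMap_coeffMap, coeffEmb]
  exact coeffMap_congr (RingHom.ext fun c => by simp) _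

/-- a subfield of `F0 A N` containing the constants and the generators is everything. -/
theorem F0_mem_of_gen (T : Subfield (F0 A N))
    (hK : ∀ c : KK A, algebraMap (KK A) (F0 A N) c ∈ T)
    (hj : ∀ (d : ℕ) [NeZero d] (hd : d ∣ N), jF0 A N d hd ∈ T) (y : F0 A N) : y ∈ T := by
  let S : Subfield (LaurentSeries (KK A)) :=
    T.map (laurentBaseChange (KK A) (modularFunctionFieldFull N)).val.toRingHom
  have key : ∀ x ∈ laurentBaseChange (KK A) (modularFunctionFieldFull N), x ∈ S := by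
    apply baseChange_le
    · intro a
      exact ⟨algebraMap (KK A) (F0 A N) a, hK a, rfl⟩
    · intro d _ hd
      exact ⟨jF0 A N d hd, hj d hd, rfl⟩
  obtain ⟨z, hz, hzy⟩ := key y y.2
  have : z = y := Subtype.ext hzy
  rw [← this]; exact hz

/-- **generation principle for embeddings** -/
theorem emb_mem_of_gen (𝔉 : Subfield (LaurentSeries Kb)) (s : FN N →+* LaurentSeries Kb)
    (hc : ∀ c : KK A, s (algebraMap Kb (FN N) (algebraMap (KK A) Kb c)) ∈ 𝔉)
    (hj : ∀ (d : ℕ) [NeZero d] (hd : d ∣ N), s (jBar N d hd) ∈ 𝔉) (y : F0 A N) :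
    s (embF0 A N y) ∈ 𝔉 := by
  refine F0_mem_of_gen A N (𝔉.comap (s.comp (embF0 A N))) ?_ ?_ y
  · intro c
    show s (embF0 A N _) ∈ 𝔉
    rw [embF0_algebraMap]
    exact hc c
  · intro d _ hd
    show s (embF0 A N _) ∈ 𝔉
    rw [embF0_jF0]
    exact hj d hd

end Gen

section Members

variable {A : ValuationSubring Kb}

/-- the field of fractions of the series with coefficients in `A ∩ L₁`. -/
def fracField (A : ValuationSubring Kb) (L₁ : Subfield Kb) : Subfield (LaurentSeries Kb) :=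
  Subfield.closure (coeffSubring (A.toSubring ⊓ L₁.toSubring) : Set (LaurentSeries Kb))

theorem mem_fracField_of_coeff {L₁ : Subfield Kb} {x : LaurentSeries Kb}
    (h : ∀ n, x.coeff n ∈ A ∧ x.coeff n ∈ L₁) : x ∈ fracField A L₁ :=
  Subfield.subset_closure (mem_coeffSubring_iff.mpr h)

theorem C_mem_fracField {L₁ : Subfield Kb} {c : Kb} (hc : c ∈ L₁) :
    (HahnSeries.C c : LaurentSeries Kb) ∈ fracField A L₁ := by
  have key : ∀ c : Kb, c ∈ L₁ → c ∈ A → (HahnSeries.C c : LaurentSeries Kb) ∈ fracField A L₁ := by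
    intro c hc hcA
    refine mem_fracField_of_coeff fun n => ?_
    rw [HahnSeries.C_apply, HahnSeries.coeff_single]
    split_ifs
    · exact ⟨hcA, hc⟩
    · exact ⟨zero_mem _, zero_mem _⟩
  rcases A.mem_or_inv_mem c with h | h
  · exact key c hc h
  · have := inv_mem (key c⁻¹ (inv_mem hc) h)
    rwa [← map_inv₀, inv_inv] at this

theorem algebraMap_mem_fracField {L₁ : Subfield Kb} {c : Kb} (hc : c ∈ L₁) :
    algebraMap Kb (LaurentSeries Kb) c ∈ fracField A L₁ := by
  rw [algebraMap_laurentSeries_eq_single]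
  exact C_mem_fracField hc

theorem jBarSeries_coeff_int (d : ℕ) [NeZero d] (n : ℤ) :
    ∃ m : ℤ, (jBarSeries d).coeff n = (m : Kb) := by
  have h : jBarSeries d = coeffMap (Int.castRingHom Kb) (qExpand ℤ d (jqModC ℤ)) := by
    rw [jBarSeries_eq, jqNModC, coeffMap_qExpand, coeffMap_jqModC]
  exact ⟨(qExpand ℤ d (jqModC ℤ)).coeff n, by rw [h, coeffMap_coeff]; rfl⟩

theorem jBarSeries_mem_fracField (L₁ : Subfield Kb) (d : ℕ) [NeZero d] :
    jBarSeries d ∈ fracField A L₁ := by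
  refine mem_fracField_of_coeff fun n => ?_
  obtain ⟨m, hm⟩ := jBarSeries_coeff_int d n
  rw [hm]
  exact ⟨intCast_mem _ m, intCast_mem _ m⟩

theorem rot_jBarSeries_mem_fracField {L₁ : Subfield Kb} {q : ℕ} (hq : q ≠ 0) (ζ : Kbˣ)
    (hζ : ζ ^ q = 1) (hL : (ζ : Kb) ∈ L₁) (d : ℕ) [NeZero d] :
    rot ζ (jBarSeries d) ∈ fracField A L₁ := by
  refine mem_fracField_of_coeff fun n => ?_
  obtain ⟨m, hm⟩ := jBarSeries_coeff_int d n
  rw [rot_coeff, hm]
  have h1 : ((ζ ^ n : Kbˣ) : Kb) ∈ L₁ := by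
    rw [Units.val_zpow_eq_zpow_val]
    exact zpow_mem hL n
  have h2 : ((ζ ^ n : Kbˣ) : Kb) ∈ A := by
    rw [← ValuationSubring.valuation_le_one_iff]
    refine le_of_eq (valuation_eq_one_of_pow_eq_one A.valuation hq ?_)
    rw [← Units.val_pow_eq_pow_val, ← zpow_natCast, ← zpow_mul, mul_comm, zpow_mul, zpow_natCast, hζ,
      one_zpow, Units.val_one]
  exact ⟨mul_mem h2 (intCast_mem _ m), mul_mem h1 (intCast_mem _ m)⟩

end Members

section Levels

variable (M q : ℕ) [NeZero M] [NeZero q]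

theorem dvd_cases2 (hq : q.Prime) {D : ℕ} (hD : D ∣ M * q) :
    ∃ d, d ∣ M ∧ (D = d ∨ D = q * d) := by
  obtain ⟨k₁, k₂, h1, h2, rfl⟩ := (Nat.dvd_mul).1 hD
  rcases (Nat.dvd_prime hq).1 h2 with rfl | rfl
  · exact ⟨k₁, h1, Or.inl (mul_one _)⟩
  · exact ⟨k₁, h1, Or.inr (mul_comm _ _)⟩

theorem dvd_cases3 (hq : q.Prime) {D : ℕ} (hD : D ∣ M * q * q) :
    ∃ d, d ∣ M ∧ (D = d ∨ D = q * d ∨ D = q * (q * d)) := by
  obtain ⟨k₁, k₂, h1, h2, rfl⟩ := (Nat.dvd_mul).1 hD
  obtain ⟨d, hd, h3⟩ := dvd_cases2 M q hq h1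
  rcases (Nat.dvd_prime hq).1 h2 with rfl | rfl
  · rcases h3 with rfl | rfl
    · exact ⟨k₁, hd, Or.inl (mul_one _)⟩
    · exact ⟨d, hd, Or.inr (Or.inl (mul_one _))⟩
  · rcases h3 with rfl | rfl
    · exact ⟨k₁, hd, Or.inr (Or.inl (mul_comm _ _))⟩
    · exact ⟨d, hd, Or.inr (Or.inr (mul_comm _ _))⟩

theorem jBar_level2 (hq : q.Prime) (D : ℕ) [NeZero D] (hD : D ∣ M * q) :
    ∃ (d : ℕ) (_ : NeZero d) (hd : d ∣ M),
      jBar (M * q) D hD = heckeAlphaBar Kb M q (jBar M d hd) ∨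
      jBar (M * q) D hD = heckeBetaBar Kb M q (jBar M d hd) := by
  obtain ⟨d, hd, h⟩ := dvd_cases2 M q hq hD
  have hd0 : NeZero d := ⟨fun h0 => NeZero.ne M (Nat.eq_zero_of_zero_dvd (h0 ▸ hd))⟩
  refine ⟨d, hd0, hd, ?_⟩
  rcases h with rfl | rfl
  · exact Or.inl (RED.ES.heckeAlphaBar_jBar M q D hd).symm
  · exact Or.inr (RED.ES.heckeBetaBar_jBar M q d hd).symm

theorem jBar_level3 (hq : q.Prime) (D : ℕ) [NeZero D] (hD : D ∣ M * q * q) :
    ∃ (d : ℕ) (_ : NeZero d) (hd : d ∣ M),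
      jBar (M * q * q) D hD = heckeAlphaBar Kb (M * q) q (heckeAlphaBar Kb M q (jBar M d hd)) ∨
      jBar (M * q * q) D hD = heckeAlphaBar Kb (M * q) q (heckeBetaBar Kb M q (jBar M d hd)) ∨
      jBar (M * q * q) D hD = heckeBetaBar Kb (M * q) q (heckeBetaBar Kb M q (jBar M d hd)) := by
  obtain ⟨d, hd, h⟩ := dvd_cases3 M q hq hD
  have hd0 : NeZero d := ⟨fun h0 => NeZero.ne M (Nat.eq_zero_of_zero_dvd (h0 ▸ hd))⟩
  refine ⟨d, hd0, hd, ?_⟩
  rcases h with rfl | rfl | rfl
  · left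
    rw [RED.ES.heckeAlphaBar_jBar, RED.ES.heckeAlphaBar_jBar]
  · right; left
    rw [RED.ES.heckeBetaBar_jBar, RED.ES.heckeAlphaBar_jBar]
  · right; right
    rw [RED.ES.heckeBetaBar_jBar, RED.ES.heckeBetaBar_jBar]

end Levels

section Main

variable {A : ValuationSubring Kb} {q : ℕ}

theorem valuation_natCast_lt_one (hA : A.LiesOverPrime q) : A.valuation (q : Kb) < 1 :=
  A.mem_nonunits_iff.mp hA

/-- the criterion for `L₁ = K0`. -/
theorem isDiscEmb_K0 (hq : q.Prime) (hA : A.LiesOverPrime q) {F : Type*} [Field F]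
    (e : F →+* LaurentSeries Kb) (he : ∀ y, e y ∈ fracField A (K0 A).toSubfield) :
    IsDiscEmb A (q : Kb) e :=
  isDiscEmb_of_closure (K0 A).toSubfield (valuation_natCast_lt_one hA)
    (by exact_mod_cast hq.ne_zero)
    (fun _ hx hx0 hxA => exists_pow_of_mem_K0 hq hA hx0 hx hxA) e he

/-- the criterion for `L₁ = K0(ζ)`. -/
theorem isDiscEmb_K0zeta (hq : q.Prime) (hA : A.LiesOverPrime q) {ζ : Kb}
    (hζ : IsPrimitiveRoot ζ q) {F : Type*} [Field F]
    (e : F →+* LaurentSeries Kb)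
    (he : ∀ y, e y ∈ fracField A (IntermediateField.adjoin (K0 A) {ζ}).toSubfield) :
    IsDiscEmb A (1 - ζ) e :=
  isDiscEmb_of_closure (IntermediateField.adjoin (K0 A) {ζ}).toSubfield
    (valuation_one_sub_zeta_lt hq hA hζ) (sub_ne_zero.mpr (hζ.ne_one hq.one_lt).symm)
    (fun _ hx hx0 hxA => exists_pow_of_mem_adjoin_zeta hq hA hζ hx0 hx hxA) e he

/-- the `q`-expansion at `∞`, any level. -/
theorem disc_val (hq : q.Prime) (hA : A.LiesOverPrime q) (N : ℕ) [NeZero N] :
    IsDiscEmb A (q : Kb)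
      (((modularFunctionFieldBar N).val : FN N →+* LaurentSeries Kb).comp (embF0 A N)) := by
  refine isDiscEmb_K0 hq hA _ (fun y => ?_)
  rw [RingHom.comp_apply]
  refine emb_mem_of_gen A N _ _ ?_ ?_ y
  · intro c
    exact algebraMap_mem_fracField (algebraMap_KK_mem c)
  · intro d _ hd
    exact jBarSeries_mem_fracField _ d

variable (M : ℕ) [NeZero M]

/-- level `M q`, after the swap. -/
theorem disc_sw [hq : Fact q.Prime] (hA : A.LiesOverPrime q) (hqM : ¬ q ∣ M) :
    IsDiscEmb A (q : Kb)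
      ((((modularFunctionFieldBar (M * q)).val : FN (M * q) →+* LaurentSeries Kb).comp
        (SS.swAlg M q hqM : FN (M * q) →+* FN (M * q))).comp (embF0 A (M * q))) := by
  refine isDiscEmb_K0 hq.out hA _ (fun y => ?_)
  rw [RingHom.comp_apply]
  refine emb_mem_of_gen A (M * q) _ _ ?_ ?_ y
  · intro c
    show ((SS.swAlg M q hqM (algebraMap Kb (FN (M * q)) _) : FN (M * q)) : LaurentSeries Kb) ∈ _
    rw [AlgHom.commutes]
    exact algebraMap_mem_fracField (algebraMap_KK_mem c)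
  · intro D _ hD
    show ((SS.swAlg M q hqM (jBar (M * q) D hD) : FN (M * q)) : LaurentSeries Kb) ∈ _
    obtain ⟨d, _, hd, h | h⟩ := jBar_level2 M q hq.out D hD
    · rw [h, SS.swAlg_alpha, RED.ES.heckeBetaBar_jBar]
      exact jBarSeries_mem_fracField _ _
    · rw [h, SS.swAlg_beta, RED.ES.heckeAlphaBar_jBar]
      exact jBarSeries_mem_fracField _ _

/-- level `M q²`, the cusp `1/q`. -/
theorem disc_sig2 [NeZero q] (hq : q.Prime) (hA : A.LiesOverPrime q) (ζ : Kbˣ)
    (hζ : IsPrimitiveRoot ζ q) (s : FN (M * q * q) →+* LaurentSeries Kb)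
    (hs0 : ∀ a : Kb, s (algebraMap Kb (FN (M * q * q)) a) = HahnSeries.C a)
    (hs1 : ∀ y : FN (M * q), s (heckeAlphaBar Kb (M * q) q y) = (y : LaurentSeries Kb))
    (hs2 : ∀ u : FN M, s (heckeBetaBar Kb (M * q) q (heckeBetaBar Kb M q u))
        = rot ζ (u : LaurentSeries Kb)) :
    IsDiscEmb A (1 - (ζ : Kb)) (s.comp (embF0 A (M * q * q))) := by
  refine isDiscEmb_K0zeta hq hA (IsPrimitiveRoot.coe_units_iff.mpr hζ) _ (fun y => ?_)
  refine emb_mem_of_gen A (M * q * q) _ _ ?_ ?_ y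
  · intro c
    rw [hs0]
    refine C_mem_fracField ?_
    exact (IntermediateField.adjoin (K0 A) {(ζ : Kb)}).algebraMap_mem
      (⟨_, algebraMap_KK_mem c⟩ : K0 A)
  · intro D _ hD
    obtain ⟨d, _, hd, h | h | h⟩ := jBar_level3 M q hq D hD
    · rw [h, hs1, RED.ES.heckeAlphaBar_jBar]
      exact jBarSeries_mem_fracField _ _
    · rw [h, hs1, RED.ES.heckeBetaBar_jBar]
      exact jBarSeries_mem_fracField _ _
    · rw [h, hs2]
      exact rot_jBarSeries_mem_fracField hq.ne_zero ζ hζ.pow_eq_one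
        (IntermediateField.mem_adjoin_simple_self _ _) d

/-- level `M q²`, after `W_{q²}`. -/
theorem disc_W2 [NeZero q] (hq : q.Prime) (hA : A.LiesOverPrime q)
    (w : FN (M * q * q) →+* FN (M * q * q))
    (hw0 : ∀ a : Kb, w (algebraMap Kb _ a) = algebraMap Kb _ a)
    (hw1 : ∀ u : FN M, w (heckeAlphaBar Kb (M * q) q (heckeAlphaBar Kb M q u))
        = heckeBetaBar Kb (M * q) q (heckeBetaBar Kb M q u))
    (hw2 : ∀ u : FN M, w (heckeAlphaBar Kb (M * q) q (heckeBetaBar Kb M q u))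
        = heckeAlphaBar Kb (M * q) q (heckeBetaBar Kb M q u))
    (hw3 : ∀ u : FN M, w (heckeBetaBar Kb (M * q) q (heckeBetaBar Kb M q u))
        = heckeAlphaBar Kb (M * q) q (heckeAlphaBar Kb M q u)) :
    IsDiscEmb A (q : Kb)
      ((((modularFunctionFieldBar (M * q * q)).val : FN (M * q * q) →+* LaurentSeries Kb).comp
        w).comp (embF0 A (M * q * q))) := by
  refine isDiscEmb_K0 hq hA _ (fun y => ?_)
  rw [RingHom.comp_apply]
  refine emb_mem_of_gen A (M * q * q) _ _ ?_ ?_ y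
  · intro c
    show ((w (algebraMap Kb (FN (M * q * q)) _) : FN (M * q * q)) : LaurentSeries Kb) ∈ _
    rw [hw0]
    exact algebraMap_mem_fracField (algebraMap_KK_mem c)
  · intro D _ hD
    show ((w (jBar (M * q * q) D hD) : FN (M * q * q)) : LaurentSeries Kb) ∈ _
    obtain ⟨d, _, hd, h | h | h⟩ := jBar_level3 M q hq D hD
    · rw [h, hw1, RED.ES.heckeBetaBar_jBar, RED.ES.heckeBetaBar_jBar]
      exact jBarSeries_mem_fracField _ _
    · rw [h, hw2, RED.ES.heckeBetaBar_jBar, RED.ES.heckeAlphaBar_jBar]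
      exact jBarSeries_mem_fracField _ _
    · rw [h, hw3, RED.ES.heckeAlphaBar_jBar, RED.ES.heckeAlphaBar_jBar]
      exact jBarSeries_mem_fracField _ _

end Main

end Fermat.Agent.S36
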