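import Fermat.Agent.S36.Mod.F0Defs
import Fermat.Agent.S36.Mod.GV
import Fermat.Agent.S36.Mod.Lz
import Fermat.Agent.S36.Mod.AL2
import Fermat.Agent.S36.Mod.Cusp2
import Fermat.Agent.S36.Mod.Disc
import Fermat.Agent.SS.Z1.Level
import Fermat.Agent.RED.GalEq.Residue

/-!
# S36 / modular part : the objects (context, embeddings, valuation rings)

`C : Ctx` bundles the place `A | q`, the auxiliary level `M` (`q ∤ M`; `4 ∣ M` or `9 ∣ M` is a separate hypothesis where needed) and a
primitive `q`-th root of unity.  Levels: `C.FM` (level `M`), `C.F'` (level `M q`), `C.F` (level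
`M q²`), all over `C.K = KK A`.

* `C.e1 : C.FM → ℚbar((T))` the `q`-expansion;
* `C.e2 j : C.F' → ℚbar((T))` (`j = 0` : at `∞`, `j = 1` : after the Atkin-Lehner swap);
* `C.e3 i : C.F → ℚbar((T))` (`i = 0` : at `∞`, `i = 1` : at the cusp `1/q` (`sigma2`),
  `i = 2` : after `W_{q²}`);
* `C.O1`, `C.O2 j`, `C.O3 i` the Gauss valuation rings (`gvO`), `C.red1`, `C.red2 j`, `C.red3 i` the
  residue maps with values in `k((T))`.
-/

set_option autoImplicit false
set_option linter.unusedSectionVars false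
noncomputable section

open ModularCurve

namespace Fermat.Agent.S36

open Fermat.Agent.S24 Fermat.Agent.RED.Gauss

/-- the context of the modular part of S36. -/
structure Ctx where
  A : ValuationSubring Kb
  q : ℕ
  M : ℕ
  hq : q.Prime
  hA : A.LiesOverPrime q
  hM : M ≠ 0
  hqM : ¬ q ∣ M
  ζ : Kbˣ
  hζ : IsPrimitiveRoot ζ q

namespace Ctx

variable (C : Ctx)

instance : NeZero C.M := ⟨C.hM⟩
instance : Fact C.q.Prime := ⟨C.hq⟩
instance : NeZero C.q := ⟨C.hq.ne_zero⟩

/-- the residue field -/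
abbrev k : Type := IsLocalRing.ResidueField C.A

/-- the residue map -/
abbrev π : C.A →+* C.k := IsLocalRing.residue C.A

theorem hπ : IsResMap C.π :=
  ⟨IsLocalRing.residue_surjective, fun a => by
    rw [IsLocalRing.residue_eq_zero_iff]
    exact ValuationSubring.valuation_lt_one_iff C.A a⟩

instance : IsAlgClosed C.k := Fermat.Agent.RED.GalEq.isAlgClosed_residueField C.A

instance : CharP C.k C.q := Fermat.Agent.RED.GalEq.charP_residueField C.hq C.hA

/-- the base field `ℚbar ^ I_A` -/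
abbrev K : Type := KK C.A

/-- the DVR `A ∩ K` -/
abbrev R : ValuationSubring C.K := RK C.A

instance : IsDiscreteValuationRing C.R := isDiscreteValuationRing_RK C.hq C.hA

theorem irr : Irreducible ((C.q : ℕ) : C.R) := irreducible_natCast_RK C.hq C.hA

/-- level `M` -/
abbrev FM : Type := F0 C.A C.M

/-- level `M q` -/
abbrev F' : Type := F0 C.A (C.M * C.q)

/-- level `M q²` -/
abbrev F : Type := F0 C.A (C.M * C.q * C.q)

/-- `τ ↦ τ`, level `M q → M q²` -/
abbrev α : C.F' →ₐ[C.K] C.F := heckeAlphaBar C.K (C.M * C.q) C.q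

/-- `τ ↦ q τ`, level `M q → M q²` -/
abbrev β : C.F' →ₐ[C.K] C.F := heckeBetaBar C.K (C.M * C.q) C.q

/-- `τ ↦ τ`, level `M → M q` -/
abbrev α' : C.FM →ₐ[C.K] C.F' := heckeAlphaBar C.K C.M C.q

/-- `τ ↦ q τ`, level `M → M q` -/
abbrev β' : C.FM →ₐ[C.K] C.F' := heckeBetaBar C.K C.M C.q

/-- `u ↦ u(q^i τ)`, level `M → M q²` -/
def a (i : Fin 3) : C.FM →ₐ[C.K] C.F :=
  ![C.α.comp C.α', C.α.comp C.β', C.β.comp C.β'] i

/-- the inclusion of `FN N` into the Laurent series -/
def valN (N : ℕ) [NeZero N] : FN N →+* LaurentSeries Kb :=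
  ((modularFunctionFieldBar N).val : FN N →+* LaurentSeries Kb)

/-- the expansion at the cusp `1/q` -/
def sig2 : FN (C.M * C.q * C.q) →+* LaurentSeries Kb :=
  (exists_sigma2 C.M C.q C.hq C.hqM C.ζ C.hζ).choose

/-- the Atkin-Lehner involution `W_{q²}` -/
def W2 : FN (C.M * C.q * C.q) →+* FN (C.M * C.q * C.q) :=
  (exists_W2 C.M C.q C.hq C.hqM).choose

/-- the expansion at level `M` -/
def e1 : C.FM →+* LaurentSeries Kb := (valN C.M).comp (embF0 C.A C.M)

/-- the two expansions at level `M q` -/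
def e2 (j : Fin 2) : C.F' →+* LaurentSeries Kb :=
  ![(valN (C.M * C.q)).comp (embF0 C.A (C.M * C.q)),
    ((valN (C.M * C.q)).comp (SS.swAlg C.M C.q C.hqM : FN (C.M * C.q) →+* FN (C.M * C.q))).comp
      (embF0 C.A (C.M * C.q))] j

/-- the three expansions at level `M q²` -/
def e3 (i : Fin 3) : C.F →+* LaurentSeries Kb :=
  ![(valN (C.M * C.q * C.q)).comp (embF0 C.A (C.M * C.q * C.q)),
    C.sig2.comp (embF0 C.A (C.M * C.q * C.q)),
    ((valN (C.M * C.q * C.q)).comp C.W2).comp (embF0 C.A (C.M * C.q * C.q))] i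

/-- the uniformizers of the coefficient fields -/
def lam (i : Fin 3) : Kb := ![(C.q : Kb), 1 - (C.ζ : Kb), (C.q : Kb)] i

/-! ### `[DISC]` the embeddings have discrete coefficients

Proof.  The set of `x : ℚbar((T))` which are fractions `a / b` of series with coefficients in
`A ∩ L₁` (`L₁ = K0` resp. `K0(ζ)`) is a subfield; it contains the constants of `K0` and the images
of the generators `j(d τ)` (`d ∣ N`), which are `jq(T^d)` resp. `jq((ζ T)^d')` with coefficients in
`ℤ[ζ]`.  `DiscS` then follows from `[LZ]`. -/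

theorem disc1 : IsDiscEmb C.A (C.q : Kb) C.e1 := disc_val C.hq C.hA C.M

theorem disc2 (j : Fin 2) : IsDiscEmb C.A (C.q : Kb) (C.e2 j) := by
  fin_cases j
  · exact disc_val C.hq C.hA (C.M * C.q)
  · exact disc_sw C.M C.hA C.hqM

theorem disc3 (i : Fin 3) : IsDiscEmb C.A (C.lam i) (C.e3 i) := by
  fin_cases i
  · exact disc_val C.hq C.hA (C.M * C.q * C.q)
  · obtain ⟨h0, h1, h2⟩ := (exists_sigma2 C.M C.q C.hq C.hqM C.ζ C.hζ).choose_spec
    exact disc_sig2 C.M C.hq C.hA C.ζ C.hζ C.sig2 h0 h1 h2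
  · obtain ⟨h0, -, h1, h2, h3, -⟩ := (exists_W2 C.M C.q C.hq C.hqM).choose_spec
    exact disc_W2 C.M C.hq C.hA C.W2 h0 h1 h2 h3

/-- the Gauss valuation ring at level `M` -/
def O1 : ValuationSubring C.FM := gvO C.π C.hπ C.disc1

/-- the two valuation rings at level `M q` -/
def O2 (j : Fin 2) : ValuationSubring C.F' := gvO C.π C.hπ (C.disc2 j)

/-- the three valuation rings at level `M q²` -/
def O3 (i : Fin 3) : ValuationSubring C.F := gvO C.π C.hπ (C.disc3 i)

/-- the residue maps -/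
def red1 : C.O1 →+* LaurentSeries C.k := gvRed C.hπ C.disc1

def red2 (j : Fin 2) : C.O2 j →+* LaurentSeries C.k := gvRed C.hπ (C.disc2 j)

def red3 (i : Fin 3) : C.O3 i →+* LaurentSeries C.k := gvRed C.hπ (C.disc3 i)

/-- `j` at level `M` over `K` -/
def jM : C.FM :=
  ⟨coeffEmb C.K (qExpand ℚ 1 jq),
    coeffEmb_mem_laurentBaseChange C.K (jqd_mem_full C.M (one_dvd C.M))⟩

/-- `j(q^i τ)` -/
def j (i : Fin 3) : C.F := C.a i C.jM

/-- `j` at level `M q` -/
def j' : C.F' := C.α' C.jM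

/-- the chart function `t = j₀ ^ (q²) - j₀` -/
def t : C.F := C.j 0 ^ (C.q ^ 2) - C.j 0

end Ctx

end Fermat.Agent.S36
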