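import Fermat.Agent.S36.Mod.Sys
import Fermat.Agent.S36.Mod.Objects

/-!
# S36 / modular part : `[SYS]` in the language of `Ctx`
-/

set_option autoImplicit false
set_option linter.unusedSectionVars false
noncomputable section

open ModularCurve Polynomial

namespace Fermat.Agent.S36

open Fermat.Agent.S24 Fermat.Agent.RED.Gauss Fermat.Agent.GAL.AD

namespace Ctx

variable (C : Ctx)

theorem isSW : IsSW C.M C.sig2 C.W2 C.ζ where
  s0 := (exists_sigma2 C.M C.q C.hq C.hqM C.ζ C.hζ).choose_spec.1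
  s1 := (exists_sigma2 C.M C.q C.hq C.hqM C.ζ C.hζ).choose_spec.2.1
  s2 := (exists_sigma2 C.M C.q C.hq C.hqM C.ζ C.hζ).choose_spec.2.2
  wc := (exists_W2 C.M C.q C.hq C.hqM).choose_spec.1
  w0 := (exists_W2 C.M C.q C.hq C.hqM).choose_spec.2.2.1
  w1 := (exists_W2 C.M C.q C.hq C.hqM).choose_spec.2.2.2.1
  w2 := (exists_W2 C.M C.q C.hq C.hqM).choose_spec.2.2.2.2.1

theorem e3_eq_eT (l : Fin 3) : C.e3 l = eT C.A C.M C.sig2 C.W2 l := rfl

theorem a_eq_aK (i : Fin 3) : C.a i = aK C.K C.M C.q i := rfl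

theorem jM_eq_jK : C.jM = jK C.K C.M 1 (one_dvd C.M) :=
  Subtype.ext (coeffEmb_qExpand_jq _ _)

theorem j_eq_jT (i : Fin 3) : C.j i = jT C.K C.M C.q i := by
  rw [j, jM_eq_jK]; rfl

theorem O3_eq_OT : C.O3 = OT C.A (lam := C.lam) C.disc3 := rfl

theorem e1_apply (u : C.FM) : C.e1 u = cK C.A (u : LaurentSeries C.K) := rfl

/-- **[SYS]** -/
theorem sys_jT (i : Fin 3) :
    GaussSys C.K ((C.q : ℕ) : C.R) (C.j i) C.O3 (eVec C.q) (fT C.M C.q i) := by
  rw [j_eq_jT, O3_eq_OT]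
  exact gaussSys_jT C.A C.hA C.hqM C.hζ C.isSW C.disc3 i

end Ctx

end Fermat.Agent.S36
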