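import Fermat.Agent.S36.Mod.Objects
import Fermat.Agent.S36.Abs.Datum
import Fermat.Agent.S36.Abs.GaussPoly
import Fermat.Agent.S36.Mod.SysCtx

/-!
# S36 / modular part : the field `sys` of `GeomDatum`

`Ctx.sys_j` (three chart functions `j 0, j 1, j 2`) is the target of `S36/Mod/Sys*.lean` (helper90);
`Ctx.sys` follows by `GaussSys.comp_poly`.
-/

set_option autoImplicit false
noncomputable section

open Polynomial ModularCurve

namespace Fermat.Agent.S36

namespace Ctx

variable (C : Ctx)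

/-- `ψ (M)` -/
def psi : ℕ := dedekindPsi C.M

/-- the residue degrees of the three components over `k (red (j l))` -/
def fj (l : Fin 3) : Fin 3 → ℕ :=
  ![![C.psi, C.psi, C.q ^ 2 * C.psi], ![C.q * C.psi, C.q * C.psi, C.q * C.psi],
    ![C.q ^ 2 * C.psi, C.psi, C.psi]] l

/-- **[SYS]** (helper90) -/
theorem sys_j (l : Fin 3) :
    GaussSys C.K ((C.q : ℕ) : C.R) (C.j l) C.O3 (eVec C.q) (C.fj l) := by
  have h : C.fj l = fT C.M C.q l := by
    funext i
    fin_cases l <;> fin_cases i <;> simp [fj, fT, nT, psi]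
  rw [h]
  exact C.sys_jT l

/-- the residue degrees over `k (red t)` -/
def fdeg : Fin 3 → ℕ := fun i => C.q ^ 2 * C.fj 0 i

/-- `X ^ (q²) - X` -/
def Pt : C.R[X] := X ^ (C.q ^ 2) - X

theorem one_lt_q_sq : 1 < C.q ^ 2 := by
  have := C.hq.two_le
  nlinarith

theorem Pt_monic : C.Pt.Monic := by
  unfold Pt
  apply monic_X_pow_sub
  rw [degree_X]
  exact_mod_cast C.one_lt_q_sq

theorem Pt_natDegree : C.Pt.natDegree = C.q ^ 2 := by
  unfold Pt
  rw [natDegree_sub_eq_left_of_natDegree_lt, natDegree_X_pow]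
  rw [natDegree_X, natDegree_X_pow]
  exact C.one_lt_q_sq

theorem aeval_Pt : aeval (C.j 0) C.Pt = C.t := by
  simp [Pt, t]

/-- the field `sys` of `GeomDatum` -/
theorem sys : GaussSys C.K ((C.q : ℕ) : C.R) C.t C.O3 (eVec C.q) C.fdeg := by
  rw [← C.aeval_Pt]
  exact (C.sys_j 0).comp_poly C.irr C.Pt_monic C.Pt_natDegree C.one_lt_q_sq.le

theorem intCl_t : intCl C.R C.t = intCl C.R (C.j 0) := by
  rw [← C.aeval_Pt]
  exact intCl_aeval_eq (C.j 0) C.Pt_monic (by rw [C.Pt_natDegree]; exact C.one_lt_q_sq.le)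

end Ctx

end Fermat.Agent.S36
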