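import Fermat.Agent.S36.F0.CtxM
import Fermat.Agent.S36.Mod.DedMRed
import Fermat.Agent.S36.Mod.SysTop
import Fermat.Agent.S36.Mod.SysM
import Fermat.Agent.S36.Abs.DedTransfer
import Fermat.Agent.S36.Abs.ValCrit

/-!
# S36 / modular part : `[DED-M]` good reduction at the level `M` (`q ∤ M`)

One component: `C.O1`.  `B'₁ = intCl R tM`, `B'₂ = intCl R tM⁻¹`, `tM = jM ^ (q²) - jM`; the residue rings
`B'_c ⧸ p'` are the integral closures of `k[τ]`, `k[τ⁻¹]` (`τ = jb ^ (q²) - jb`) in `Fb_M`, hence Dedekind.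

* `sysM` : `gv_isGaussAt`, `gv_res` (`Mod/GVSys.lean`), `exists_resInd` with `n = 1` (`Mod/ResInd.lean`) lifted by
  `C.exists_red1_eq`, `finrank_F0_le` (`Mod/Deg.lean`); `ram` : `ϖ = q`, `e = 1`.
* `dedM₁`, `dedM₂` : `isDedekindDomain_centre_of_red` (`Abs/DedTransfer.lean`) or
  `isDedekindDomain_quotient_centre` (`Abs/DedLocal.lean`) with `ρ = C.gd0.red` (use `C.O1_eq`), `D = intRing k τ^{±1}`
  (`IsSepParam.pow_sub_self`, `IsSepParam.inv`, `IsSepParam.isDedekindDomain`); `ρ (B) ⊆ D` : push a monic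
  equation forward; onto : `C.rform` + `GaussSys.mem_intCl_of_isIntegral`.
-/

set_option autoImplicit false
noncomputable section

open Polynomial

namespace Fermat.Agent.S36

namespace Ctx

variable (C : Ctx)

/-- the chart function at the level `M` -/
def tM : C.FM := C.jM ^ (C.q ^ 2) - C.jM

/-- **[SYS-M]** -/
theorem sysM : GaussSys C.K ((C.q : ℕ) : C.R) C.jM (fun _ : Fin 1 => C.O1) (fun _ => 1)
    (fun _ => C.psi) :=
  C.sysM_aux

theorem aeval_Pt_jM : aeval C.jM C.Pt = C.tM := by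
  simp [Pt, tM]

theorem sys_tM : GaussSys C.K ((C.q : ℕ) : C.R) C.tM (fun _ : Fin 1 => C.O1) (fun _ => 1)
    (fun _ => C.q ^ 2 * C.psi) := by
  rw [← C.aeval_Pt_jM]
  exact C.sysM.comp_poly C.irr C.Pt_monic C.Pt_natDegree C.one_lt_q_sq.le

theorem intCl_tM : intCl C.R C.tM = intCl C.R C.jM := by
  rw [← C.aeval_Pt_jM]
  exact intCl_aeval_eq C.jM C.Pt_monic (by rw [C.Pt_natDegree]; exact C.one_lt_q_sq.le)

/-- **[DED-M]**, first chart -/
theorem dedM₁ (h49 : 4 ∣ C.M ∨ 9 ∣ C.M) : IsDedekindDomain (intCl C.R C.tM ⧸ C.sys_tM.p 0) :=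
  C.dedM₁_gen h49 C.sys_tM

/-- **[DED-M]**, second chart -/
theorem dedM₂ (h49 : 4 ∣ C.M ∨ 9 ∣ C.M) :
    IsDedekindDomain (intCl C.R C.tM⁻¹ ⧸ (C.sys_tM.inv C.irr).p 0) :=
  C.dedM₂_gen h49 (C.sys_tM.inv C.irr)

end Ctx

end Fermat.Agent.S36
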