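import Fermat.Agent.S36.Mod.SysRed

/-!
# S36 / modular part : the three embeddings of level `M q²` and the table of reductions

Context-free: `s` (expansion at the middle cusp) and `w` (Atkin-Lehner) are parameters with their
characteristic properties as hypotheses.
-/

set_option autoImplicit false
set_option linter.unusedSectionVars false
noncomputable section

open ModularCurve Polynomial

namespace Fermat.Agent.S36

open Fermat.Agent.S24 Fermat.Agent.RED.Gauss Fermat.Agent.GAL.AD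

/-- `u ↦ u(q^i τ)`, level `M → M q²`, over any field. -/
def aK (K : Type*) [Field K] [CharZero K] (M q : ℕ) [NeZero M] [NeZero q] (i : Fin 3) :
    FK K M →ₐ[K] FK K (M * q * q) :=
  ![(heckeAlphaBar K (M * q) q).comp (heckeAlphaBar K M q),
    (heckeAlphaBar K (M * q) q).comp (heckeBetaBar K M q),
    (heckeBetaBar K (M * q) q).comp (heckeBetaBar K M q)] i

/-- `j (q^i τ)` at level `M q²` -/
def jT (K : Type*) [Field K] [CharZero K] (M q : ℕ) [NeZero M] [NeZero q] (i : Fin 3) :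
    FK K (M * q * q) := aK K M q i (jK K M 1 (one_dvd M))

/-- the exponents of the table: `red_l (u (q^i τ)) = ubar (T ^ (q ^ nT l i))`. -/
def nT : Fin 3 → Fin 3 → ℕ := ![![0, 1, 2], ![0, 1, 0], ![2, 1, 0]]

/-- the index of the degeneracy map which is an isomorphism on the `l`-th component -/
def gT : Fin 3 → Fin 3 := ![0, 0, 2]

theorem nT_gT (l : Fin 3) : nT l (gT l) = 0 := by
  fin_cases l <;> rfl

section Tab

variable (A : ValuationSubring Kb) (M : ℕ) [NeZero M] {q : ℕ} [NeZero q]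
  (s : FN (M * q * q) →+* LaurentSeries Kb) (w : FN (M * q * q) →+* FN (M * q * q))

/-- the three embeddings -/
def eT (l : Fin 3) : F0 A (M * q * q) →+* LaurentSeries Kb :=
  ![((modularFunctionFieldBar (M * q * q)).val : FN (M * q * q) →+* LaurentSeries Kb).comp
      (embF0 A (M * q * q)),
    s.comp (embF0 A (M * q * q)),
    (((modularFunctionFieldBar (M * q * q)).val : FN (M * q * q) →+* LaurentSeries Kb).comp w).comp
      (embF0 A (M * q * q))] l

theorem eT_zero (x : F0 A (M * q * q)) :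
    eT A M s w 0 x = ((embF0 A (M * q * q) x : FN (M * q * q)) : LaurentSeries Kb) := rfl

theorem eT_one (x : F0 A (M * q * q)) : eT A M s w 1 x = s (embF0 A (M * q * q) x) := rfl

theorem eT_two (x : F0 A (M * q * q)) :
    eT A M s w 2 x = ((w (embF0 A (M * q * q) x) : FN (M * q * q)) : LaurentSeries Kb) := rfl

theorem embF0_aK_zero (u : F0 A M) : embF0 A (M * q * q) (aK (KK A) M q 0 u) =
    heckeAlphaBar Kb (M * q) q (heckeAlphaBar Kb M q (embF0 A M u)) := by
  show embF0 A (M * q * q) (heckeAlphaBar (KK A) (M * q) q (heckeAlphaBar (KK A) M q u)) = _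
  rw [embF0_alpha, embF0_alpha]

theorem embF0_aK_one (u : F0 A M) : embF0 A (M * q * q) (aK (KK A) M q 1 u) =
    heckeAlphaBar Kb (M * q) q (heckeBetaBar Kb M q (embF0 A M u)) := by
  show embF0 A (M * q * q) (heckeAlphaBar (KK A) (M * q) q (heckeBetaBar (KK A) M q u)) = _
  rw [embF0_alpha, embF0_beta]

theorem embF0_aK_two (u : F0 A M) : embF0 A (M * q * q) (aK (KK A) M q 2 u) =
    heckeBetaBar Kb (M * q) q (heckeBetaBar Kb M q (embF0 A M u)) := by
  show embF0 A (M * q * q) (heckeBetaBar (KK A) (M * q) q (heckeBetaBar (KK A) M q u)) = _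
  rw [embF0_beta, embF0_beta]

/-- the hypotheses on `s` and `w` -/
structure IsSW (ζ : Kbˣ) : Prop where
  s0 : ∀ a : Kb, s (algebraMap Kb (FN (M * q * q)) a) = HahnSeries.C a
  s1 : ∀ y : FN (M * q), s (heckeAlphaBar Kb (M * q) q y) = (y : LaurentSeries Kb)
  s2 : ∀ u : FN M, s (heckeBetaBar Kb (M * q) q (heckeBetaBar Kb M q u))
        = rot ζ (u : LaurentSeries Kb)
  wc : ∀ a : Kb, w (algebraMap Kb _ a) = algebraMap Kb _ a
  w0 : ∀ u : FN M, w (heckeAlphaBar Kb (M * q) q (heckeAlphaBar Kb M q u))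
        = heckeBetaBar Kb (M * q) q (heckeBetaBar Kb M q u)
  w1 : ∀ u : FN M, w (heckeAlphaBar Kb (M * q) q (heckeBetaBar Kb M q u))
        = heckeAlphaBar Kb (M * q) q (heckeBetaBar Kb M q u)
  w2 : ∀ u : FN M, w (heckeBetaBar Kb (M * q) q (heckeBetaBar Kb M q u))
        = heckeAlphaBar Kb (M * q) q (heckeAlphaBar Kb M q u)

variable {M s w} {ζ : Kbˣ} (H : IsSW M s w ζ)

include H

theorem IsSW.eT_const (l : Fin 3) (c : KK A) :
    eT A M s w l (algebraMap (KK A) (F0 A (M * q * q)) c)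
      = HahnSeries.C (algebraMap (KK A) Kb c) := by
  have h0 : ((algebraMap Kb (FN (M * q * q)) (algebraMap (KK A) Kb c) : FN (M * q * q)) :
      LaurentSeries Kb) = HahnSeries.C (algebraMap (KK A) Kb c) := by
    show algebraMap Kb (LaurentSeries Kb) _ = _
    rw [algebraMap_laurentSeries_eq_single, HahnSeries.C_apply]
  fin_cases l
  · show eT A M s w 0 _ = _
    rw [eT_zero, embF0_algebraMap, h0]
  · show eT A M s w 1 _ = _
    rw [eT_one, embF0_algebraMap, H.s0]
  · show eT A M s w 2 _ = _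
    rw [eT_two, embF0_algebraMap, H.wc, h0]

theorem IsSW.eT_00 (u : F0 A M) : eT A M s w 0 (aK (KK A) M q 0 u) = cK A u := by
  rw [eT_zero, embF0_aK_zero, coe_heckeAlphaBar, coe_heckeAlphaBar, coe_embF0]

theorem IsSW.eT_01 (u : F0 A M) :
    eT A M s w 0 (aK (KK A) M q 1 u) = qExpand Kb q (cK A u) := by
  rw [eT_zero, embF0_aK_one, coe_heckeAlphaBar, coe_heckeBetaBar, coe_embF0]

theorem IsSW.eT_02 (u : F0 A M) :
    eT A M s w 0 (aK (KK A) M q 2 u) = qExpand Kb q (qExpand Kb q (cK A u)) := by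
  rw [eT_zero, embF0_aK_two, coe_heckeBetaBar, coe_heckeBetaBar, coe_embF0]

theorem IsSW.eT_10 (u : F0 A M) : eT A M s w 1 (aK (KK A) M q 0 u) = cK A u := by
  rw [eT_one, embF0_aK_zero, H.s1, coe_heckeAlphaBar, coe_embF0]

theorem IsSW.eT_11 (u : F0 A M) :
    eT A M s w 1 (aK (KK A) M q 1 u) = qExpand Kb q (cK A u) := by
  rw [eT_one, embF0_aK_one, H.s1, coe_heckeBetaBar, coe_embF0]

theorem IsSW.eT_12 (u : F0 A M) : eT A M s w 1 (aK (KK A) M q 2 u) = rot ζ (cK A u) := by
  rw [eT_one, embF0_aK_two, H.s2, coe_embF0]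

theorem IsSW.eT_20 (u : F0 A M) :
    eT A M s w 2 (aK (KK A) M q 0 u) = qExpand Kb q (qExpand Kb q (cK A u)) := by
  rw [eT_two, embF0_aK_zero, H.w0, coe_heckeBetaBar, coe_heckeBetaBar, coe_embF0]

theorem IsSW.eT_21 (u : F0 A M) :
    eT A M s w 2 (aK (KK A) M q 1 u) = qExpand Kb q (cK A u) := by
  rw [eT_two, embF0_aK_one, H.w1, coe_heckeAlphaBar, coe_heckeBetaBar, coe_embF0]

theorem IsSW.eT_22 (u : F0 A M) : eT A M s w 2 (aK (KK A) M q 2 u) = cK A u := by
  rw [eT_two, embF0_aK_two, H.w2, coe_heckeAlphaBar, coe_heckeAlphaBar, coe_embF0]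

end Tab

theorem qExpand_congr' {R : Type*} [CommRing R] {a b : ℕ} [NeZero a] [NeZero b] (h : a = b)
    (x : LaurentSeries R) : qExpand R a x = qExpand R b x := by
  subst h; rfl

section Red

variable (A : ValuationSubring Kb) {M : ℕ} [NeZero M] {q : ℕ} [Fact q.Prime]
  (hA : A.LiesOverPrime q)
  {s : FN (M * q * q) →+* LaurentSeries Kb} {w : FN (M * q * q) →+* FN (M * q * q)}
  {ζ : Kbˣ} (hζ : IsPrimitiveRoot ζ q) (H : IsSW M s w ζ)

local notation "π" => IsLocalRing.residue A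
local notation "k" => IsLocalRing.ResidueField A

include hA hζ in
theorem exists_zeta_unit_A : ∃ z : Aˣ, Units.map (A.subtype : A →* Kb) z = ζ ∧ π z = 1 := by
  have hq : q.Prime := Fact.out
  have hζ' : IsPrimitiveRoot (ζ : Kb) q := IsPrimitiveRoot.coe_units_iff.mpr hζ
  obtain ⟨z, hz⟩ := exists_unit_of_valuation_eq_one (A := A) ζ
    (valuation_eq_one_of_pow_eq_one _ hq.ne_zero hζ'.pow_eq_one)
  refine ⟨z, hz, ?_⟩
  have h1 : π (1 - (z : A)) = 0 := by
    rw [(isResMap_residue A).ker]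
    have h2 : (((1 - (z : A) : A)) : Kb) = 1 - (ζ : Kb) := by
      rw [← hz]; rfl
    rw [h2]
    exact valuation_one_sub_zeta_lt hq hA hζ'
  rw [map_sub, map_one, sub_eq_zero] at h1
  exact h1.symm

include hA hζ H in
/-- **the table of reductions** -/
theorem redsTo_eT (l i : Fin 3) {u : F0 A M} {y : LaurentSeries k}
    (h : RedsTo π (cK A (u : LaurentSeries (KK A))) y) :
    RedsTo π (eT A M s w l (aK (KK A) M q i u)) (qExpand k (q ^ nT l i) y) := by
  have q0 : qExpand k (q ^ 0) y = y :=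
    (qExpand_congr' (pow_zero q) y).trans (qExpand_one_apply y)
  have q1 : qExpand k (q ^ 1) y = qExpand k q y := qExpand_congr' (pow_one q) y
  have q2 : qExpand k (q ^ 2) y = qExpand k q (qExpand k q y) := by
    rw [qExpand_qExpand]; exact qExpand_congr' (sq q) y
  obtain ⟨z, hz, hz1⟩ := exists_zeta_unit_A A hA hζ
  fin_cases l <;> fin_cases i
  · show RedsTo π (eT A M s w 0 (aK (KK A) M q 0 u)) (qExpand k (q ^ 0) y)
    rw [H.eT_00, q0]; exact h
  · show RedsTo π (eT A M s w 0 (aK (KK A) M q 1 u)) (qExpand k (q ^ 1) y)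
    rw [H.eT_01, q1]; exact h.qExpand q
  · show RedsTo π (eT A M s w 0 (aK (KK A) M q 2 u)) (qExpand k (q ^ 2) y)
    rw [H.eT_02, q2]; exact (h.qExpand q).qExpand q
  · show RedsTo π (eT A M s w 1 (aK (KK A) M q 0 u)) (qExpand k (q ^ 0) y)
    rw [H.eT_10, q0]; exact h
  · show RedsTo π (eT A M s w 1 (aK (KK A) M q 1 u)) (qExpand k (q ^ 1) y)
    rw [H.eT_11, q1]; exact h.qExpand q
  · show RedsTo π (eT A M s w 1 (aK (KK A) M q 2 u)) (qExpand k (q ^ 0) y)
    rw [H.eT_12, q0]; exact h.rot ζ z hz hz1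
  · show RedsTo π (eT A M s w 2 (aK (KK A) M q 0 u)) (qExpand k (q ^ 2) y)
    rw [H.eT_20, q2]; exact (h.qExpand q).qExpand q
  · show RedsTo π (eT A M s w 2 (aK (KK A) M q 1 u)) (qExpand k (q ^ 1) y)
    rw [H.eT_21, q1]; exact h.qExpand q
  · show RedsTo π (eT A M s w 2 (aK (KK A) M q 2 u)) (qExpand k (q ^ 0) y)
    rw [H.eT_22, q0]; exact h

include hA hζ H in
/-- on the `l`-th component, `a_{g l}` induces the identity on the residue fields -/
theorem redsTo_eT_gT (l : Fin 3) {u : F0 A M} {y : LaurentSeries k}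
    (h : RedsTo π (cK A (u : LaurentSeries (KK A))) y) :
    RedsTo π (eT A M s w l (aK (KK A) M q (gT l) u)) y := by
  have h1 := redsTo_eT A hA hζ H l (gT l) h
  have h2 : qExpand k (q ^ nT l (gT l)) y = y :=
    (qExpand_congr' (by rw [nT_gT, pow_zero]) y).trans (qExpand_one_apply y)
  rwa [h2] at h1

include hA in
theorem qExpand_pow_jqModC (n : ℕ) : qExpand k (q ^ n) (jqModC k) = jqModC k ^ (q ^ n) := by
  have := Fermat.Agent.RED.GalEq.charP_residueField (Fact.out : q.Prime) hA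
  induction n with
  | zero =>
    have h1 : jqModC k ^ (q ^ 0) = jqModC k := by rw [pow_zero, pow_one]
    rw [h1]
    exact (qExpand_congr' (pow_zero q) _).trans (qExpand_one_apply _)
  | succ n ih =>
    have h1 : qExpand k (q ^ (n + 1)) (jqModC k) = qExpand k (q ^ n) (qExpand k q (jqModC k)) := by
      rw [qExpand_qExpand]; exact qExpand_congr' (pow_succ q n) _
    rw [h1, SS.qExpand_jqModC_char, map_pow, ih, ← pow_mul, ← pow_succ]

include hA hζ H in
/-- the reductions of `j (q^i τ)` -/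
theorem redsTo_eT_jT (l i : Fin 3) :
    RedsTo π (eT A M s w l (jT (KK A) M q i)) (jqModC k ^ (q ^ nT l i)) := by
  have h0 : RedsTo π (cK A ((jK (KK A) M 1 (one_dvd M) : FK (KK A) M) : LaurentSeries (KK A)))
      (jqModC k) := by
    rw [cK_jK]
    have := redsTo_jqNModC A 1
    rwa [jqNModC_one (K := k)] at this
  have := redsTo_eT A hA hζ H l i h0
  rwa [qExpand_pow_jqModC A hA] at this

end Red

end Fermat.Agent.S36
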