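import Fermat.Agent.S36.Mod.Objects
import Fermat.Agent.S36.Abs.Datum
import Fermat.Agent.S36.Mod.SysTab

/-!
# S36 / modular part : `[E-FORM]` the expansions of `α y`, `β y` at the three cusps, comaps

All the formulas follow from `embF0_alpha`, `embF0_beta`, `coe_heckeAlphaBar`, `coe_heckeBetaBar`, the
specifications of `SS.swAlg` (`SS.swAlg_alpha`, `SS.swAlg_beta`), `exists_sigma2` and `exists_W2`
(`.choose_spec`).  For `e3_one_β` : both sides are ring homomorphisms `C.F' → ℚbar((T))`, which agree on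
the constants, on `α' u` (`s (β (α' u)) = s (α (β' u)) = u (T^q) = rot ζ (u (T^q))`) and on `β' u`;
`C.F'` is generated by these (`Disc.lean : jBar_level2`, `F0_mem_of_gen`; `SysFrac.lean : map_mem_of_gen2`).
-/

set_option autoImplicit false
set_option linter.unusedSectionVars false
noncomputable section

open ModularCurve

namespace Fermat.Agent.S36

open Fermat.Agent.S24 Fermat.Agent.RED.Gauss

namespace Ctx

variable (C : Ctx)

/-! ### specifications -/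

theorem fm_valN_apply (N : ℕ) [NeZero N] (x : FN N) : valN N x = (x : LaurentSeries Kb) := rfl

theorem fm_valN_algebraMap (N : ℕ) [NeZero N] (a : Kb) :
    valN N (algebraMap Kb (FN N) a) = HahnSeries.C a := by
  show algebraMap Kb (LaurentSeries Kb) _ = _
  rw [algebraMap_laurentSeries_eq_single, HahnSeries.C_apply]

theorem fm_sig2_const (a : Kb) : C.sig2 (algebraMap Kb (FN (C.M * C.q * C.q)) a) = HahnSeries.C a :=
  (exists_sigma2 C.M C.q C.hq C.hqM C.ζ C.hζ).choose_spec.1 a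

theorem fm_sig2_alpha (y : FN (C.M * C.q)) :
    C.sig2 (heckeAlphaBar Kb (C.M * C.q) C.q y) = (y : LaurentSeries Kb) :=
  (exists_sigma2 C.M C.q C.hq C.hqM C.ζ C.hζ).choose_spec.2.1 y

theorem fm_sig2_beta_beta (u : FN C.M) :
    C.sig2 (heckeBetaBar Kb (C.M * C.q) C.q (heckeBetaBar Kb C.M C.q u))
      = rot C.ζ (u : LaurentSeries Kb) :=
  (exists_sigma2 C.M C.q C.hq C.hqM C.ζ C.hζ).choose_spec.2.2 u

theorem fm_W2_const (a : Kb) : C.W2 (algebraMap Kb _ a) = algebraMap Kb _ a :=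
  (exists_W2 C.M C.q C.hq C.hqM).choose_spec.1 a

theorem fm_W2_alpha (f : FN (C.M * C.q)) :
    C.W2 (heckeAlphaBar Kb (C.M * C.q) C.q f)
      = heckeBetaBar Kb (C.M * C.q) C.q (SS.swAlg C.M C.q C.hqM f) :=
  ((exists_W2 C.M C.q C.hq C.hqM).choose_spec.2.2.2.2.2
    (SS.swAlg C.M C.q C.hqM : FN (C.M * C.q) →+* FN (C.M * C.q))
    (fun a => (SS.swAlg C.M C.q C.hqM).commutes a)
    (SS.swAlg_alpha C.M C.q C.hqM) (SS.swAlg_beta C.M C.q C.hqM)).1 f

theorem fm_W2_beta (f : FN (C.M * C.q)) :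
    C.W2 (heckeBetaBar Kb (C.M * C.q) C.q f)
      = heckeAlphaBar Kb (C.M * C.q) C.q (SS.swAlg C.M C.q C.hqM f) :=
  ((exists_W2 C.M C.q C.hq C.hqM).choose_spec.2.2.2.2.2
    (SS.swAlg C.M C.q C.hqM : FN (C.M * C.q) →+* FN (C.M * C.q))
    (fun a => (SS.swAlg C.M C.q C.hqM).commutes a)
    (SS.swAlg_alpha C.M C.q C.hqM) (SS.swAlg_beta C.M C.q C.hqM)).2 f

theorem fm_e1_apply (u : C.FM) : C.e1 u = ((embF0 C.A C.M u : FN C.M) : LaurentSeries Kb) := rfl

theorem fm_e2_zero_apply (y : C.F') :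
    C.e2 0 y = ((embF0 C.A (C.M * C.q) y : FN (C.M * C.q)) : LaurentSeries Kb) := rfl

theorem fm_e2_one_apply (y : C.F') :
    C.e2 1 y = ((SS.swAlg C.M C.q C.hqM (embF0 C.A (C.M * C.q) y) : FN (C.M * C.q)) :
      LaurentSeries Kb) := rfl

theorem fm_e3_zero_apply (x : C.F) :
    C.e3 0 x = ((embF0 C.A (C.M * C.q * C.q) x : FN (C.M * C.q * C.q)) : LaurentSeries Kb) := rfl

theorem fm_e3_one_apply (x : C.F) : C.e3 1 x = C.sig2 (embF0 C.A (C.M * C.q * C.q) x) := rfl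

theorem fm_e3_two_apply (x : C.F) :
    C.e3 2 x = ((C.W2 (embF0 C.A (C.M * C.q * C.q) x) : FN (C.M * C.q * C.q)) :
      LaurentSeries Kb) := rfl

/-! ### constants -/

theorem e1_const (c : C.K) : C.e1 (algebraMap C.K C.FM c) = HahnSeries.C (algebraMap C.K Kb c) := by
  rw [fm_e1_apply, embF0_algebraMap]
  exact fm_valN_algebraMap C.M _

theorem e2_const (j : Fin 2) (c : C.K) :
    C.e2 j (algebraMap C.K C.F' c) = HahnSeries.C (algebraMap C.K Kb c) := by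
  fin_cases j
  · show C.e2 0 _ = _
    rw [fm_e2_zero_apply, embF0_algebraMap]
    exact fm_valN_algebraMap (C.M * C.q) _
  · show C.e2 1 _ = _
    rw [fm_e2_one_apply, embF0_algebraMap, AlgHom.commutes]
    exact fm_valN_algebraMap (C.M * C.q) _

theorem e3_const (i : Fin 3) (c : C.K) :
    C.e3 i (algebraMap C.K C.F c) = HahnSeries.C (algebraMap C.K Kb c) := by
  fin_cases i
  · show C.e3 0 _ = _
    rw [fm_e3_zero_apply, embF0_algebraMap]
    exact fm_valN_algebraMap (C.M * C.q * C.q) _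
  · show C.e3 1 _ = _
    rw [fm_e3_one_apply, embF0_algebraMap, fm_sig2_const]
  · show C.e3 2 _ = _
    rw [fm_e3_two_apply, embF0_algebraMap, fm_W2_const]
    exact fm_valN_algebraMap (C.M * C.q * C.q) _

/-! ### level `M → M q` -/

theorem e2_zero_α' (u : C.FM) : C.e2 0 (C.α' u) = C.e1 u := by
  rw [fm_e2_zero_apply, embF0_alpha, coe_heckeAlphaBar, fm_e1_apply]

theorem e2_zero_β' (u : C.FM) : C.e2 0 (C.β' u) = qExpand Kb C.q (C.e1 u) := by
  rw [fm_e2_zero_apply, embF0_beta, coe_heckeBetaBar, fm_e1_apply]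

theorem e2_one_α' (u : C.FM) : C.e2 1 (C.α' u) = qExpand Kb C.q (C.e1 u) := by
  rw [fm_e2_one_apply, embF0_alpha, SS.swAlg_alpha, coe_heckeBetaBar, fm_e1_apply]

theorem e2_one_β' (u : C.FM) : C.e2 1 (C.β' u) = C.e1 u := by
  rw [fm_e2_one_apply, embF0_beta, SS.swAlg_beta, coe_heckeAlphaBar, fm_e1_apply]

/-! ### level `M q → M q²` -/

theorem e3_zero_α (y : C.F') : C.e3 0 (C.α y) = C.e2 0 y := by
  rw [fm_e3_zero_apply, embF0_alpha, coe_heckeAlphaBar, fm_e2_zero_apply]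

theorem e3_zero_β (y : C.F') : C.e3 0 (C.β y) = qExpand Kb C.q (C.e2 0 y) := by
  rw [fm_e3_zero_apply, embF0_beta, coe_heckeBetaBar, fm_e2_zero_apply]

theorem e3_one_α (y : C.F') : C.e3 1 (C.α y) = C.e2 0 y := by
  rw [fm_e3_one_apply, embF0_alpha, fm_sig2_alpha, fm_e2_zero_apply]

theorem e3_two_α (y : C.F') : C.e3 2 (C.α y) = qExpand Kb C.q (C.e2 1 y) := by
  rw [fm_e3_two_apply, embF0_alpha, fm_W2_alpha, coe_heckeBetaBar, fm_e2_one_apply]

theorem e3_two_β (y : C.F') : C.e3 2 (C.β y) = C.e2 1 y := by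
  rw [fm_e3_two_apply, embF0_beta, fm_W2_beta, coe_heckeAlphaBar, fm_e2_one_apply]

/-- `u (q τ)` -/
theorem β_α' (u : C.FM) : C.β (C.α' u) = C.α (C.β' u) := by
  apply Subtype.ext
  rw [coe_heckeBetaBar, coe_heckeAlphaBar, coe_heckeAlphaBar, coe_heckeBetaBar]

theorem j_zero : C.j 0 = C.α C.j' := rfl

theorem j_one : C.j 1 = C.β C.j' := (C.β_α' C.jM).symm

theorem fm_rot_qExpand_ζ (x : LaurentSeries Kb) : rot C.ζ (qExpand Kb C.q x) = qExpand Kb C.q x := by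
  rw [rot_eq_rotR_sys]
  exact RED.ES.rotR_qExpand C.q C.ζ C.hζ.pow_eq_one x

theorem fm_sig2_beta (f : FN (C.M * C.q)) :
    C.sig2 (heckeBetaBar Kb (C.M * C.q) C.q f)
      = rot C.ζ ((SS.swAlg C.M C.q C.hqM f : FN (C.M * C.q)) : LaurentSeries Kb) := by
  have : C.sig2.comp (heckeBetaBar Kb (C.M * C.q) C.q : FN (C.M * C.q) →+* FN (C.M * C.q * C.q))
      = ((rotHom C.ζ).comp (valN (C.M * C.q))).comp
          (SS.swAlg C.M C.q C.hqM : FN (C.M * C.q) →+* FN (C.M * C.q)) := by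
    apply ringHom_ext_bar
    · intro a
      simp only [RingHom.comp_apply, RingHom.coe_coe, AlgHom.commutes]
      rw [fm_sig2_const, fm_valN_algebraMap, rotHom_apply, S24.rot_C]
    · intro D _ hD
      simp only [RingHom.comp_apply, RingHom.coe_coe, rotHom_apply, fm_valN_apply]
      obtain ⟨d, _, hd, h | h⟩ := jBar_level2 C.M C.q C.hq D hD
      · rw [h, SS.swAlg_alpha, coe_heckeBetaBar, fm_rot_qExpand_ζ]
        have h1 : heckeBetaBar Kb (C.M * C.q) C.q (heckeAlphaBar Kb C.M C.q (jBar C.M d hd))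
            = heckeAlphaBar Kb (C.M * C.q) C.q (heckeBetaBar Kb C.M C.q (jBar C.M d hd)) := by
          apply Subtype.ext
          rw [coe_heckeBetaBar, coe_heckeAlphaBar, coe_heckeAlphaBar, coe_heckeBetaBar]
        rw [h1, fm_sig2_alpha, coe_heckeBetaBar]
      · rw [h, SS.swAlg_beta, fm_sig2_beta_beta, coe_heckeAlphaBar]
  exact congrArg (fun φ => φ f) this

theorem e3_one_β (y : C.F') : C.e3 1 (C.β y) = rot C.ζ (C.e2 1 y) := by
  rw [fm_e3_one_apply, embF0_beta, fm_sig2_beta, fm_e2_one_apply]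

/-! ### "reduces to" -/

theorem fm_exists_zeta_unit : ∃ z : C.Aˣ, Units.map (C.A.subtype : C.A →* Kb) z = C.ζ ∧ C.π z = 1 :=
  exists_zeta_unit_A C.A C.hA C.hζ

theorem fm_redsTo_rot {x : LaurentSeries Kb} {y : LaurentSeries C.k} (h : RedsTo C.π x y) :
    RedsTo C.π (rot C.ζ x) y := by
  obtain ⟨z, hz, hz1⟩ := C.fm_exists_zeta_unit
  exact h.rot C.ζ z hz hz1

theorem fm_redsTo_red1 (y : C.O1) : RedsTo C.π (C.e1 y) (C.red1 y) := ⟨y.2, rfl⟩
theorem fm_redsTo_red2 (j : Fin 2) (y : C.O2 j) : RedsTo C.π (C.e2 j y) (C.red2 j y) := ⟨y.2, rfl⟩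
theorem fm_redsTo_red3 (i : Fin 3) (y : C.O3 i) : RedsTo C.π (C.e3 i y) (C.red3 i y) := ⟨y.2, rfl⟩

theorem fm_red1_eq {y : C.FM} {z : LaurentSeries C.k} (h : RedsTo C.π (C.e1 y) z) (hy : y ∈ C.O1) :
    C.red1 ⟨y, hy⟩ = z := h.2
theorem fm_red2_eq {j : Fin 2} {y : C.F'} {z : LaurentSeries C.k} (h : RedsTo C.π (C.e2 j y) z)
    (hy : y ∈ C.O2 j) : C.red2 j ⟨y, hy⟩ = z := h.2
theorem fm_red3_eq {i : Fin 3} {y : C.F} {z : LaurentSeries C.k} (h : RedsTo C.π (C.e3 i y) z)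
    (hy : y ∈ C.O3 i) : C.red3 i ⟨y, hy⟩ = z := h.2

end Ctx

/-- `[GV-COMAP]` in terms of `RedsTo` -/
theorem fm_gv_comap_of_redsTo {L : Type*} [Field L] {A : ValuationSubring L} {k : Type*} [Field k]
    {π : A →+* k} (hπ : IsResMap π) {F : Type*} [Field F] {e : F →+* LaurentSeries L} {lam : L}
    (h : IsDiscEmb A lam e) {lam' : L} {F' : Type*} [Field F'] {e' : F' →+* LaurentSeries L}
    (h' : IsDiscEmb A lam' e') (φ : F' →+* F) (Φ : LaurentSeries k → LaurentSeries k) (h0 : Φ 0 = 0)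
    (H : ∀ y z, RedsTo π (e' y) z → RedsTo π (e (φ y)) (Φ z)) :
    (gvO π hπ h).comap φ = gvO π hπ h' :=
  gv_comap_eq hπ h hπ h' φ (fun y hy => (H y _ ⟨hy, rfl⟩).1)
    (fun y hy hz => by
      have := (H y _ ⟨hy, rfl⟩).2
      rw [this, hz, h0])

namespace Ctx

variable (C : Ctx)

/-! ### comaps -/

theorem comap_α (i : Fin 3) : (C.O3 i).comap (C.α : C.F' →+* C.F) = C.O2 (idxα i) := by
  fin_cases i
  · exact fm_gv_comap_of_redsTo C.hπ (C.disc3 0) (C.disc2 0) _ id rfl fun y z h => by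
      rw [RingHom.coe_coe, e3_zero_α]; exact h
  · exact fm_gv_comap_of_redsTo C.hπ (C.disc3 1) (C.disc2 0) _ id rfl fun y z h => by
      rw [RingHom.coe_coe, e3_one_α]; exact h
  · exact fm_gv_comap_of_redsTo C.hπ (C.disc3 2) (C.disc2 1) _ (qExpand C.k C.q) (map_zero _)
      fun y z h => by
        rw [RingHom.coe_coe, e3_two_α]; exact h.qExpand C.q

theorem comap_β (i : Fin 3) : (C.O3 i).comap (C.β : C.F' →+* C.F) = C.O2 (idxβ i) := by
  fin_cases i
  · exact fm_gv_comap_of_redsTo C.hπ (C.disc3 0) (C.disc2 0) _ (qExpand C.k C.q) (map_zero _)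
      fun y z h => by
        rw [RingHom.coe_coe, e3_zero_β]; exact h.qExpand C.q
  · exact fm_gv_comap_of_redsTo C.hπ (C.disc3 1) (C.disc2 1) _ id rfl fun y z h => by
      rw [RingHom.coe_coe, e3_one_β]; exact C.fm_redsTo_rot h
  · exact fm_gv_comap_of_redsTo C.hπ (C.disc3 2) (C.disc2 1) _ id rfl fun y z h => by
      rw [RingHom.coe_coe, e3_two_β]; exact h

theorem comap_α' (j : Fin 2) : (C.O2 j).comap (C.α' : C.FM →+* C.F') = C.O1 := by
  fin_cases j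
  · exact fm_gv_comap_of_redsTo C.hπ (C.disc2 0) C.disc1 _ id rfl fun y z h => by
      rw [RingHom.coe_coe, e2_zero_α']; exact h
  · exact fm_gv_comap_of_redsTo C.hπ (C.disc2 1) C.disc1 _ (qExpand C.k C.q) (map_zero _)
      fun y z h => by
        rw [RingHom.coe_coe, e2_one_α']; exact h.qExpand C.q

theorem comap_β' (j : Fin 2) : (C.O2 j).comap (C.β' : C.FM →+* C.F') = C.O1 := by
  fin_cases j
  · exact fm_gv_comap_of_redsTo C.hπ (C.disc2 0) C.disc1 _ (qExpand C.k C.q) (map_zero _)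
      fun y z h => by
        rw [RingHom.coe_coe, e2_zero_β']; exact h.qExpand C.q
  · exact fm_gv_comap_of_redsTo C.hπ (C.disc2 1) C.disc1 _ id rfl fun y z h => by
      rw [RingHom.coe_coe, e2_one_β']; exact h

/-! ### reductions -/

theorem red3_zero_α (y : C.O2 0) (h : C.α (y : C.F') ∈ C.O3 0) :
    C.red3 0 ⟨C.α y, h⟩ = C.red2 0 y :=
  C.fm_red3_eq (by rw [e3_zero_α]; exact C.fm_redsTo_red2 0 y) h

theorem red3_zero_β (y : C.O2 0) (h : C.β (y : C.F') ∈ C.O3 0) :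
    C.red3 0 ⟨C.β y, h⟩ = qExpand C.k C.q (C.red2 0 y) :=
  C.fm_red3_eq (by rw [e3_zero_β]; exact (C.fm_redsTo_red2 0 y).qExpand C.q) h

theorem red3_one_α (y : C.O2 0) (h : C.α (y : C.F') ∈ C.O3 1) :
    C.red3 1 ⟨C.α y, h⟩ = C.red2 0 y :=
  C.fm_red3_eq (by rw [e3_one_α]; exact C.fm_redsTo_red2 0 y) h

theorem red3_one_β (y : C.O2 1) (h : C.β (y : C.F') ∈ C.O3 1) :
    C.red3 1 ⟨C.β y, h⟩ = C.red2 1 y :=
  C.fm_red3_eq (by rw [e3_one_β]; exact C.fm_redsTo_rot (C.fm_redsTo_red2 1 y)) h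

theorem red3_two_α (y : C.O2 1) (h : C.α (y : C.F') ∈ C.O3 2) :
    C.red3 2 ⟨C.α y, h⟩ = qExpand C.k C.q (C.red2 1 y) :=
  C.fm_red3_eq (by rw [e3_two_α]; exact (C.fm_redsTo_red2 1 y).qExpand C.q) h

theorem red3_two_β (y : C.O2 1) (h : C.β (y : C.F') ∈ C.O3 2) :
    C.red3 2 ⟨C.β y, h⟩ = C.red2 1 y :=
  C.fm_red3_eq (by rw [e3_two_β]; exact C.fm_redsTo_red2 1 y) h

end Ctx

end Fermat.Agent.S36
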