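import Fermat.Agent.S36.Mod.SysTop

/-!
# S36 / modular part : consequences of `[SYS]` exposed in the language of `Ctx`
-/

set_option autoImplicit false
set_option linter.unusedSectionVars false
noncomputable section

open ModularCurve Polynomial

namespace Fermat.Agent.S36

open Fermat.Agent.S24 Fermat.Agent.RED.Gauss Fermat.Agent.GAL.AD

namespace Ctx

variable (C : Ctx)

theorem fj_eq_fT (l : Fin 3) : C.fj l = fT C.M C.q l := by
  funext i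
  fin_cases l <;> fin_cases i <;> simp [fj, fT, nT, psi]

/-- an element of `O1` reduces to its reduction -/
theorem redsTo_of_mem_O1 {u : C.FM} (hu : u ∈ C.O1) :
    RedsTo C.π (cK C.A (u : LaurentSeries C.K)) (C.red1 ⟨u, hu⟩) := ⟨hu, rfl⟩

/-- **the table of reductions** -/
theorem redsTo_e3 (l i : Fin 3) {u : C.FM} {y : LaurentSeries C.k}
    (h : RedsTo C.π (C.e1 u) y) :
    RedsTo C.π (C.e3 l (C.a i u)) (qExpand C.k (C.q ^ nT l i) y) :=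
  redsTo_eT C.A C.hA C.hζ C.isSW l i h

theorem redsTo_e3_gT (l : Fin 3) {u : C.FM} {y : LaurentSeries C.k}
    (h : RedsTo C.π (C.e1 u) y) : RedsTo C.π (C.e3 l (C.a (gT l) u)) y :=
  redsTo_eT_gT C.A C.hA C.hζ C.isSW l h

theorem redsTo_e3_j (l i : Fin 3) :
    RedsTo C.π (C.e3 l (C.j i)) (jqModC C.k ^ (C.q ^ nT l i)) := by
  rw [j_eq_jT]
  exact redsTo_eT_jT C.A C.hA C.hζ C.isSW l i

theorem a_mem_O3 (l i : Fin 3) {u : C.FM} (hu : u ∈ C.O1) : C.a i u ∈ C.O3 l :=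
  (C.redsTo_e3 l i (C.redsTo_of_mem_O1 hu)).1

theorem red3_a (l i : Fin 3) {u : C.FM} (hu : u ∈ C.O1) :
    C.red3 l ⟨C.a i u, C.a_mem_O3 l i hu⟩ = qExpand C.k (C.q ^ nT l i) (C.red1 ⟨u, hu⟩) :=
  (C.redsTo_e3 l i (C.redsTo_of_mem_O1 hu)).2

theorem red3_a_gT (l : Fin 3) {u : C.FM} (hu : u ∈ C.O1) :
    C.red3 l ⟨C.a (gT l) u, C.a_mem_O3 l (gT l) hu⟩ = C.red1 ⟨u, hu⟩ :=
  (C.redsTo_e3_gT l (C.redsTo_of_mem_O1 hu)).2

/-- the lifts `ω` of `GaussSys.res` for the chart function `j l` are in the range of `a (gT i)`,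
and they reduce into `Fb_M`. -/
theorem res_range' (l i : Fin 3) :
    ∃ (u : Fin (C.fj l i) → C.FM) (b : Fin (C.fj l i) → modularFunctionFieldFullC C.k C.M),
      (∀ κ, RedsTo C.π (C.e1 (u κ)) (b κ : LaurentSeries C.k)) ∧
      (∀ κ, RedsTo C.π (C.e3 i (C.a (gT i) (u κ))) (b κ : LaurentSeries C.k)) ∧
      (∀ κ, C.a (gT i) (u κ) ∈ C.O3 i) ∧
      ∀ c : Fin (C.fj l i) → C.R[X],
        (C.O3 i).valuation (∑ κ, aeval (C.j l) (c κ) * C.a (gT i) (u κ)) < 1 →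
        ∀ κ, Polynomial.C ((C.q : ℕ) : C.R) ∣ c κ := by
  rw [fj_eq_fT, j_eq_jT]
  exact exists_res_OT C.A C.hA C.hqM C.hζ C.isSW C.disc3 i l

/-- (helper47, DT2) -/
theorem res_range (i : Fin 3) : ∃ u : Fin (C.fj 0 i) → C.FM, (∀ κ, C.a (gT i) (u κ) ∈ C.O3 i) ∧
    ∀ c : Fin (C.fj 0 i) → C.R[X],
      (C.O3 i).valuation (∑ κ, aeval (C.j 0) (c κ) * C.a (gT i) (u κ)) < 1 →
      ∀ κ, Polynomial.C ((C.q : ℕ) : C.R) ∣ c κ := by
  obtain ⟨u, -, -, -, h3, h4⟩ := C.res_range' 0 i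
  exact ⟨u, h3, h4⟩

/-- (helper47, DT2) on the middle component `u(q² τ) ≡ u(τ)`. -/
theorem a2_congr {u : C.FM} (hu : u ∈ C.O1) : (C.O3 1).valuation (C.a 2 u - C.a 0 u) < 1 := by
  have h := (C.redsTo_e3 1 2 (C.redsTo_of_mem_O1 hu)).sub (C.redsTo_e3 1 0 (C.redsTo_of_mem_O1 hu))
  rw [← map_sub] at h
  have e : qExpand C.k (C.q ^ nT 1 2) (C.red1 ⟨u, hu⟩) - qExpand C.k (C.q ^ nT 1 0) (C.red1 ⟨u, hu⟩)
      = 0 := sub_self _
  rw [e] at h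
  exact h.valuation_lt_one C.hπ (C.disc3 1)

/-- the comaps of the three valuation rings under the three degeneracy maps -/
theorem comap_a (l i : Fin 3) : (C.O3 l).comap (C.a i : C.FM →+* C.F) = C.O1 := by
  refine gv_comap_eq C.hπ (C.disc3 l) C.hπ C.disc1 (C.a i : C.FM →+* C.F)
    (fun y hy => (C.redsTo_e3 l i (⟨hy, rfl⟩ : RedsTo C.π (C.e1 y) _)).1) ?_
  intro y hy h0
  have h1 := C.redsTo_e3 l i (⟨hy, h0⟩ : RedsTo C.π (C.e1 y) 0)
  rw [map_zero] at h1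
  exact h1.2

end Ctx

end Fermat.Agent.S36
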