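import Fermat.Agent.S36.K0
import Fermat.Agent.S24.Defs
import Fermat.Prelude.Def_ModularCurve_HeckeOperator
import Fermat.Agent.GAL.DescentMain
import Fermat.Prelude.Thm_ModularCurve_coeffMap_qExpand

/-!
# S36 / modular part : the function field `F0 A N` of `X₀(N)` over `KK A = ℚbar ^ I_A`

Definitions only (see board, topic S36, #1208, #1250).

**WARNING (instance search).**  With the subtype `↥(K0 A)` as base field, instance problems like
`Algebra ↥(K0 A) ↥(laurentBaseChange ↥(K0 A) _)`, `SMul ..`, `IsScalarTower ..` TIME OUT.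
So we use the type synonym `KK A` (a `def`, opaque for instance search) with its own instances,
and `RK A : ValuationSubring (KK A)` (`= R0 A`).  Everything of `S36/K0.lean` transfers by `exact`
(definitional unfolding), see the lemmas below.
-/

set_option autoImplicit false
set_option linter.unusedSectionVars false
noncomputable section

open ModularCurve

namespace Fermat.Agent.S36

open Fermat.Agent.S24

variable (A : ValuationSubring Kb)

/-- `K0 A = ℚbar ^ I_A` as an opaque field. -/
def KK : Type := ↥(K0 A)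

instance : Field (KK A) := inferInstanceAs (Field ↥(K0 A))
instance : CharZero (KK A) := inferInstanceAs (CharZero ↥(K0 A))
instance : Algebra (KK A) Kb := inferInstanceAs (Algebra ↥(K0 A) Kb)

/-- `R0 A = A ∩ K0 A`. -/
def RK : ValuationSubring (KK A) := R0 A

variable {A}

theorem algebraMap_KK_mem (x : KK A) : algebraMap (KK A) Kb x ∈ K0 A :=
  (show ↥(K0 A) from x).2

theorem exists_KK_eq {x : Kb} (hx : x ∈ K0 A) : ∃ y : KK A, algebraMap (KK A) Kb y = x :=
  ⟨(⟨x, hx⟩ : ↥(K0 A)), rfl⟩

theorem mem_RK {x : KK A} : x ∈ RK A ↔ A.valuation (algebraMap (KK A) Kb x) ≤ 1 :=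
  mem_R0 (A := A) (x := x)

theorem isDiscreteValuationRing_RK {q : ℕ} (hq : q.Prime) (hA : A.LiesOverPrime q) :
    IsDiscreteValuationRing (RK A) := isDiscreteValuationRing_R0 hq hA

theorem irreducible_natCast_RK {q : ℕ} (hq : q.Prime) (hA : A.LiesOverPrime q) :
    Irreducible ((q : ℕ) : RK A) := irreducible_natCast hq hA

variable (A) (N : ℕ) [NeZero N]

/-- the function field of `X₀(N)` over `KK A`, inside `KK((T))`. -/
abbrev F0 : Type := ↥(laurentBaseChange (KK A) (modularFunctionFieldFull N))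

instance instAlgebraRKF0 : Algebra (RK A) (F0 A N) :=
  ((algebraMap (KK A) (F0 A N)).comp (RK A).subtype).toAlgebra

instance instIsScalarTowerRKF0 : IsScalarTower (RK A) (KK A) (F0 A N) :=
  IsScalarTower.of_algebraMap_eq' rfl

theorem algebraMap_RK_F0 (r : RK A) :
    algebraMap (RK A) (F0 A N) r = algebraMap (KK A) (F0 A N) (r : KK A) := rfl

/-- coefficientwise base change `KK((T)) → ℚbar((T))`. -/
def cK : LaurentSeries (KK A) →+* LaurentSeries Kb := coeffMap (algebraMap (KK A) Kb)

theorem cK_mem {x : LaurentSeries (KK A)}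
    (hx : x ∈ laurentBaseChange (KK A) (modularFunctionFieldFull N)) :
    cK A x ∈ modularFunctionFieldBar N :=
  (GAL.Descent.coeffMap_mem_laurentBaseChange_iff (algebraMap (KK A) Kb) _ x).mpr hx

/-- the base change `F0 A N → FN N`. -/
def embF0 : F0 A N →+* FN N where
  toFun x := ⟨cK A (x : LaurentSeries (KK A)), cK_mem A N x.2⟩
  map_one' := Subtype.ext (map_one (cK A))
  map_mul' _ _ := Subtype.ext (map_mul (cK A) _ _)
  map_zero' := Subtype.ext (map_zero (cK A))
  map_add' _ _ := Subtype.ext (map_add (cK A) _ _)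

theorem coe_embF0 (x : F0 A N) :
    ((embF0 A N x : FN N) : LaurentSeries Kb) = cK A (x : LaurentSeries (KK A)) := rfl

theorem embF0_algebraMap (c : KK A) :
    embF0 A N (algebraMap (KK A) (F0 A N) c) = algebraMap Kb (FN N) (algebraMap (KK A) Kb c) := by
  apply Subtype.ext
  show cK A (algebraMap (KK A) (LaurentSeries (KK A)) c) =
    algebraMap Kb (LaurentSeries Kb) (algebraMap (KK A) Kb c)
  rw [algebraMap_laurentSeries_eq_single, algebraMap_laurentSeries_eq_single, cK, coeffMap_single]

/-- **[F0-RAT]** an element of `FN N` whose expansion has coefficients in `K0` comes from `F0`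
(`RED/Gauss/Descent.mem_adjoin_of_coeffMap_mem`). -/
theorem exists_embF0_eq (x : FN N) (hx : ∀ n, (x : LaurentSeries Kb).coeff n ∈ K0 A) :
    ∃ y : F0 A N, embF0 A N y = x := by
  obtain ⟨y, hy⟩ := GAL.Descent.exists_coeffMap_eq (algebraMap (KK A) Kb) (x : LaurentSeries Kb)
    (fun n => exists_KK_eq (hx n))
  refine ⟨⟨y, ?_⟩, Subtype.ext hy⟩
  rw [← GAL.Descent.coeffMap_mem_laurentBaseChange_iff (algebraMap (KK A) Kb), hy]
  exact x.2

variable (ℓ : ℕ) [NeZero ℓ]

theorem embF0_alpha (x : F0 A N) :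
    embF0 A (N * ℓ) (heckeAlphaBar (KK A) N ℓ x) = heckeAlphaBar Kb N ℓ (embF0 A N x) := by
  apply Subtype.ext
  rw [coe_embF0, coe_heckeAlphaBar, coe_heckeAlphaBar, coe_embF0]

theorem embF0_beta (x : F0 A N) :
    embF0 A (N * ℓ) (heckeBetaBar (KK A) N ℓ x) = heckeBetaBar Kb N ℓ (embF0 A N x) := by
  apply Subtype.ext
  rw [coe_embF0, coe_heckeBetaBar, coe_heckeBetaBar, coe_embF0, cK, coeffMap_qExpand]

end Fermat.Agent.S36
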