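import Fermat.Agent.S36.Mod.SysTop
import Fermat.Agent.S36.Mod.SysExp
import Fermat.Agent.S36.Mod.Formulas
import Fermat.Agent.S36.Abs.SepCusp
import Fermat.Agent.S36.Abs.ValCrit
import Fermat.Agent.S36.Theta.IntDesc
import Fermat.Agent.SS.Mod.CuspOrdB

/-!
# S36 / modular part : `[JTRIP]` the structure `JTriple` for `j (τ), j (q τ), j (q² τ)`

**Integrality** (`int*`, `inf*`).  Tool: `GaussSys.mem_intCl_of_isIntegral` (`Abs/ValCrit.lean`) for the system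
`C.sys_j l` (resp. `(C.sys_j l).inv C.irr`): an element `y` which lies in the three `C.O3 i` and is integral over
`K[j l]` (resp. `K[(j l)⁻¹]`) lies in `intCl R (j l)` (resp. `intCl R (j l)⁻¹`).
* integrality over `K[..]`: `SS.CuspB.exists_relation M q` (the modular equation in `FN (M q)`:
  `jF' ^ n + ∑ P_i (jF) jF' ^ i = 0`, `deg P_i ≤ q (n - i)`) + `SS.CuspB.integral_of_relation` give
  `j(qτ)` integral over `ℚbar[j]` and `j(qτ)/j^q` integral over `ℚbar[1/j]` at level `M q`; apply `SS.swAlg` for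
  the symmetric statements; transport by `α`, `β` to the level `M q²`; descend from `ℚbar` to `K` by
  `S36/F0/IntDesc.lean : isIntegral_adjoin_of_map` (helper74) or `S36/Theta/IntDesc.lean` (helper31).
* membership in `C.O3 i`: the expansions `C.e3 i (C.j l)` are `jq (T^(q^a))` or `jq (ζ T)`, with coefficients in `ℤ[ζ]`
  and leading coefficient a unit (`mem_gvO_of_iota`, `gv_inv_mem_bigO`).

**Reductions** (`red*`): `gv_valuation_lt_one_iff`, `gvRed_of_iota`; `jbar (T^q) = jbar (T)^q` (coefficients in `𝔽_q`);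
see also the reduction table of `S36/Mod/SysRed.lean` (helper90).
-/

set_option autoImplicit false
noncomputable section

open ModularCurve Polynomial

namespace Fermat.Agent.S36

open Fermat.Agent.S24 Fermat.Agent.RED.Gauss

theorem jt_isIntegral_adjoin_of_isIntegralElem {K F : Type*} [Field K] [Field F] [Algebra K F]
    {x y : F} (h : (aeval x : K[X] →ₐ[K] F).toRingHom.IsIntegralElem y) :
    IsIntegral (Algebra.adjoin K {x}) y := by
  obtain ⟨p, hp, h0⟩ := h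
  let ψ : K[X] →+* Algebra.adjoin K {x} :=
    (aeval (⟨x, Algebra.subset_adjoin rfl⟩ : Algebra.adjoin K {x}) :
      K[X] →ₐ[K] Algebra.adjoin K {x}).toRingHom
  refine ⟨p.map ψ, hp.map ψ, ?_⟩
  rw [eval₂_map]
  have e : (algebraMap (Algebra.adjoin K {x}) F).comp ψ = (aeval x : K[X] →ₐ[K] F).toRingHom := by
    have : ((Algebra.adjoin K {x}).val.comp
        (aeval (⟨x, Algebra.subset_adjoin rfl⟩ : Algebra.adjoin K {x}))) = aeval x := by
      apply Polynomial.algHom_ext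
      simp
    exact congrArg AlgHom.toRingHom this
  rw [e]
  exact h0

namespace Ctx

variable (C : Ctx)

/-! ### the images of the `j l` in `FN (M q²)` -/

theorem jt_embF0_jM : embF0 C.A C.M C.jM = jF C.M := embF0_jF0 C.A C.M 1 (one_dvd _)

theorem jt_embF0_j_zero : embF0 C.A (C.M * C.q * C.q) (C.j 0)
    = heckeAlphaBar Kb (C.M * C.q) C.q (jF (C.M * C.q)) := by
  show embF0 C.A (C.M * C.q * C.q) (C.α (C.α' C.jM)) = _
  rw [embF0_alpha, embF0_alpha, jt_embF0_jM, SS.alpha_jF]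

theorem jt_embF0_j_one : embF0 C.A (C.M * C.q * C.q) (C.j 1)
    = heckeAlphaBar Kb (C.M * C.q) C.q (SS.jF' C.M C.q) := by
  show embF0 C.A (C.M * C.q * C.q) (C.α (C.β' C.jM)) = _
  rw [embF0_alpha, embF0_beta, jt_embF0_jM]
  rfl

theorem jt_embF0_j_one' : embF0 C.A (C.M * C.q * C.q) (C.j 1)
    = heckeBetaBar Kb (C.M * C.q) C.q (jF (C.M * C.q)) := by
  rw [j_one]
  show embF0 C.A (C.M * C.q * C.q) (C.β (C.α' C.jM)) = _
  rw [embF0_beta, embF0_alpha, jt_embF0_jM, SS.alpha_jF]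

theorem jt_embF0_j_two : embF0 C.A (C.M * C.q * C.q) (C.j 2)
    = heckeBetaBar Kb (C.M * C.q) C.q (SS.jF' C.M C.q) := by
  show embF0 C.A (C.M * C.q * C.q) (C.β (C.β' C.jM)) = _
  rw [embF0_beta, embF0_beta, jt_embF0_jM]
  rfl

/-! ### the four integrality statements at level `M q` -/

theorem jt_jF_ne_zero : jF (C.M * C.q) ≠ 0 := by
  intro h0
  exact (Fermat.Agent.RED.RB.isSepParam_jF (C.M * C.q)).transcendental (h0 ▸ isAlgebraic_zero)

theorem jt_jF'_ne_zero : SS.jF' C.M C.q ≠ 0 := by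
  intro h0
  apply C.jt_jF_ne_zero
  rw [← SS.swAlg_jF' C.hqM, h0, map_zero]

theorem jt_level2_int :
    (aeval (jF (C.M * C.q)) : Kb[X] →ₐ[Kb] FN (C.M * C.q)).toRingHom.IsIntegralElem (SS.jF' C.M C.q) ∧
    (aeval (jF (C.M * C.q))⁻¹ : Kb[X] →ₐ[Kb] FN (C.M * C.q)).toRingHom.IsIntegralElem
      (SS.jF' C.M C.q * (jF (C.M * C.q))⁻¹ ^ C.q) ∧
    (aeval (SS.jF' C.M C.q) : Kb[X] →ₐ[Kb] FN (C.M * C.q)).toRingHom.IsIntegralElem (jF (C.M * C.q)) ∧
    (aeval (SS.jF' C.M C.q)⁻¹ : Kb[X] →ₐ[Kb] FN (C.M * C.q)).toRingHom.IsIntegralElem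
      (jF (C.M * C.q) * (SS.jF' C.M C.q)⁻¹ ^ C.q) := by
  obtain ⟨n, P, hdeg, hrel⟩ := SS.CuspB.exists_relation C.M C.q
  obtain ⟨I1, I2⟩ := SS.CuspB.integral_of_relation C.jt_jF_ne_zero C.q n P hdeg hrel
  have J1 := SS.isIntegralElem_map (SS.swAlg C.M C.q C.hqM) I1
  have J2 := SS.isIntegralElem_map (SS.swAlg C.M C.q C.hqM) I2
  rw [SS.swAlg_jF, SS.swAlg_jF'] at J1
  rw [map_inv₀, map_mul, map_pow, map_inv₀, SS.swAlg_jF, SS.swAlg_jF'] at J2
  exact ⟨I1, I2, J1, J2⟩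

/-! ### the criterion -/

theorem jt_mem_intCl_j (l : Fin 3) {y : C.F} (hy : ∀ i, y ∈ C.O3 i)
    (h : (aeval (embF0 C.A (C.M * C.q * C.q) (C.j l)) :
      Kb[X] →ₐ[Kb] FN (C.M * C.q * C.q)).toRingHom.IsIntegralElem
        (embF0 C.A (C.M * C.q * C.q) y)) : y ∈ intCl C.R (C.j l) :=
  (C.sys_j l).mem_intCl_of_isIntegral C.irr hy
    (isIntegral_of_embF0 C.A _ (C.j l) y (jt_isIntegral_adjoin_of_isIntegralElem h))

theorem jt_mem_intCl_j_inv (l : Fin 3) {y : C.F} (hy : ∀ i, y ∈ C.O3 i)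
    (h : (aeval (embF0 C.A (C.M * C.q * C.q) (C.j l))⁻¹ :
      Kb[X] →ₐ[Kb] FN (C.M * C.q * C.q)).toRingHom.IsIntegralElem
        (embF0 C.A (C.M * C.q * C.q) y)) : y ∈ intCl C.R (C.j l)⁻¹ :=
  ((C.sys_j l).inv C.irr).mem_intCl_of_isIntegral C.irr hy
    (isIntegral_of_embF0 C.A _ (C.j l)⁻¹ y (by
      rw [map_inv₀]; exact jt_isIntegral_adjoin_of_isIntegralElem h))

theorem jt_j_mem_O3 (l i : Fin 3) : C.j l ∈ C.O3 i := (C.redsTo_e3_j i l).1

theorem jt_jqModC_ne_zero : jqModC C.k ≠ 0 := by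
  intro h
  have := coeff_jqModC_neg_one (K := C.k)
  rw [h] at this
  simp at this

theorem jt_j_div_mem_O3 (l l' i : Fin 3) : C.j l / C.j l' ^ C.q ∈ C.O3 i := by
  have h := (C.redsTo_e3_j i l).mul
    (((C.redsTo_e3_j i l').pow C.q).inv (pow_ne_zero _ (pow_ne_zero _ C.jt_jqModC_ne_zero)))
  rw [← map_pow, ← map_inv₀, ← map_mul, ← div_eq_mul_inv] at h
  exact h.1

theorem jt_val_lt_of_redsTo {i : Fin 3} {y : C.F} (h : RedsTo C.π (C.e3 i y) 0) :
    (C.O3 i).valuation y < 1 := h.valuation_lt_one C.hπ (C.disc3 i)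

theorem jt_j_congr (i l l' : Fin 3) (h : nT i l = nT i l' + 1) :
    (C.O3 i).valuation (C.j l - C.j l' ^ C.q) < 1 := by
  apply C.jt_val_lt_of_redsTo
  have h1 := (C.redsTo_e3_j i l).sub ((C.redsTo_e3_j i l').pow C.q)
  rw [← map_pow, ← map_sub, h, ← pow_mul, ← pow_succ, sub_self] at h1
  exact h1

theorem jTriple : JTriple C.R C.q C.O3 C.j := by
  obtain ⟨I1, I2, J1, J2⟩ := C.jt_level2_int
  refine ⟨?_, ?_, ?_, ?_, ?_, ?_, ?_, C.jt_j_congr 0 1 0 rfl, C.jt_j_congr 0 2 1 rfl, C.jt_j_congr 1 1 0 rfl,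
    ?_, C.jt_j_congr 2 0 1 rfl⟩
  · refine C.jt_mem_intCl_j 0 (C.jt_j_mem_O3 1) ?_
    rw [jt_embF0_j_zero, jt_embF0_j_one]
    exact SS.isIntegralElem_map (heckeAlphaBar Kb (C.M * C.q) C.q) I1
  · refine C.jt_mem_intCl_j 1 (C.jt_j_mem_O3 0) ?_
    rw [jt_embF0_j_zero, jt_embF0_j_one]
    exact SS.isIntegralElem_map (heckeAlphaBar Kb (C.M * C.q) C.q) J1
  · refine C.jt_mem_intCl_j 1 (C.jt_j_mem_O3 2) ?_
    rw [jt_embF0_j_two, jt_embF0_j_one']
    exact SS.isIntegralElem_map (heckeBetaBar Kb (C.M * C.q) C.q) I1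
  · refine C.jt_mem_intCl_j 2 (C.jt_j_mem_O3 1) ?_
    rw [jt_embF0_j_two, jt_embF0_j_one']
    exact SS.isIntegralElem_map (heckeBetaBar Kb (C.M * C.q) C.q) J1
  · refine C.jt_mem_intCl_j_inv 0 (C.jt_j_div_mem_O3 1 0) ?_
    have := SS.isIntegralElem_map (heckeAlphaBar Kb (C.M * C.q) C.q) I2
    rw [map_inv₀, map_mul, map_pow, map_inv₀] at this
    rw [div_eq_mul_inv, map_mul, map_inv₀, map_pow, ← inv_pow, jt_embF0_j_zero, jt_embF0_j_one]
    exact this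
  · refine C.jt_mem_intCl_j_inv 1 (C.jt_j_div_mem_O3 2 1) ?_
    have := SS.isIntegralElem_map (heckeBetaBar Kb (C.M * C.q) C.q) I2
    rw [map_inv₀, map_mul, map_pow, map_inv₀] at this
    rw [div_eq_mul_inv, map_mul, map_inv₀, map_pow, ← inv_pow, jt_embF0_j_two, jt_embF0_j_one']
    exact this
  · refine C.jt_mem_intCl_j_inv 2 (C.jt_j_div_mem_O3 1 2) ?_
    have := SS.isIntegralElem_map (heckeBetaBar Kb (C.M * C.q) C.q) J2
    rw [map_inv₀, map_mul, map_pow, map_inv₀] at this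
    rw [div_eq_mul_inv, map_mul, map_inv₀, map_pow, ← inv_pow, jt_embF0_j_two, jt_embF0_j_one']
    exact this
  · apply C.jt_val_lt_of_redsTo
    have h1 := (C.redsTo_e3_j 1 2).sub (C.redsTo_e3_j 1 0)
    rw [← map_sub] at h1
    have e : jqModC C.k ^ (C.q ^ nT 1 2) - jqModC C.k ^ (C.q ^ nT 1 0) = 0 := sub_self _
    rwa [e] at h1

/-- one more congruence (used for `ded₂`) -/
theorem red2b : (C.O3 2).valuation (C.j 1 - C.j 2 ^ C.q) < 1 := C.jt_j_congr 2 1 2 rfl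

end Ctx

end Fermat.Agent.S36
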