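import Fermat.Agent.S36.F0.CtxM
import Fermat.Agent.S36.Mod.SysCtx
import Fermat.Agent.RED.FrobK

/-!
# S36 / modular part : `[SIGMA]`  (`Ctx.sigma_aux`, to be wired as `Ctx.sigma` in `Mod/DedTop.lean`)

`Fb k M = red1 (O1)` is stable under the Frobenius `σ` of the coefficients (`FrobK.coeffMap_mem_fullC`):
choose `u'` with `red1 u' = σ (red1 u)`; then `V (red1 u') = (red1 u) ^ q` (`FrobK.pow_char_eq`), and the table of
reductions `redsTo_eT` gives the two congruences.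
-/

set_option autoImplicit false
set_option linter.unusedSectionVars false
noncomputable section

open ModularCurve Polynomial

namespace Fermat.Agent.S36

open Fermat.Agent.S24 Fermat.Agent.RED.Gauss Fermat.Agent.GAL.AD

namespace Ctx

variable (C : Ctx)

/-- the reduction at level `M` in the language of `RedsTo` -/
theorem redsTo_red1 (u : C.O1) :
    RedsTo C.π (cK C.A ((u : C.FM) : LaurentSeries C.K)) (C.red1 u) := ⟨u.2, rfl⟩

/-- **[SIGMA]** -/
theorem sigma_aux (u : C.FM) (hu : u ∈ C.O1) : ∃ u' ∈ C.O1,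
    (C.O3 0).valuation (C.a 1 u' - C.a 0 u ^ C.q) < 1 ∧
    (C.O3 2).valuation (C.a 1 u' - C.a 2 u ^ C.q) < 1 := by
  obtain ⟨u', hu'⟩ := C.exists_red1_eq
    (Fermat.Agent.RED.FrobK.coeffMap_mem_fullC (frobenius C.k C.q) (C.red1_mem ⟨u, hu⟩))
  have h1 := C.redsTo_red1 ⟨u, hu⟩
  have h2 := C.redsTo_red1 u'
  rw [hu'] at h2
  have q0 : ∀ y : LaurentSeries C.k, qExpand C.k (C.q ^ 0) y = y := fun y =>
    (qExpand_congr' (pow_zero C.q) y).trans (qExpand_one_apply y)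
  have q1 : ∀ y : LaurentSeries C.k, qExpand C.k (C.q ^ 1) y = qExpand C.k C.q y := fun y =>
    qExpand_congr' (pow_one C.q) y
  refine ⟨u', u'.2, ?_, ?_⟩
  · have t1 := redsTo_eT C.A C.hA C.hζ C.isSW 0 1 h2
    have t0 := redsTo_eT C.A C.hA C.hζ C.isSW 0 0 h1
    have t := t1.sub (t0.pow C.q)
    have e : qExpand C.k (C.q ^ nT 0 1) (coeffMap (frobenius C.k C.q) (C.red1 ⟨u, hu⟩)) -
        qExpand C.k (C.q ^ nT 0 0) (C.red1 ⟨u, hu⟩) ^ C.q = 0 := by
      change qExpand C.k (C.q ^ 1) _ - qExpand C.k (C.q ^ 0) _ ^ C.q = 0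
      rw [q0, q1, Fermat.Agent.RED.FrobK.pow_char_eq C.k C.q, sub_self]
    rw [e, ← map_pow, ← map_sub] at t
    exact RedsTo.valuation_lt_one C.hπ (C.disc3 0) t
  · have t1 := redsTo_eT C.A C.hA C.hζ C.isSW 2 1 h2
    have t0 := redsTo_eT C.A C.hA C.hζ C.isSW 2 2 h1
    have t := t1.sub (t0.pow C.q)
    have e : qExpand C.k (C.q ^ nT 2 1) (coeffMap (frobenius C.k C.q) (C.red1 ⟨u, hu⟩)) -
        qExpand C.k (C.q ^ nT 2 2) (C.red1 ⟨u, hu⟩) ^ C.q = 0 := by
      change qExpand C.k (C.q ^ 1) _ - qExpand C.k (C.q ^ 0) _ ^ C.q = 0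
      rw [q0, q1, Fermat.Agent.RED.FrobK.pow_char_eq C.k C.q, sub_self]
    rw [e, ← map_pow, ← map_sub] at t
    exact RedsTo.valuation_lt_one C.hπ (C.disc3 2) t

end Ctx

end Fermat.Agent.S36
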