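import Fermat.Agent.S36.Mod.SysTop
import Fermat.Agent.S36.Mod.Formulas
import Fermat.Agent.S36.Mod.JTrip
import Fermat.Agent.S36.Mod.DedK
import Fermat.Agent.S36.Mod.SysExp
import Fermat.Agent.S36.Mod.Sigma
import Fermat.Agent.S36.Mod.DedM
import Fermat.Agent.S36.Abs.DedLevel
import Fermat.Agent.RED.S37.Defs

/-!
# S36 / modular part : the fields `glob`, `ded₁`, `ded₂` of `GeomDatum`  (`[DED]`, helper47 + helper74)
and the residue statements `[RES1]`, `[LIFT]`, `[SIGMA]` used by the norm datum.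
-/

set_option autoImplicit false
noncomputable section

namespace Fermat.Agent.S36

namespace Ctx

variable (C : Ctx)

theorem glob : ∀ x, x ∈ intCl C.R C.t → x ∈ intCl C.R C.t⁻¹ →
    x ∈ Set.range (algebraMap C.R C.F) :=
  C.sys.glob C.irr (fun x hx => F0_const_of_isIntegral C.A _ x hx)

theorem mem_O1_of_approx {i l : Fin 3} {x : C.F} (hx : x ∈ C.O3 i) {u : C.FM}
    (h : (C.O3 i).valuation (x - C.a l u) < 1) : u ∈ C.O1 := by
  rw [← C.comap_a i l]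
  show C.a l u ∈ C.O3 i
  have h1 : x - C.a l u ∈ C.O3 i := ((C.O3 i).valuation_le_one_iff _).1 h.le
  have : C.a l u = x - (x - C.a l u) := by ring
  rw [this]
  exact (C.O3 i).sub_mem hx h1

theorem j_mem_O3 (i l : Fin 3) : C.j l ∈ C.O3 i :=
  ((C.O3 i).valuation_le_one_iff _).1 (KrullAux.valuation_t ((C.sys_j l).gauss i)).le

/-- `j 0 ≡ j 2 ^ (q²)` on the last component -/
theorem red2c : (C.O3 2).valuation (C.j 0 - C.j 2 ^ (C.q ^ 2)) < 1 := by
  have h1 := C.jTriple.red2a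
  have h2 := comp_aux_pow (((C.O3 2).valuation_le_one_iff _).2 (C.j_mem_O3 2 1))
    (((C.O3 2).valuation_le_one_iff _).2 ((C.O3 2).pow_mem (C.j_mem_O3 2 2) C.q)) C.red2b C.q
  have e : C.j 0 - C.j 2 ^ (C.q ^ 2) = (C.j 0 - C.j 1 ^ C.q) + (C.j 1 ^ C.q - (C.j 2 ^ C.q) ^ C.q) := by
    rw [← pow_mul, ← sq]; ring
  rw [e]
  exact Valuation.map_add_lt _ h1 h2

/-- **[RES1]** residue degree one over the level `M` via `a 0` on the components `0, 1`
(`GaussSys.res_exact` for `C.sys_j 0` with `ω k = a 0 (u k)`). -/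
theorem res₀ (i : Fin 3) (hi : i ≠ 2) (x : C.F) (hx : x ∈ C.O3 i) :
    ∃ u ∈ C.O1, (C.O3 i).valuation (x - C.a 0 u) < 1 := by
  obtain ⟨u, h1, h2⟩ := C.res_range i
  have hg : gT i = 0 := by
    fin_cases i
    · rfl
    · rfl
    · exact absurd rfl hi
  rw [hg] at h1 h2
  obtain ⟨y', hy'⟩ := (C.sys_j 0).approx_of_res C.irr i (C.a 0) (τ := C.jM)
    (by
      have : C.j 0 - C.a 0 C.jM = 0 := sub_self _
      rw [this, map_zero]; exact zero_lt_one) u h1 h2 hx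
  exact ⟨y', C.mem_O1_of_approx hx hy', hy'⟩

/-- **[RES1]** residue degree one over the level `M` via `a 2` on the components `1, 2`. -/
theorem res₂ (i : Fin 3) (hi : i ≠ 0) (x : C.F) (hx : x ∈ C.O3 i) :
    ∃ u ∈ C.O1, (C.O3 i).valuation (x - C.a 2 u) < 1 := by
  fin_cases i
  · exact absurd rfl hi
  · obtain ⟨u, hu, h⟩ := C.res₀ 1 (by decide) x hx
    refine ⟨u, hu, ?_⟩
    have e : x - C.a 2 u = (x - C.a 0 u) - (C.a 2 u - C.a 0 u) := by ring
    show (C.O3 1).valuation (x - C.a 2 u) < 1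
    rw [e]
    exact Valuation.map_sub_lt _ h (C.a2_congr hu)
  · obtain ⟨u, h1, h2⟩ := C.res_range 2
    obtain ⟨y', hy'⟩ := (C.sys_j 0).approx_of_res C.irr 2 (C.a 2) (τ := C.jM ^ (C.q ^ 2))
      (by rw [map_pow]; exact C.red2c) u h1 h2 hx
    exact ⟨y', C.mem_O1_of_approx hx hy', hy'⟩

theorem dedDatum (h49 : 4 ∣ C.M ∨ 9 ∣ C.M) :
    DedDatum C.K C.q C.irr C.O3 C.j C.jM C.O1 (C.a 0) (C.a 2) (fun _ => 1)
      (fun _ => C.q ^ 2 * C.psi) where
  sys₁ := C.sys_tM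
  a₀_j := rfl
  a₂_j := rfl
  comap₀ := C.comap_a 0 0
  comap₁ := C.comap_a 1 0
  comap₂ := C.comap_a 2 2
  approx₀ := fun y hy => (C.res₀ 0 (by decide) y hy).imp fun _ h => h.2
  approx₁ := fun y hy => (C.res₀ 1 (by decide) y hy).imp fun _ h => h.2
  approx₂ := fun y hy => (C.res₂ 2 (by decide) y hy).imp fun _ h => h.2
  red2b := C.red2b
  ded₁ := C.dedM₁ h49
  ded₂ := C.dedM₂ h49

theorem ded₁ (h49 : Fermat.Agent.RED.aux C.q ∣ C.M) (i : Fin 3) :
    IsDedekindDomain (intCl C.R C.t ⧸ C.sys.p i) :=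
  (C.dedDatum (C.h49_of_aux h49)).ded_chart₁ C.jTriple C.hq C.sys i

theorem ded₂ (h49 : Fermat.Agent.RED.aux C.q ∣ C.M) (i : Fin 3) :
    IsDedekindDomain (intCl C.R C.t⁻¹ ⧸ (C.sys.inv C.irr).p i) :=
  (C.dedDatum (C.h49_of_aux h49)).ded_chart₂ C.jTriple C.hq C.sys i

/-- **[LIFT]** (`[RES1]` + the reduction of `x` is integral over `k[jbar]` + `[RFORM]`
`exists_lift_isIntegral` + `GaussSys.mem_intCl_of_isIntegral` at the level `M`). -/
theorem lift₀ (h49 : Fermat.Agent.RED.aux C.q ∣ C.M) (i : Fin 3) (hi : i ≠ 2) (x : C.F)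
    (hx : x ∈ intCl C.R C.t) :
    ∃ u ∈ intCl C.R C.jM, (C.O3 i).valuation (x - C.a 0 u) < 1 := by
  rw [← C.intCl_tM]
  refine C.sys.exists_approx_chart C.irr C.sys_tM i 0 (C.a 0) (C.comap_a i 0)
    (fun y hy => (C.res₀ i hi y hy).imp fun _ h => h.2) 1 ?_ (C.dedM₁ (C.h49_of_aux h49)) x hx
  have : C.t - C.a 0 (C.tM ^ 1) = 0 := by
    rw [pow_one, sub_eq_zero]
    simp only [tM, t, map_sub, map_pow]
    rfl
  rw [this, map_zero]
  exact zero_lt_one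

theorem lift₂ (h49 : Fermat.Agent.RED.aux C.q ∣ C.M) (i : Fin 3) (hi : i ≠ 0) (x : C.F)
    (hx : x ∈ intCl C.R C.t) :
    ∃ u ∈ intCl C.R C.jM, (C.O3 i).valuation (x - C.a 2 u) < 1 := by
  fin_cases i
  · exact absurd rfl hi
  · obtain ⟨u, hu, h⟩ := C.lift₀ h49 1 (by decide) x hx
    refine ⟨u, hu, ?_⟩
    have e : x - C.a 2 u = (x - C.a 0 u) - (C.a 2 u - C.a 0 u) := by ring
    show (C.O3 1).valuation (x - C.a 2 u) < 1
    rw [e]
    exact Valuation.map_sub_lt _ h (C.a2_congr (intCl_le (C.sysM.gauss 0) hu))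
  · rw [← C.intCl_tM]
    refine C.sys.exists_approx_chart C.irr C.sys_tM 2 0 (C.a 2) (C.comap_a 2 2)
      (fun y hy => (C.res₂ 2 (by decide) y hy).imp fun _ h => h.2) (C.q ^ 2) ?_
      (C.dedM₁ (C.h49_of_aux h49)) x hx
    have h := (C.jTriple.red_t₂ C.hq C.sys C.red2b).2.2
    have e : C.a 2 (C.tM ^ (C.q ^ 2)) = (C.j 2 ^ (C.q ^ 2) - C.j 2) ^ (C.q ^ 2) := by
      simp only [tM, map_sub, map_pow]
      rfl
    rw [e]
    exact h

/-- **[SIGMA]** `Fb k M = red1 (O1)` is stable under the Frobenius `σ` of the coefficients: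
choose `u'` with `red1 u' = σ (red1 u)`; then `V (red1 u') = (red1 u) ^ q` (`V = qExpand k q`), and
`red3 0 (a 1 u') = V (red1 u') = red3 2 (a 1 u')`, `red3 0 (a 0 u) = red1 u = red3 2 (a 2 u)`. -/
theorem sigma (u : C.FM) (hu : u ∈ C.O1) : ∃ u' ∈ C.O1,
    (C.O3 0).valuation (C.a 1 u' - C.a 0 u ^ C.q) < 1 ∧
    (C.O3 2).valuation (C.a 1 u' - C.a 2 u ^ C.q) < 1 :=
  C.sigma_aux u hu

end Ctx

end Fermat.Agent.S36
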