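import Fermat.Agent.S36.Mod.NormDeg
import Fermat.Agent.S36.Mod.JTrip
import Fermat.Agent.S36.Mod.DedTop
import Fermat.Agent.S36.Abs.NormBuild
import Fermat.Agent.S36.Abs.DedTools

set_option autoImplicit false
set_option linter.unusedSectionVars false
set_option linter.style.haveILetI false
noncomputable section

open ModularCurve AlgebraicCurve Polynomial

namespace Fermat.Agent.S36

/-- pure algebra -/
theorem map_mem_intCl_nia {R F' F : Type*} [CommRing R] [Field F'] [Field F] [Algebra R F'] [Algebra R F]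
    (φ : F' →+* F) (hφ : ∀ r : R, φ (algebraMap R F' r) = algebraMap R F r) {s x : F'}
    (hx : x ∈ intCl R s) : φ x ∈ intCl R (φ s) :=
  nb_map_mem_intCl (⟨φ, hφ⟩ : F' →ₐ[R] F) hx

/-- pure algebra -/
theorem mem_intCl_of_map_nia {R F' F : Type*} [CommRing R] [Field F'] [Field F] [Algebra R F']
    [Algebra R F] (φ : F' →+* F) (hφ : ∀ r : R, φ (algebraMap R F' r) = algebraMap R F r) {s x : F'}
    (hx : φ x ∈ intCl R (φ s)) : x ∈ intCl R s := by
  let ψ : F' →ₐ[R] F := ⟨φ, hφ⟩
  have hx' : ψ x ∈ intCl R (ψ s) := hx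
  rw [mem_intCl] at hx' ⊢
  obtain ⟨p, hp, h0⟩ := hx'
  have hl : p ∈ lifts (adjoinMap ψ s) := by
    rw [lifts_iff_coeff_lifts]
    intro n
    exact adjoinMap_surjective ψ s _
  obtain ⟨p', hp', -, hm⟩ := lifts_and_natDegree_eq_and_monic hl hp
  refine ⟨p', hm, ?_⟩
  rw [← hp', eval₂_map] at h0
  have h1 : (algebraMap (Algebra.adjoin R {ψ s}) F).comp (adjoinMap ψ s) =
      (ψ : F' →+* F).comp (algebraMap (Algebra.adjoin R {s}) F') := rfl
  rw [h1] at h0
  have h2 := hom_eval₂ p' (algebraMap (Algebra.adjoin R {s}) F') (ψ : F' →+* F) x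
  exact (map_eq_zero (ψ : F' →+* F)).1 (h2.trans h0)

namespace Ctx

variable (C : Ctx)

theorem const3_nia (i : Fin 3) (r : C.R) : algebraMap C.R C.F r ∈ C.O3 i :=
  (C.sys.gauss i).const r

theorem const2_nia (j : Fin 2) (r : C.R) : algebraMap C.R C.F' r ∈ C.O2 j := by
  have key : ∀ i : Fin 3, algebraMap C.R C.F' r ∈ C.O2 (idxα i) := by
    intro i
    rw [← C.comap_α i, ValuationSubring.mem_comap]
    have : (C.α : C.F' →+* C.F) (algebraMap C.R C.F' r) = algebraMap C.R C.F r := by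
      rw [IsScalarTower.algebraMap_apply C.R C.K C.F', IsScalarTower.algebraMap_apply C.R C.K C.F]
      exact C.α.commutes _
    rw [this]
    exact C.const3_nia i r
  fin_cases j
  · exact key 0
  · exact key 2

theorem const1_nia (r : C.R) : algebraMap C.R C.FM r ∈ C.O1 := by
  rw [← C.comap_α' 0, ValuationSubring.mem_comap]
  have : (C.α' : C.FM →+* C.F') (algebraMap C.R C.FM r) = algebraMap C.R C.F' r := by
    rw [IsScalarTower.algebraMap_apply C.R C.K C.FM, IsScalarTower.algebraMap_apply C.R C.K C.F']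
    exact C.α'.commutes _
  rw [this]
  exact C.const2_nia 0 r

theorem α_mem_nia (x : C.F') (hx : x ∈ intCl C.R C.j') : C.α x ∈ intCl C.R C.t := by
  rw [C.intCl_t]
  exact map_mem_intCl_aux (R := C.R) (K := C.K) C.α hx

theorem β_mem_nia (x : C.F') (hx : x ∈ intCl C.R C.j') : C.β x ∈ intCl C.R C.t := by
  rw [C.intCl_t]
  have h1 : C.β x ∈ intCl C.R (C.β C.j') := map_mem_intCl_aux (R := C.R) (K := C.K) C.β hx
  rw [← C.j_one] at h1
  exact intCl_le_intCl_of_mem_aux C.jTriple.int01 h1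

end Ctx

end Fermat.Agent.S36
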