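import Fermat.Agent.S36.Mod.NormDeg
import Fermat.Agent.S36.Mod.JTrip
import Fermat.Agent.S36.Mod.DedTop
import Fermat.Agent.S36.Mod.NormIntA

/-!
# S36 / modular part : `[NORM-INT]` the fields `const' α_mem β_mem Nα_mem Nβ_mem approxα approxβ` of `NormDatum`

`B' := intCl C.R C.j'`, `j' = j (τ)` at the level `M q`.  `intCl R t = intCl R (j 0)` (`C.intCl_t`), `j 0 = α j'` (`rfl`),
`j 1 = β j'` (`C.j_one`), `intCl R (j 0) = intCl R (j 1)` (`C.jTriple.int01`, `int10`, transitivity of integrality).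
* `map_mem` (pure algebra): `φ : F' →+* F` commuting with the constants, `x` integral over `R[s]` ⇒ `φ x` integral over `R[φ s]`;
* `mem_of_map` (pure algebra): conversely, `φ x` integral over `R[φ s]` ⇒ `x` integral over `R[s]` (`φ` injective);
* `N_mem` : `Algebra.isIntegral_norm` with base ring `Algebra.adjoin R {j'}`, `letI := algebraAlong C.α`;
* `approxα` : `C.lift₀` gives `u ∈ intCl R jM`, `x' := α' u` (`a 0 u = α (α' u)` by definition);
* `approxβ` : `C.lift₂`, `x' := β' u` (`a 2 u = β (β' u)`), integral over `R[β' jM]`, and `β' jM ∈ intCl R j'` by `mem_of_map`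
  for `α` (`α (β' jM) = j 1 ∈ intCl R (j 0)`).
-/

set_option autoImplicit false
set_option linter.unusedSectionVars false
set_option linter.style.haveILetI false
noncomputable section

open ModularCurve AlgebraicCurve

namespace Fermat.Agent.S36

/-- pure algebra -/
theorem map_mem_intCl {R F' F : Type*} [CommRing R] [Field F'] [Field F] [Algebra R F'] [Algebra R F]
    (φ : F' →+* F) (hφ : ∀ r : R, φ (algebraMap R F' r) = algebraMap R F r) {s x : F'}
    (hx : x ∈ intCl R s) : φ x ∈ intCl R (φ s) := by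
  exact map_mem_intCl_nia φ hφ hx

/-- pure algebra -/
theorem mem_intCl_of_map {R F' F : Type*} [CommRing R] [Field F'] [Field F] [Algebra R F']
    [Algebra R F] (φ : F' →+* F) (hφ : ∀ r : R, φ (algebraMap R F' r) = algebraMap R F r) {s x : F'}
    (hx : φ x ∈ intCl R (φ s)) : x ∈ intCl R s := by
  exact mem_intCl_of_map_nia φ hφ hx

/-- pure algebra (transitivity of integrality) -/
theorem intCl_le_intCl_of_mem {R F : Type*} [CommRing R] [Field F] [Algebra R F] {s s' : F}
    (h : s ∈ intCl R s') : intCl R s ≤ intCl R s' := by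
  exact nb_intCl_le_intCl_of_mem h

namespace Ctx

variable (C : Ctx)

theorem const1 (r : C.R) : algebraMap C.R C.FM r ∈ C.O1 := by
  exact C.const1_nia r

theorem const2 (j : Fin 2) (r : C.R) : algebraMap C.R C.F' r ∈ C.O2 j := by
  exact C.const2_nia j r

theorem α_mem (x : C.F') (hx : x ∈ intCl C.R C.j') : C.α x ∈ intCl C.R C.t := by
  exact C.α_mem_nia x hx

theorem β_mem (x : C.F') (hx : x ∈ intCl C.R C.j') : C.β x ∈ intCl C.R C.t := by
  exact C.β_mem_nia x hx

theorem Nα_mem (x : C.F) (hx : x ∈ intCl C.R C.t) : C.Nα x ∈ intCl C.R C.j' := by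
  rw [C.intCl_t] at hx
  exact normHom_mem_intCl (C.α.restrictScalars C.R) (s' := C.j') hx

theorem Nβ_mem (x : C.F) (hx : x ∈ intCl C.R C.t) : C.Nβ x ∈ intCl C.R C.j' := by
  rw [C.intCl_t] at hx
  have h1 : x ∈ intCl C.R (C.j 1) := intCl_le_intCl_of_mem_aux C.jTriple.int10 hx
  rw [C.j_one] at h1
  exact normHom_mem_intCl (C.β.restrictScalars C.R) (s' := C.j') h1

theorem approxα (h49 : Fermat.Agent.RED.aux C.q ∣ C.M) (i : Fin 3) (hi : i ≠ 2) (x : C.F)
    (hx : x ∈ intCl C.R C.t) :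
    ∃ x' ∈ intCl C.R C.j', (C.O3 i).valuation (x - C.α x') < 1 := by
  obtain ⟨u, hu, h⟩ := C.lift₀ h49 i hi x hx
  exact ⟨C.α' u, map_mem_intCl_aux (R := C.R) (K := C.K) C.α' hu, h⟩

theorem approxβ (h49 : Fermat.Agent.RED.aux C.q ∣ C.M) (i : Fin 3) (hi : i ≠ 0) (x : C.F)
    (hx : x ∈ intCl C.R C.t) :
    ∃ x' ∈ intCl C.R C.j', (C.O3 i).valuation (x - C.β x') < 1 := by
  obtain ⟨u, hu, h⟩ := C.lift₂ h49 i hi x hx
  refine ⟨C.β' u, ?_, h⟩
  have h1 : C.β' u ∈ intCl C.R (C.β' C.jM) := map_mem_intCl_aux (R := C.R) (K := C.K) C.β' hu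
  have h2 : C.β' C.jM ∈ intCl C.R C.j' := by
    refine mem_intCl_of_map_nia (C.α : C.F' →+* C.F) (fun r => ?_) ?_
    · rw [IsScalarTower.algebraMap_apply C.R C.K C.F', IsScalarTower.algebraMap_apply C.R C.K C.F]
      exact C.α.commutes _
    · exact C.jTriple.int01
  exact intCl_le_intCl_of_mem_aux h2 h1

end Ctx

end Fermat.Agent.S36
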