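import Fermat.Agent.S36.Mod.NormExt
import Fermat.Agent.S36.Mod.DedTop
import Fermat.Agent.S36.Abs.ExtNorm

/-!
# S36 / modular part : `[NORM-RED]` the fields `redα₁ redα₂ redβ₁ redβ₂ valα valβ` of `NormDatum`

Wiring of `ExtSys.norm_red_one`, `ExtSys.norm_red_insep`, `ExtSys.norm_val` (`Abs/ExtNorm.lean`) with the four systems of
`NormExt.lean`  (`letI := algebraAlong C.α`; `FiniteDimensional` from `C.finite_α`; separable: characteristic `0`).

`hinsep` for `norm_red_insep` (say `α`, `O3 2`): `x ∈ O3 2`; `[RES1]` `C.res₂ 2` : `x ≡ a 2 u`, `u ∈ O1`;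
`[SIGMA]` `C.sigma u` : `u'` with `a 1 u' ≡ (a 2 u)^q`; `a 1 u' = α (β' u')` (definition of `C.a 1`), `c := β' u' ∈ O2 1`
(`C.comap_β'`).  For `β`, `O3 0`: `C.res₀ 0`, `a 1 u' = β (α' u')` (`C.β_α'`), `c := α' u'`.
-/

set_option autoImplicit false
set_option linter.unusedSectionVars false
set_option linter.style.haveILetI false
noncomputable section

open ModularCurve AlgebraicCurve

namespace Fermat.Agent.S36

theorem nr_val_pow_sub_pow_lt_one {F : Type*} [Field F] (O : ValuationSubring F) {x y : F}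
    (hx : x ∈ O) (h : O.valuation (x - y) < 1) (n : ℕ) : O.valuation (x ^ n - y ^ n) < 1 := by
  have hx1 : O.valuation x ≤ 1 := (O.valuation_le_one_iff x).mpr hx
  have hy1 : O.valuation y ≤ 1 := by
    have e : y = x - (x - y) := by ring
    rw [e]
    exact (O.valuation.map_sub _ _).trans (max_le hx1 h.le)
  induction n with
  | zero => simp
  | succ n ih =>
    have e : x ^ (n + 1) - y ^ (n + 1) = x ^ n * (x - y) + (x ^ n - y ^ n) * y := by ring
    rw [e]
    refine lt_of_le_of_lt (O.valuation.map_add _ _) (max_lt ?_ ?_)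
    · rw [map_mul, map_pow]
      exact lt_of_le_of_lt (mul_le_of_le_one_left zero_le (pow_le_one₀ zero_le hx1)) h
    · rw [map_mul]
      exact lt_of_le_of_lt (mul_le_of_le_one_right zero_le hy1) ih

/-- abstract form of the inseparability statement. -/
theorem nr_val_pow_sub_lt_one_of {F : Type*} [Field F] (O : ValuationSubring F) {x y z : F}
    (hx : x ∈ O) (h : O.valuation (x - y) < 1) (n : ℕ) (h2 : O.valuation (z - y ^ n) < 1) :
    O.valuation (x ^ n - z) < 1 := by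
  have e : x ^ n - z = (x ^ n - y ^ n) - (z - y ^ n) := by ring
  rw [e]
  exact lt_of_le_of_lt (O.valuation.map_sub _ _) (max_lt (nr_val_pow_sub_pow_lt_one O hx h n) h2)

namespace Ctx

variable (C : Ctx)

theorem nr_a_one_apply (u : C.FM) : C.a 1 u = C.α (C.β' u) := by
  unfold a
  simp only [Matrix.cons_val_one, Matrix.cons_val_zero, AlgHom.comp_apply]

theorem nr_β'_mem (j : Fin 2) {u : C.FM} (hu : u ∈ C.O1) : C.β' u ∈ C.O2 j := by
  rw [← C.comap_β' j, ValuationSubring.mem_comap] at hu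
  exact hu

theorem nr_α'_mem (j : Fin 2) {u : C.FM} (hu : u ∈ C.O1) : C.α' u ∈ C.O2 j := by
  rw [← C.comap_α' j, ValuationSubring.mem_comap] at hu
  exact hu

theorem insepα (x : C.F) (hx : x ∈ C.O3 2) :
    ∃ c ∈ C.O2 1, (C.O3 2).valuation (x ^ C.q - C.α c) < 1 := by
  obtain ⟨u, hu, h1⟩ := C.res₂ 2 (by decide) x hx
  obtain ⟨u', hu', -, h2⟩ := C.sigma u hu
  refine ⟨C.β' u', C.nr_β'_mem 1 hu', ?_⟩
  rw [C.nr_a_one_apply] at h2
  exact nr_val_pow_sub_lt_one_of _ hx h1 _ h2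

theorem insepβ (x : C.F) (hx : x ∈ C.O3 0) :
    ∃ c ∈ C.O2 0, (C.O3 0).valuation (x ^ C.q - C.β c) < 1 := by
  obtain ⟨u, hu, h1⟩ := C.res₀ 0 (by decide) x hx
  obtain ⟨u', hu', h2, -⟩ := C.sigma u hu
  refine ⟨C.α' u', C.nr_α'_mem 0 hu', ?_⟩
  rw [C.nr_a_one_apply, ← C.β_α'] at h2
  exact nr_val_pow_sub_lt_one_of _ hx h1 _ h2

theorem redα₁ (u : C.F) (c₀ c₁ : C.F') (h₀ : c₀ ∈ C.O2 0) (h₁ : c₁ ∈ C.O2 0)
    (hu₀ : (C.O3 0).valuation (u - C.α c₀) < 1) (hu₁ : (C.O3 1).valuation (u - C.α c₁) < 1) :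
    (C.O2 0).valuation (C.Nα u - c₀ * c₁ ^ (C.q - 1)) < 1 := by
  letI := algebraAlong C.α
  haveI : FiniteDimensional C.F' C.F := C.finite_α
  have S := C.extα₀
  have h := S.norm_red_one (fun i => by fin_cases i <;> rfl) (u := u) ![c₀, c₁]
    (fun i => by fin_cases i <;> assumption) (fun i => by fin_cases i <;> assumption)
  rw [Fin.prod_univ_two] at h
  simp only [Matrix.cons_val_zero, Matrix.cons_val_one, pow_one] at h
  exact h

theorem redα₂ (u : C.F) (hu : u ∈ C.O3 2) :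
    (C.O3 2).valuation (C.α (C.Nα u) - u ^ C.q) < 1 := by
  letI := algebraAlong C.α
  haveI : FiniteDimensional C.F' C.F := C.finite_α
  have S := C.extα₁
  exact S.norm_red_insep 0 (fun j => Subsingleton.elim _ _) C.hq C.finrank_α (C.unif2 1).lt_one
    C.insepα hu

theorem redβ₁ (u : C.F) (hu : u ∈ C.O3 0) :
    (C.O3 0).valuation (C.β (C.Nβ u) - u ^ C.q) < 1 := by
  letI := algebraAlong C.β
  haveI : FiniteDimensional C.F' C.F := C.finite_β
  have S := C.extβ₀
  exact S.norm_red_insep 0 (fun j => Subsingleton.elim _ _) C.hq C.finrank_β (C.unif2 0).lt_one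
    C.insepβ hu

theorem redβ₂ (u : C.F) (c₁ c₂ : C.F') (h₁ : c₁ ∈ C.O2 1) (h₂ : c₂ ∈ C.O2 1)
    (hu₁ : (C.O3 1).valuation (u - C.β c₁) < 1) (hu₂ : (C.O3 2).valuation (u - C.β c₂) < 1) :
    (C.O2 1).valuation (C.Nβ u - c₁ ^ (C.q - 1) * c₂) < 1 := by
  letI := algebraAlong C.β
  haveI : FiniteDimensional C.F' C.F := C.finite_β
  have S := C.extβ₁
  have h := S.norm_red_one (fun i => by fin_cases i <;> rfl) (u := u) ![c₁, c₂]
    (fun i => by fin_cases i <;> assumption) (fun i => by fin_cases i <;> assumption)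
  rw [Fin.prod_univ_two] at h
  simp only [Matrix.cons_val_zero, Matrix.cons_val_one, pow_one] at h
  exact h

theorem valα (ϖ : Fin 3 → C.F) (hϖ : ∀ i, IsUnif (C.O3 i) (ϖ i)) (u : C.F) (n : Fin 3 → ℤ)
    (hu : ∀ i, (C.O3 i).valuation u = (C.O3 i).valuation (ϖ i) ^ n i) :
    (C.O2 0).valuation (C.Nα u) = (C.O2 0).valuation (C.q : C.F') ^ (n 0 + n 1) ∧
    (C.O2 1).valuation (C.Nα u) = (C.O2 1).valuation (C.q : C.F') ^ ((C.q : ℤ) * n 2) := by
  letI := algebraAlong C.α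
  haveI : FiniteDimensional C.F' C.F := C.finite_α
  constructor
  · have h := C.extα₀.norm_val ![ϖ 0, ϖ 1] (fun i => by fin_cases i; exacts [hϖ 0, hϖ 1]) (u := u)
      ![n 0, n 1] (fun i => by fin_cases i; exacts [hu 0, hu 1])
    rw [Fin.sum_univ_two] at h
    simp only [Matrix.cons_val_zero, Matrix.cons_val_one, Nat.cast_one, one_mul] at h
    exact h
  · have h := C.extα₁.norm_val (fun _ => ϖ 2) (fun _ => hϖ 2) (u := u)
      (fun _ => n 2) (fun _ => hu 2)
    rw [Fin.sum_univ_one] at h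
    exact h

theorem valβ (ϖ : Fin 3 → C.F) (hϖ : ∀ i, IsUnif (C.O3 i) (ϖ i)) (u : C.F) (n : Fin 3 → ℤ)
    (hu : ∀ i, (C.O3 i).valuation u = (C.O3 i).valuation (ϖ i) ^ n i) :
    (C.O2 0).valuation (C.Nβ u) = (C.O2 0).valuation (C.q : C.F') ^ ((C.q : ℤ) * n 0) ∧
    (C.O2 1).valuation (C.Nβ u) = (C.O2 1).valuation (C.q : C.F') ^ (n 1 + n 2) := by
  letI := algebraAlong C.β
  haveI : FiniteDimensional C.F' C.F := C.finite_β
  constructor
  · have h := C.extβ₀.norm_val (fun _ => ϖ 0) (fun _ => hϖ 0) (u := u)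
      (fun _ => n 0) (fun _ => hu 0)
    rw [Fin.sum_univ_one] at h
    exact h
  · have h := C.extβ₁.norm_val ![ϖ 1, ϖ 2] (fun i => by fin_cases i; exacts [hϖ 1, hϖ 2]) (u := u)
      ![n 1, n 2] (fun i => by fin_cases i; exacts [hu 1, hu 2])
    rw [Fin.sum_univ_two] at h
    simp only [Matrix.cons_val_zero, Matrix.cons_val_one, Nat.cast_one, one_mul] at h
    exact h

end Ctx

end Fermat.Agent.S36
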