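import Fermat.Agent.S36.Mod.SysTop
import Fermat.Agent.RED.S37.Defs
import Fermat.Agent.S36.Theta.CtxAB
import Fermat.Agent.S36.Haupt.ValCtx

/-!
# S36 / modular part : `[UNIF]` the fields `ϖ, ϖ_mem, ϖ_lt, ϖ_ram, ϖ_indep, inv₀, inv₂, c2, t3, t3'`

`ϖ 0 = a = q G(q² τ)/G(q τ)` (UNSIGNED), `ϖ 2 = b = G(τ)/G(q τ)` (helper31, `S36/Theta/Val.lean`),
`ϖ 1 = 1 - h(τ)/h(q² τ)` (`q` odd; helper75, `S36/Haupt/Val.lean`), `ϖ 1 = q/(a b)` (`q = 2`; helper31).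
This file is the wiring of these two files for `C : Ctx`.
Membership in `intCl C.R C.t` (`= intCl C.R (C.j 0)`, `C.intCl_t`): `GaussSys.mem_intCl_of_isIntegral` for
`C.sys_j 0`.
-/

set_option autoImplicit false
noncomputable section

namespace Fermat.Agent.S36

namespace Ctx

variable (C : Ctx)

/-- the common part: everything about `ϖ 0 = a`, `ϖ 2 = b`, for an arbitrary `ϖ 1 = p`. -/
theorem exists_unif_aux {M₀ : ℕ} [NeZero M₀] (D : Wt1 M₀) (hM : M₀ ∣ C.M) (p : C.F)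
    (hmem : p ∈ intCl C.R C.t) (hlt : (C.O3 1).valuation p < 1)
    (hram : (C.O3 1).valuation (C.q : C.F) ≤ (C.O3 1).valuation p ^ eVec C.q 1)
    (h0 : (C.O3 0).valuation p = 1) (h2 : (C.O3 2).valuation p = 1)
    (hc2 : ∃ y ∈ intCl C.R C.t, (C.O3 1).valuation (p ^ (C.q - 1) * D.a0 C.A C.M C.q hM
      * D.b0 C.A C.M C.q hM / (C.q : C.F) * y - 1) < 1) :
    ∃ ϖ : Fin 3 → C.F,
    (∀ i, ϖ i ∈ intCl C.R C.t) ∧
    (∀ i, (C.O3 i).valuation (ϖ i) < 1) ∧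
    (∀ i, (C.O3 i).valuation (C.q : C.F) ≤ (C.O3 i).valuation (ϖ i) ^ eVec C.q i) ∧
    (∀ i j, i ≠ j → (C.O3 j).valuation (ϖ i) = 1) ∧
    (∃ n : ℕ, (C.q : C.F) ^ n / ϖ 0 ∈ intCl C.R C.t) ∧
    (∃ n : ℕ, (C.q : C.F) ^ n / ϖ 2 ∈ intCl C.R C.t) ∧
    (∃ y ∈ intCl C.R C.t,
      (C.O3 1).valuation (ϖ 1 ^ (C.q - 1) * ϖ 0 * ϖ 2 / (C.q : C.F) * y - 1) < 1) ∧
    (C.O3 0).valuation ((C.q : C.F) / (ϖ 0 * ϖ 2) - ϖ 2 ^ (C.q - 1)) < 1 ∧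
    (C.O3 2).valuation ((C.q : C.F) / (ϖ 0 * ϖ 2) - ϖ 0 ^ (C.q - 1)) < 1 := by
  refine ⟨![D.a0 C.A C.M C.q hM, p, D.b0 C.A C.M C.q hM], ?_, ?_, ?_, ?_, C.inv_a0 D hM C.sys,
    C.inv_b0 D hM C.sys, hc2, C.t3_gen D hM, C.t3'_gen D hM⟩
  · intro i
    fin_cases i
    · exact C.a0_mem D hM C.sys
    · exact hmem
    · exact C.b0_mem D hM C.sys
  · intro i
    fin_cases i
    · exact C.a0_lt D hM
    · exact hlt
    · exact C.b0_lt D hM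
  · intro i
    fin_cases i
    · exact C.a0_ram D hM
    · exact hram
    · exact C.b0_ram D hM
  · intro i j hij
    fin_cases i <;> fin_cases j
    · exact absurd rfl hij
    · exact C.val1_a0 D hM
    · exact C.val2_a0 D hM
    · exact h0
    · exact absurd rfl hij
    · exact h2
    · exact C.val0_b0 D hM
    · exact C.val1_b0 D hM
    · exact absurd rfl hij

theorem exists_unif (h49 : Fermat.Agent.RED.aux C.q ∣ C.M) : ∃ ϖ : Fin 3 → C.F,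
    (∀ i, ϖ i ∈ intCl C.R C.t) ∧
    (∀ i, (C.O3 i).valuation (ϖ i) < 1) ∧
    (∀ i, (C.O3 i).valuation (C.q : C.F) ≤ (C.O3 i).valuation (ϖ i) ^ eVec C.q i) ∧
    (∀ i j, i ≠ j → (C.O3 j).valuation (ϖ i) = 1) ∧
    (∃ n : ℕ, (C.q : C.F) ^ n / ϖ 0 ∈ intCl C.R C.t) ∧
    (∃ n : ℕ, (C.q : C.F) ^ n / ϖ 2 ∈ intCl C.R C.t) ∧
    (∃ y ∈ intCl C.R C.t,
      (C.O3 1).valuation (ϖ 1 ^ (C.q - 1) * ϖ 0 * ϖ 2 / (C.q : C.F) * y - 1) < 1) ∧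
    (C.O3 0).valuation ((C.q : C.F) / (ϖ 0 * ϖ 2) - ϖ 2 ^ (C.q - 1)) < 1 ∧
    (C.O3 2).valuation ((C.q : C.F) / (ϖ 0 * ϖ 2) - ϖ 0 ^ (C.q - 1)) < 1 := by
  by_cases h2 : C.q = 2
  · have h9 : 9 ∣ C.M := by
      have : Fermat.Agent.RED.aux C.q = 9 := by rw [Fermat.Agent.RED.aux, if_pos h2]
      rwa [this] at h49
    exact C.exists_unif_aux wt1Nine h9 (wt1Nine.c0 C.A C.M C.q h9) (C.c0_mem wt1Nine h9 C.sys)
      (C.c0_lt wt1Nine h9) (C.c0_ram wt1Nine h9 h2) (C.val0_c0 wt1Nine h9) (C.val2_c0 wt1Nine h9)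
      (C.c2_of_eq wt1Nine h9 h2)
  · have h4 : 4 ∣ C.M := by
      have : Fermat.Agent.RED.aux C.q = 4 := by rw [Fermat.Agent.RED.aux, if_neg h2]
      rwa [this] at h49
    refine C.exists_unif_aux wt1Four h4 (C.varpi1 h4) (C.varpi1_mem h4 C.sys) (C.varpi1_lt h4)
      (C.varpi1_ram h4) (C.varpi1_zero h4) (C.varpi1_two h4)
      ⟨((-(wt1Four.χ (C.q : ℤ)) : ℤ) : C.F), intCast_mem _ _, ?_⟩
    exact C.c2_of h4 h2 _ _ (wt1Four.χ (C.q : ℤ)) (wt1Four.chi_sq _)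
      (wt1Four.embF0_a0 C.A C.M C.q h4) (wt1Four.embF0_b0 C.A C.M C.q h4)

end Ctx

end Fermat.Agent.S36
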