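import Fermat.Agent.S36.Mod.CuspTop
import Fermat.Agent.S36.Mod.Unif
import Fermat.Agent.S36.Mod.NormRed
import Fermat.Agent.S36.Mod.NormInt
import Fermat.Agent.S36.Abs.Steps

/-!
# S36 / modular part : the instantiation of `GeomDatum`, `NormDatum`, and `abs36` on it
-/

set_option autoImplicit false
set_option linter.unusedSectionVars false
noncomputable section

open ModularCurve AlgebraicCurve

namespace Fermat.Agent.S36

section Abs

open Polynomial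

variable {R : Type*} [CommRing R] [IsDomain R] [IsDiscreteValuationRing R]
  {K : Type*} [Field K] [Algebra R K] [IsFractionRing R K]
  {F : Type*} [Field F] [CharZero F] [Algebra R F] [Algebra K F] [IsScalarTower R K F]
  {π : R} {q : ℕ} {O : Fin 3 → ValuationSubring F} {e f : Fin 3 → ℕ} {j : Fin 3 → F}

theorem JTriple.sep' (J : JTriple R q O j) (hq : 2 ≤ q) (hπ : Irreducible π) {t : F}
    (ht : t = j 0 ^ (q ^ 2) - j 0) (S : GaussSys K π t O e f) (i l : Fin 3) (hil : i ≠ l) :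
    ∃ x ∈ intCl R t⁻¹, (O i).valuation x < 1 ∧ (O l).valuation (x - 1) < 1 := by
  subst ht
  exact J.sep hq hπ S i l hil

theorem JTriple.cusp' (J : JTriple R q O j) (hq : 2 ≤ q) (hπ : Irreducible π) {t : F}
    (ht : t = j 0 ^ (q ^ 2) - j 0) (S : GaussSys K π t O e f)
    (hz : (O 1).valuation ((1 - j 0 / j 2) ^ (q - 1) / algebraMap R F π) = 1)
    (hres : ∃ (s c : R[X]) (d : ℕ), s.natDegree ≤ d ∧ c.natDegree ≤ d ∧ IsUnit (s.coeff d) ∧
      IsUnit (c.coeff d) ∧ (O 1).valuation (aeval (j 0) s *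
        ((1 - j 0 / j 2) ^ (q - 1) / algebraMap R F π) - aeval (j 0) c) < 1)
    (𝔪 : Ideal (intCl R t⁻¹)) (h𝔪 : 𝔪.IsMaximal)
    (ht' : tinvB R t ∈ 𝔪) (h1 : (S.inv hπ).p 1 ≤ 𝔪) :
    ∃ ϖc : F, (O 1).valuation ϖc < 1 ∧ MemAt (intCl R t⁻¹) 𝔪 ϖc ∧
      UnitAt (intCl R t⁻¹) 𝔪 (ϖc ^ (q - 1) / algebraMap R F π) := by
  subst ht
  exact ⟨_, J.cusp hq hπ S hz hres 𝔪 h𝔪 ht' h1⟩

end Abs

namespace Ctx

variable (C : Ctx)

theorem sep (i l : Fin 3) (hil : i ≠ l) :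
    ∃ x ∈ intCl C.R C.t⁻¹, (C.O3 i).valuation x < 1 ∧ (C.O3 l).valuation (x - 1) < 1 := by
  have J := C.jTriple
  have S := C.sys
  have ht : C.t = C.j 0 ^ (C.q ^ 2) - C.j 0 := rfl
  exact JTriple.sep' (K := C.K) J C.hq.two_le C.irr ht S i l hil

theorem cusp (𝔪 : Ideal (intCl C.R C.t⁻¹)) (h𝔪 : 𝔪.IsMaximal) (ht' : tinvB C.R C.t ∈ 𝔪)
    (h1 : (C.sys.inv C.irr).p 1 ≤ 𝔪) :
    ∃ ϖc : C.F, (C.O3 1).valuation ϖc < 1 ∧ MemAt (intCl C.R C.t⁻¹) 𝔪 ϖc ∧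
      UnitAt (intCl C.R C.t⁻¹) 𝔪 (ϖc ^ (C.q - 1) / (C.q : C.F)) := by
  have J := C.jTriple
  have ht : C.t = C.j 0 ^ (C.q ^ 2) - C.j 0 := rfl
  obtain ⟨ϖc, a, b, c⟩ := JTriple.cusp' (K := C.K) J C.hq.two_le C.irr ht C.sys C.cusp_hz
    C.cusp_hres 𝔪 h𝔪 ht' h1
  refine ⟨ϖc, a, b, ?_⟩
  rwa [map_natCast] at c

/-- the uniformizers -/
def ϖ (h49 : Fermat.Agent.RED.aux C.q ∣ C.M) : Fin 3 → C.F := (C.exists_unif h49).choose

/-- **the geometric datum of `X₀(M q²)`** -/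
def geom (h49 : Fermat.Agent.RED.aux C.q ∣ C.M) : GeomDatum C.R C.K C.F where
  q := C.q
  hq := C.hq
  irr := C.irr
  t := C.t
  O := C.O3
  fdeg := C.fdeg
  sys := C.sys
  ϖ := C.ϖ h49
  ϖ_mem := (C.exists_unif h49).choose_spec.1
  ϖ_lt := (C.exists_unif h49).choose_spec.2.1
  ϖ_ram := (C.exists_unif h49).choose_spec.2.2.1
  ϖ_indep := (C.exists_unif h49).choose_spec.2.2.2.1
  inv₀ := (C.exists_unif h49).choose_spec.2.2.2.2.1
  inv₂ := (C.exists_unif h49).choose_spec.2.2.2.2.2.1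
  c2 := (C.exists_unif h49).choose_spec.2.2.2.2.2.2.1
  t3 := (C.exists_unif h49).choose_spec.2.2.2.2.2.2.2.1
  t3' := (C.exists_unif h49).choose_spec.2.2.2.2.2.2.2.2
  glob := C.glob
  ded₁ := C.ded₁ h49
  ded₂ := C.ded₂ h49
  sep := C.sep
  cusp := C.cusp

/-- **the norm datum** -/
def norm (h49 : Fermat.Agent.RED.aux C.q ∣ C.M) : NormDatum (C.geom h49) C.F' where
  O' := C.O2
  unif' := C.unif2
  const' := C.const2
  B' := intCl C.R C.j'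
  B'_root := fun _ hm => rootClosed_intCl C.R C.j' hm
  B'_const := fun r => algebraMap_mem_intCl C.R C.j' r
  α := C.α
  β := C.β
  α_mem := C.α_mem
  β_mem := C.β_mem
  comap_α := C.comap_α
  comap_β := C.comap_β
  Nα := C.Nα
  Nβ := C.Nβ
  Nα_const := C.Nα_const
  Nβ_const := C.Nβ_const
  Nα_mem := C.Nα_mem
  Nβ_mem := C.Nβ_mem
  approxα := C.approxα h49
  approxβ := C.approxβ h49
  redα₁ := C.redα₁
  redα₂ := C.redα₂
  redβ₁ := C.redβ₁
  redβ₂ := C.redβ₂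
  valα := fun u n hu => C.valα (C.ϖ h49) (C.geom h49).isUnif u n hu
  valβ := fun u n hu => C.valβ (C.ϖ h49) (C.geom h49).isUnif u n hu

end Ctx

end Fermat.Agent.S36
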