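import Fermat.Agent.S36.Mod.GV
import Fermat.Agent.S36.Abs.KrullDefs

/-!
# S36 / modular part : `[GV-SYS]` the fields `gauss` and `res` of `GaussSys` for a Gauss valuation
ring `gvO π hπ h` of an embedding `e : F → L((T))`

`R` a ring of constants with residue map `ρ : R → k` (kernel generated by `ϖR`), `s : F` with
`e s ∈ bigO π` and transcendental reduction.
-/

set_option autoImplicit false
noncomputable section

open ModularCurve Polynomial

namespace Fermat.Agent.S36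

open Fermat.Agent.RED.Gauss

variable {L : Type*} [Field L] {A : ValuationSubring L} {k : Type*} [Field k] {π : A →+* k}
  (hπ : IsResMap π) {F : Type*} [Field F] {e : F →+* LaurentSeries L} {lam : L}
  (h : IsDiscEmb A lam e)
  {R : Type*} [CommRing R] [Algebra R F] {ρ : R →+* k}
  (hc : ∀ r : R, ∃ a : A, e (algebraMap R F r) = HahnSeries.C (a : L) ∧ π a = ρ r)

include hc in
theorem gv_const_mem (r : R) : algebraMap R F r ∈ gvO π hπ h := by
  obtain ⟨a, ha, -⟩ := hc r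
  rw [mem_gvO, ha]
  exact gv_C_mem_bigO π a.2

theorem gvRed_const (r : R) :
    gvRed hπ h ⟨algebraMap R F r, gv_const_mem hπ h hc r⟩ = HahnSeries.C (ρ r) := by
  obtain ⟨a, ha, ha'⟩ := hc r
  rw [gvRed_apply, ← ha']
  have := gv_bigRed_C π a.2
  rw [← this]
  congr 1
  exact Subtype.ext ha

/-- the constants, as a ring homomorphism into the Gauss valuation ring. -/
def gvConst : R →+* gvO π hπ h where
  toFun r := ⟨algebraMap R F r, gv_const_mem hπ h hc r⟩
  map_one' := Subtype.ext (map_one _)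
  map_mul' _ _ := Subtype.ext (map_mul _ _ _)
  map_zero' := Subtype.ext (map_zero _)
  map_add' _ _ := Subtype.ext (map_add _ _ _)

theorem gvRed_comp_gvConst :
    (gvRed hπ h).comp (gvConst hπ h hc) = (algebraMap k (LaurentSeries k)).comp ρ := by
  ext1 r
  rw [RingHom.comp_apply, RingHom.comp_apply]
  have h1 : algebraMap k (LaurentSeries k) (ρ r) = HahnSeries.C (ρ r) := by
    have h2 : algebraMap k (PowerSeries k) (ρ r) = PowerSeries.C (ρ r) := by simp
    rw [HahnSeries.algebraMap_apply', h2, HahnSeries.ofPowerSeries_C]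
  rw [h1]
  exact gvRed_const hπ h hc r

variable {s : F} (hs : s ∈ gvO π hπ h)

theorem coe_eval₂_gvConst (p : R[X]) :
    ((eval₂ (gvConst hπ h hc) ⟨s, hs⟩ p : gvO π hπ h) : F) = aeval s p := by
  have := hom_eval₂ p (gvConst hπ h hc) (gvO π hπ h).subtype ⟨s, hs⟩
  rw [aeval_def]
  exact this

include hc hs in
theorem gv_aeval_mem (p : R[X]) : aeval s p ∈ gvO π hπ h := by
  rw [← coe_eval₂_gvConst hπ h hc hs p]
  exact SetLike.coe_mem _

theorem gvRed_aeval (p : R[X]) :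
    gvRed hπ h ⟨aeval s p, gv_aeval_mem hπ h hc hs p⟩ =
      aeval (gvRed hπ h ⟨s, hs⟩) (p.map ρ) := by
  have h1 : (⟨aeval s p, gv_aeval_mem hπ h hc hs p⟩ : gvO π hπ h) =
      eval₂ (gvConst hπ h hc) ⟨s, hs⟩ p := Subtype.ext (coe_eval₂_gvConst hπ h hc hs p).symm
  rw [h1, hom_eval₂, gvRed_comp_gvConst, aeval_def, eval₂_map]

theorem gv_valuation_lt_one_iff' {y : F} (hy : y ∈ gvO π hπ h) :
    (gvO π hπ h).valuation y < 1 ↔ gvRed hπ h ⟨y, hy⟩ = 0 := by
  rw [gv_valuation_lt_one_iff]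
  exact ⟨fun ⟨_, h2⟩ => h2, fun h2 => ⟨hy, h2⟩⟩

theorem gv_valuation_eq_one_iff' {y : F} (hy : y ∈ gvO π hπ h) :
    (gvO π hπ h).valuation y = 1 ↔ gvRed hπ h ⟨y, hy⟩ ≠ 0 := by
  rw [gv_valuation_eq_one_iff]
  exact ⟨fun ⟨_, h2⟩ => h2, fun h2 => ⟨hy, h2⟩⟩

variable {ϖR : R} (hker : ∀ r, ρ r = 0 → ϖR ∣ r) (hϖ : ρ ϖR = 0)

include hker in
theorem C_dvd_of_map_eq_zero {p : R[X]} (hp : p.map ρ = 0) : C ϖR ∣ p := by
  rw [C_dvd_iff_dvd_coeff]
  intro n
  apply hker
  rw [← coeff_map, hp, coeff_zero]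

include hc hker hϖ in
/-- **the field `gauss`** -/
theorem gv_isGaussAt (htr : Transcendental k (gvRed hπ h ⟨s, hs⟩)) :
    IsGaussAt ϖR s (gvO π hπ h) where
  const := gv_const_mem hπ h hc
  lt_one := by
    rw [gv_valuation_lt_one_iff' hπ h (gv_const_mem hπ h hc ϖR), gvRed_const hπ h hc, hϖ, map_zero]
  prim := by
    intro p hp
    rw [gv_valuation_eq_one_iff' hπ h (gv_aeval_mem hπ h hc hs p), gvRed_aeval hπ h hc hs]
    intro h0
    exact hp (C_dvd_of_map_eq_zero hker ((transcendental_iff.mp htr) _ h0))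

include hc hker in
/-- **the field `res`** -/
theorem gv_res {f : ℕ} (ω : Fin f → F) (hω : ∀ j, ω j ∈ gvO π hπ h)
    (hind : ∀ c : Fin f → k[X],
      ∑ j, aeval (gvRed hπ h ⟨s, hs⟩) (c j) * gvRed hπ h ⟨ω j, hω j⟩ = 0 → ∀ j, c j = 0)
    (c : Fin f → R[X])
    (hlt : (gvO π hπ h).valuation (∑ j, aeval s (c j) * ω j) < 1) : ∀ j, C ϖR ∣ c j := by
  have hmem : ∑ j, aeval s (c j) * ω j ∈ gvO π hπ h :=
    sum_mem fun j _ => mul_mem (gv_aeval_mem hπ h hc hs (c j)) (hω j)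
  rw [gv_valuation_lt_one_iff' hπ h hmem] at hlt
  have h1 : (⟨∑ j, aeval s (c j) * ω j, hmem⟩ : gvO π hπ h) =
      ∑ j, (⟨aeval s (c j), gv_aeval_mem hπ h hc hs (c j)⟩ : gvO π hπ h) * ⟨ω j, hω j⟩ := by
    apply Subtype.ext
    rw [AddSubmonoidClass.coe_finsetSum]
    rfl
  rw [h1, map_sum] at hlt
  have h2 := hind (fun j => (c j).map ρ) (by
    rw [← hlt]
    refine Finset.sum_congr rfl fun j _ => ?_
    rw [map_mul, gvRed_aeval hπ h hc hs])
  exact fun j => C_dvd_of_map_eq_zero hker (h2 j)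

end Fermat.Agent.S36
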