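import Fermat.Agent.S36.Mod.SysDisc
import Fermat.Agent.S36.Mod.GVSys
import Fermat.Agent.S36.F0.Gauss
import Fermat.Agent.SS.Z1.Level
import Fermat.Agent.RED.GalEq.Residue

/-!
# S36 / modular part : the relation "`x` reduces to `y`", reductions at level `M`
-/

set_option autoImplicit false
set_option linter.unusedSectionVars false
noncomputable section

open ModularCurve Polynomial

namespace Fermat.Agent.S36

open Fermat.Agent.S24 Fermat.Agent.RED.Gauss Fermat.Agent.GAL.AD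

section RedsTo

variable {L : Type*} [Field L] {A : ValuationSubring L} {k : Type*} [Field k]

/-- `x ∈ bigO π` and its reduction is `y`. -/
def RedsTo (π : A →+* k) (x : LaurentSeries L) (y : LaurentSeries k) : Prop :=
  ∃ hx : x ∈ bigO π, bigRed π ⟨x, hx⟩ = y

variable {π : A →+* k} {x x' : LaurentSeries L} {y y' : LaurentSeries k}

theorem RedsTo.add (h : RedsTo π x y) (h' : RedsTo π x' y') : RedsTo π (x + x') (y + y') := by
  obtain ⟨hx, rfl⟩ := h
  obtain ⟨hx', rfl⟩ := h'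
  refine ⟨add_mem hx hx', ?_⟩
  have : (⟨x + x', add_mem hx hx'⟩ : bigO π) = ⟨x, hx⟩ + ⟨x', hx'⟩ := rfl
  rw [this, map_add]

theorem RedsTo.sub (h : RedsTo π x y) (h' : RedsTo π x' y') : RedsTo π (x - x') (y - y') := by
  obtain ⟨hx, rfl⟩ := h
  obtain ⟨hx', rfl⟩ := h'
  refine ⟨sub_mem hx hx', ?_⟩
  have : (⟨x - x', sub_mem hx hx'⟩ : bigO π) = ⟨x, hx⟩ - ⟨x', hx'⟩ := rfl
  rw [this, map_sub]

theorem RedsTo.mul (h : RedsTo π x y) (h' : RedsTo π x' y') : RedsTo π (x * x') (y * y') := by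
  obtain ⟨hx, rfl⟩ := h
  obtain ⟨hx', rfl⟩ := h'
  refine ⟨mul_mem hx hx', ?_⟩
  have : (⟨x * x', mul_mem hx hx'⟩ : bigO π) = ⟨x, hx⟩ * ⟨x', hx'⟩ := rfl
  rw [this, map_mul]

theorem RedsTo.neg (h : RedsTo π x y) : RedsTo π (-x) (-y) := by
  obtain ⟨hx, rfl⟩ := h
  refine ⟨neg_mem hx, ?_⟩
  have : (⟨-x, neg_mem hx⟩ : bigO π) = -⟨x, hx⟩ := rfl
  rw [this, map_neg]

theorem RedsTo.pow (h : RedsTo π x y) (n : ℕ) : RedsTo π (x ^ n) (y ^ n) := by
  obtain ⟨hx, rfl⟩ := h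
  refine ⟨pow_mem hx n, ?_⟩
  have : (⟨x ^ n, pow_mem hx n⟩ : bigO π) = ⟨x, hx⟩ ^ n := rfl
  rw [this, map_pow]

theorem redsTo_one : RedsTo π (1 : LaurentSeries L) 1 := ⟨one_mem _, map_one (bigRed π)⟩

theorem redsTo_zero : RedsTo π (0 : LaurentSeries L) 0 := ⟨zero_mem _, map_zero (bigRed π)⟩

theorem RedsTo.inv (h : RedsTo π x y) (hy : y ≠ 0) : RedsTo π x⁻¹ y⁻¹ := by
  obtain ⟨hx, rfl⟩ := h
  exact ⟨gv_inv_mem_bigO π hx hy, gv_bigRed_inv π hx hy⟩

theorem RedsTo.unique (h : RedsTo π x y) (h' : RedsTo π x y') : y = y' := by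
  obtain ⟨hx, rfl⟩ := h
  obtain ⟨hx', rfl⟩ := h'
  rfl

theorem redsTo_iota (a : LaurentSeries A) : RedsTo π (iota A a) (pi π a) :=
  ⟨iota_mem_bigO π a, bigRed_iota π a⟩

theorem redsTo_C (c : A) : RedsTo π (HahnSeries.C (c : L)) (HahnSeries.C (π c)) :=
  ⟨gv_C_mem_bigO π c.2, gv_bigRed_C π c.2⟩

theorem RedsTo.map {L₂ : Type*} [Field L₂] {A₂ : ValuationSubring L₂} {k₂ : Type*} [Field k₂]
    {π₂ : A₂ →+* k₂} {ΦL : LaurentSeries L →+* LaurentSeries L₂}
    {ΦA : LaurentSeries A →+* LaurentSeries A₂} {Φk : LaurentSeries k →+* LaurentSeries k₂}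
    (hC : Compat π π₂ ΦL ΦA Φk) (h : RedsTo π x y) : RedsTo π₂ (ΦL x) (Φk y) := by
  obtain ⟨hx, rfl⟩ := h
  exact ⟨hC.mem_bigO hx, hC.bigRed_map ⟨x, hx⟩⟩

theorem RedsTo.qExpand (c : ℕ) [NeZero c] (h : RedsTo π x y) :
    RedsTo π (qExpand L c x) (qExpand k c y) := h.map (compat_qExpand π c)

theorem RedsTo.rot (ζ : Lˣ) (z : Aˣ) (hz : Units.map (A.subtype : A →* L) z = ζ) (h1 : π z = 1)
    (h : RedsTo π x y) : RedsTo π (S24.rot ζ x) y := by
  subst hz
  have := h.map (compat_rot π z h1)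
  rwa [S24.rotHom_apply, RingHom.id_apply] at this

variable (hπ : IsResMap π) {F : Type*} [Field F] {e : F →+* LaurentSeries L} {lam : L}
  (hd : IsDiscEmb A lam e)

include hπ hd in
theorem RedsTo.mem_gvO {f : F} (h : RedsTo π (e f) y) : f ∈ gvO π hπ hd := h.1

theorem RedsTo.gvRed_eq {f : F} (h : RedsTo π (e f) y) (hf : f ∈ gvO π hπ hd) :
    gvRed hπ hd ⟨f, hf⟩ = y := h.2

theorem RedsTo.valuation_lt_one {f : F} (h : RedsTo π (e f) 0) :
    (gvO π hπ hd).valuation f < 1 := (gv_valuation_lt_one_iff hπ hd).2 h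

theorem RedsTo.valuation_eq_one {f : F} (h : RedsTo π (e f) y) (hy : y ≠ 0) :
    (gvO π hπ hd).valuation f = 1 :=
  (gv_valuation_eq_one_iff hπ hd).2 ⟨h.1, by rw [h.2]; exact hy⟩

end RedsTo

section LevelM

variable (A : ValuationSubring Kb)

local notation "π" => IsLocalRing.residue A
local notation "k" => IsLocalRing.ResidueField A

theorem cK_jK (N d : ℕ) [NeZero N] [NeZero d] (hd : d ∣ N) :
    cK A ((jK (KK A) N d hd : FK (KK A) N) : LaurentSeries (KK A)) = jqNModC Kb d := by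
  rw [coe_jK, cK, ModularCurve.coeffMap_jqNModC]

theorem redsTo_jqNModC (d : ℕ) [NeZero d] : RedsTo π (jqNModC Kb d) (jqNModC k d) := by
  have : RedsTo π (iota A (jqNModC A d)) (pi π (jqNModC A d)) := redsTo_iota _
  rwa [iota, pi, ModularCurve.coeffMap_jqNModC, ModularCurve.coeffMap_jqNModC] at this

theorem redsTo_cK_of_bigO {x : LaurentSeries (KK A)} (hx : x ∈ bigO (pi0 A)) :
    RedsTo π (cK A x) (bigRed (pi0 A) ⟨x, hx⟩) := ⟨cK_mem_bigO hx, bigRed_cK A hx⟩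

variable {q : ℕ} [Fact q.Prime] (hA : A.LiesOverPrime q) (M : ℕ) [NeZero M] (hqM : ¬ q ∣ M)

include hA hqM in
/-- every element of the residue function field lifts to `F0 A M`. -/
theorem exists_lift_F0 (b : modularFunctionFieldFullC k M) :
    ∃ u : F0 A M, RedsTo π (cK A (u : LaurentSeries (KK A))) (b : LaurentSeries k) := by
  obtain ⟨y, hy⟩ := (gaussData0 A M hA hqM).red_surjective b
  refine ⟨y, ?_⟩
  have h1 := redsTo_cK_of_bigO A ((mem_gaussData0_O A M hA hqM _).1 y.2)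
  have h2 := coe_gaussData0_red A M hA hqM y
  rw [hy] at h2
  rw [h2]
  exact h1

/-! ### constants -/

include hA in
theorem pi0_natCast_eq_zero : pi0 A ((q : ℕ) : RK A) = 0 := by
  rw [map_natCast]
  have := Fermat.Agent.RED.GalEq.charP_residueField (Fact.out : q.Prime) hA
  exact CharP.cast_eq_zero _ q

include hA in
theorem dvd_of_pi0_eq_zero (r : RK A) (hr : pi0 A r = 0) : ((q : ℕ) : RK A) ∣ r := by
  have hq : q.Prime := Fact.out
  have := isDiscreteValuationRing_RK hq hA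
  have hirr := irreducible_natCast_RK hq hA
  have h1 : r ∈ IsLocalRing.maximalIdeal (RK A) := by
    rw [IsLocalRing.mem_maximalIdeal, mem_nonunits_iff]
    intro hu
    have := hu.map (pi0 A)
    rw [hr] at this
    exact not_isUnit_zero this
  rw [hirr.maximalIdeal_eq, Ideal.mem_span_singleton] at h1
  exact h1

/-- the hypothesis `hc` of `[GV-SYS]` -/
theorem hc_of_const {F : Type*} [Field F] [Algebra (KK A) F] [Algebra (RK A) F]
    [IsScalarTower (RK A) (KK A) F] (e : F →+* LaurentSeries Kb)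
    (he : ∀ c : KK A, e (algebraMap (KK A) F c) = HahnSeries.C (algebraMap (KK A) Kb c))
    (r : RK A) : ∃ a : A, e (algebraMap (RK A) F r) = HahnSeries.C (a : Kb) ∧ π a = pi0 A r :=
  ⟨inclRK A r, by rw [IsScalarTower.algebraMap_apply (RK A) (KK A) F, he]; rfl, rfl⟩

end LevelM

end Fermat.Agent.S36
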