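import Fermat.Agent.S36.Mod.GV
import Fermat.Agent.S28.Tri
import Fermat.Agent.RED.Gauss.Compat
import Fermat.Agent.RED.ES.Formal
import Fermat.Agent.S24.Rot

/-!
# S36 / modular part : fractions of series with coefficients in a subfield; `IsDiscEmb` criterion;
rotations and the Gauss ring
-/

set_option autoImplicit false
noncomputable section

open ModularCurve

namespace Fermat.Agent.S36

open Fermat.Agent.RED.Gauss

section Frac

variable {L : Type*} [Field L] (A : ValuationSubring L) (L₁ : Subfield L)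

/-- series over `A` with coefficients in `L₁` -/
def serS : Subring (LaurentSeries A) :=
  (coeffMap (L₁.toSubring.comap A.subtype).subtype).range

variable {A L₁}

theorem mem_serS {a : LaurentSeries A} : a ∈ serS A L₁ ↔ ∀ n, ((a.coeff n : A) : L) ∈ L₁ :=
  S28.mem_range_coeffMap_subtype _ a

variable (A L₁)

/-- fractions of series over `A` with coefficients in `L₁` -/
def fracS : Subfield (LaurentSeries L) where
  carrier := {x | ∃ a ∈ serS A L₁, ∃ b ∈ serS A L₁, b ≠ 0 ∧ x * iota A b = iota A a}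
  mul_mem' := by
    rintro x y ⟨a, ha, b, hb, hb0, h⟩ ⟨a', ha', b', hb', hb0', h'⟩
    refine ⟨a * a', mul_mem ha ha', b * b', mul_mem hb hb', mul_ne_zero hb0 hb0', ?_⟩
    rw [map_mul, map_mul, ← h, ← h']; ring
  one_mem' := ⟨1, one_mem _, 1, one_mem _, one_ne_zero, by simp⟩
  add_mem' := by
    rintro x y ⟨a, ha, b, hb, hb0, h⟩ ⟨a', ha', b', hb', hb0', h'⟩
    refine ⟨a * b' + a' * b, add_mem (mul_mem ha hb') (mul_mem ha' hb), b * b', mul_mem hb hb',
      mul_ne_zero hb0 hb0', ?_⟩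
    rw [map_mul, map_add, map_mul, map_mul, ← h, ← h']; ring
  zero_mem' := ⟨0, zero_mem _, 1, one_mem _, one_ne_zero, by simp⟩
  neg_mem' := by
    rintro x ⟨a, ha, b, hb, hb0, h⟩
    exact ⟨-a, neg_mem ha, b, hb, hb0, by rw [map_neg, ← h]; ring⟩
  inv_mem' := by
    rintro x ⟨a, ha, b, hb, hb0, h⟩
    rcases eq_or_ne x 0 with rfl | hx
    · exact ⟨0, zero_mem _, 1, one_mem _, one_ne_zero, by simp⟩
    · have ha0 : a ≠ 0 := by
        rintro rfl
        rw [map_zero] at h
        rcases mul_eq_zero.1 h with h1 | h1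
        · exact hx h1
        · exact hb0 (iota_injective A (by rw [h1, map_zero]))
      exact ⟨b, hb, a, ha, ha0, by rw [← h, inv_mul_cancel_left₀ hx]⟩

variable {A L₁}

theorem mem_fracS {x : LaurentSeries L} : x ∈ fracS A L₁ ↔
    ∃ a ∈ serS A L₁, ∃ b ∈ serS A L₁, b ≠ 0 ∧ x * iota A b = iota A a := Iff.rfl

theorem iota_mem_fracS {a : LaurentSeries A} (ha : a ∈ serS A L₁) : iota A a ∈ fracS A L₁ :=
  ⟨a, ha, 1, one_mem _, one_ne_zero, by simp⟩

theorem C_mem_serS {c : A} (hc : (c : L) ∈ L₁) : (HahnSeries.C c : LaurentSeries A) ∈ serS A L₁ := by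
  rw [mem_serS]
  intro n
  rw [HahnSeries.C_apply, HahnSeries.coeff_single]
  split_ifs
  · exact hc
  · exact L₁.zero_mem

theorem C_mem_fracS {c : L} (hc : c ∈ L₁) : (HahnSeries.C c : LaurentSeries L) ∈ fracS A L₁ := by
  rcases A.mem_or_inv_mem c with h | h
  · have := iota_mem_fracS (A := A) (L₁ := L₁) (C_mem_serS (c := ⟨c, h⟩) hc)
    rwa [← gv_C_eq_iota] at this
  · have := (fracS A L₁).inv_mem
      (iota_mem_fracS (A := A) (L₁ := L₁) (C_mem_serS (c := ⟨c⁻¹, h⟩) (L₁.inv_mem hc)))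
    rw [← gv_C_eq_iota] at this
    have e : ((HahnSeries.C (c⁻¹) : LaurentSeries L))⁻¹ = HahnSeries.C c := by
      rw [← map_inv₀, inv_inv]
    rwa [e] at this

/-- **criterion for `IsDiscEmb`** -/
theorem isDiscEmb_of_fracS {lam : L} (hlt : A.valuation lam < 1) (hne : lam ≠ 0)
    (hdisc : ∀ x : L, x ≠ 0 → x ∈ L₁ → A.valuation x ≤ 1 →
      ∃ n : ℕ, A.valuation x = A.valuation lam ^ n)
    {F : Type*} [Field F] (e : F →+* LaurentSeries L) (he : ∀ y, e y ∈ fracS A L₁) :
    IsDiscEmb A lam e where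
  lam_lt := hlt
  lam_ne := hne
  frac := by
    have key : ∀ a ∈ serS A L₁, DiscS A lam a := by
      intro a ha n
      by_cases h0 : a.coeff n = 0
      · exact Or.inl h0
      · right
        exact hdisc _ (fun h => h0 (Subtype.ext h)) (mem_serS.1 ha n)
          ((ValuationSubring.valuation_le_one_iff _ _).2 (a.coeff n).2)
    intro y
    obtain ⟨a, ha, b, hb, hb0, h⟩ := he y
    exact ⟨a, b, hb0, key a ha, key b hb, h⟩

end Frac

section Rot

variable {L : Type*} [Field L] {A : ValuationSubring L} {k : Type*} [Field k] (π : A →+* k)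

theorem rot_eq_rotR_sys (ζ : Lˣ) (x : LaurentSeries L) : S24.rot ζ x = RED.ES.rotR ζ x := by
  ext n; rfl

/-- the rotation by a unit `≡ 1` is compatible with the reduction -/
theorem compat_rot (ζ : Aˣ) (hζ : π ζ = 1) :
    Compat π π (S24.rotHom (Units.map (A.subtype : A →* L) ζ)) (RED.ES.rotR ζ) (RingHom.id _) := by
  constructor
  · intro a
    rw [S24.rotHom_apply, rot_eq_rotR_sys]
    exact (RED.ES.coeffMap_rotR A.subtype ζ a).symm
  · intro a
    have h1 : Units.map (π : A →* k) ζ = 1 := Units.ext hζ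
    rw [RingHom.id_apply, pi, RED.ES.coeffMap_rotR, h1, RED.ES.rotR_one_left]

theorem rotR_mem_serS {L₁ : Subfield L} (ζ : Aˣ) (hζ : ((ζ : A) : L) ∈ L₁) {a : LaurentSeries A}
    (ha : a ∈ serS A L₁) : RED.ES.rotR ζ a ∈ serS A L₁ := by
  rw [mem_serS] at ha ⊢
  intro n
  rw [RED.ES.rotR_coeff]
  have h1 : ((((ζ ^ n : Aˣ) : A)) : L) = (((ζ : A) : L)) ^ n := by
    have h2 : ((Units.map (A.subtype : A →* L) (ζ ^ n) : Lˣ) : L)
        = ((Units.map (A.subtype : A →* L) ζ ^ n : Lˣ) : L) := by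
      rw [map_zpow]
    rw [Units.val_zpow_eq_zpow_val] at h2
    exact h2
  show ((((ζ ^ n : Aˣ) : A)) : L) * ((a.coeff n : A) : L) ∈ L₁
  rw [h1]
  exact L₁.mul_mem (L₁.zpow_mem hζ n) (ha n)

end Rot

end Fermat.Agent.S36
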