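import Fermat.Agent.S36.Mod.JTrip
import Fermat.Agent.S36.Haupt.CuspMod

/-!
# S36 / modular part : the two hypotheses `hz`, `hres` of `JTriple.cusp`  (WP M-H2 `[CUSP-MOD]`, helper75)
-/

set_option autoImplicit false
noncomputable section

open Polynomial

namespace Fermat.Agent.S36

namespace Ctx

variable (C : Ctx)

theorem cusp_hz : (C.O3 1).valuation
    ((1 - C.j 0 / C.j 2) ^ (C.q - 1) / algebraMap C.R C.F ((C.q : ℕ) : C.R)) = 1 := C.hz

theorem cusp_hres : ∃ (s c : C.R[X]) (d : ℕ), s.natDegree ≤ d ∧ c.natDegree ≤ d ∧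
    IsUnit (s.coeff d) ∧ IsUnit (c.coeff d) ∧ (C.O3 1).valuation (aeval (C.j 0) s *
      ((1 - C.j 0 / C.j 2) ^ (C.q - 1) / algebraMap C.R C.F ((C.q : ℕ) : C.R)) -
        aeval (C.j 0) c) < 1 := C.hres

end Ctx

end Fermat.Agent.S36
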