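import Fermat.Agent.S36.Mod.F0Defs
import Fermat.Agent.RED.Desc.BMap
import Fermat.Agent.RED.RB.CharZero
import Fermat.Agent.S24.Degree
import Fermat.Agent.S20.CombPsi

/-!
# S36 / modular part : `[DEG]` the degree of `F0 A N` over `KK(y)`

* `finrank_adjoin_alpha`, `finrank_adjoin_beta` : if `[FN N : Kb(y)] = ψ(N)` then
  `[FN (N c) : Kb(α y)] = [FN (N c) : Kb(β y)] = ψ(N c)`; so `[FN (M q q) : Kb(j(q^i τ))] = ψ(M q q)`.
* `finrank_adjoin_le_baseChange` : linear disjointness, `[F : K(y)] ≤ [F' : C(Θ y)]` for fields of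
  Laurent series and `Θ` = extension of the coefficients.
* `finrank_F0_le` : `[F0 A N : KK(y)] ≤ ψ(N)` as soon as `[FN N : Kb(embF0 y)] = ψ(N)`.
-/

set_option autoImplicit false
noncomputable section

open ModularCurve IntermediateField
open scoped IntermediateField.algebraAdjoinAdjoin
open Fermat.Agent.S24 Fermat.Agent.RED.Desc

namespace Fermat.Agent.S36

section Step

variable (N c : ℕ) [NeZero N] [NeZero c]

/-- one step of the tower along `β`. -/
theorem finrank_adjoin_beta {y : FN N} (hy : Module.finrank Kb⟮y⟯ (FN N) = Nat.card (XN N)) :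
    Module.finrank Kb⟮heckeBetaBar Kb N c y⟯ (FN (N * c)) = Nat.card (XN (N * c)) := by
  have h1 : (Kb⟮y⟯).map (heckeBetaBar Kb N c) = Kb⟮heckeBetaBar Kb N c y⟯ := by
    rw [IntermediateField.adjoin_map, Set.image_singleton]
  have h2 : (⊤ : IntermediateField Kb (FN N)).map (heckeBetaBar Kb N c) =
      (heckeBetaBar Kb N c).fieldRange := (AlgHom.fieldRange_eq_map _).symm
  have h3 := IntermediateField.relfinrank_map_map (Kb⟮y⟯) ⊤ (heckeBetaBar Kb N c)
  rw [h1, h2, IntermediateField.relfinrank_top_right, hy] at h3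
  have hle : Kb⟮heckeBetaBar Kb N c y⟯ ≤ (heckeBetaBar Kb N c).fieldRange := by
    rw [← h1, ← h2]
    exact IntermediateField.map_mono _ le_top
  have h4 := IntermediateField.relfinrank_mul_finrank_top hle
  rw [h3, card_mul_finrank_beta] at h4
  exact h4.symm

theorem finrank_adjoin_alpha {y : FN N} (hy : Module.finrank Kb⟮y⟯ (FN N) = Nat.card (XN N)) :
    Module.finrank Kb⟮heckeAlphaBar Kb N c y⟯ (FN (N * c)) = Nat.card (XN (N * c)) := by
  have h1 : (Kb⟮y⟯).map (heckeAlphaBar Kb N c) = Kb⟮heckeAlphaBar Kb N c y⟯ := by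
    rw [IntermediateField.adjoin_map, Set.image_singleton]
  have h2 : (⊤ : IntermediateField Kb (FN N)).map (heckeAlphaBar Kb N c) =
      (heckeAlphaBar Kb N c).fieldRange := (AlgHom.fieldRange_eq_map _).symm
  have h3 := IntermediateField.relfinrank_map_map (Kb⟮y⟯) ⊤ (heckeAlphaBar Kb N c)
  rw [h1, h2, IntermediateField.relfinrank_top_right, hy] at h3
  have hle : Kb⟮heckeAlphaBar Kb N c y⟯ ≤ (heckeAlphaBar Kb N c).fieldRange := by
    rw [← h1, ← h2]
    exact IntermediateField.map_mono _ le_top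
  have h4 := IntermediateField.relfinrank_mul_finrank_top hle
  rw [h3, card_mul_finrank_alpha] at h4
  exact h4.symm

end Step

section Descent

variable {K C : Type*} [Field K] [Field C] (ι : K →+* C)
  {F : Type*} [Field F] [Algebra K F] (emb : F →ₐ[K] LaurentSeries K)
  {F' : Type*} [Field F'] [Algebra C F'] (emb' : F' →ₐ[C] LaurentSeries C)
  (Θ : F →+* F') (hΘ : ∀ x, emb' (Θ x) = coeffMap ι (emb x))

include hΘ in
/-- `K(y)`-linearly independent elements of `F` stay linearly independent over `C(Θ y)`. -/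
theorem linearIndependent_baseChange (y : F) (hy : Transcendental K y) {m : ℕ} (f : Fin m → F)
    (hf : LinearIndependent K⟮y⟯ f) : LinearIndependent C⟮Θ y⟯ (fun i => Θ (f i)) := by
  rw [← LinearIndependent.iff_fractionRing (Algebra.adjoin C {Θ y}) C⟮Θ y⟯]
  rw [Fintype.linearIndependent_iff]
  intro g hg
  have hg' : ∀ i, ∃ p : Polynomial C, Polynomial.aeval (Θ y) p = (g i : F') := by
    intro i
    have h : ∀ z : F', z ∈ Algebra.adjoin C {Θ y} → ∃ p : Polynomial C,
        Polynomial.aeval (Θ y) p = z := by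
      intro z hz
      rw [Algebra.adjoin_singleton_eq_range_aeval] at hz
      exact hz
    exact h _ (g i).2
  choose p hp using hg'
  have h1 : ∑ i, Polynomial.aeval (Θ y) (p i) * Θ (f i) = 0 := by
    rw [← hg]
    refine Finset.sum_congr rfl fun i _ => ?_
    rw [hp i]
    rfl
  have h1' : ∑ i, Polynomial.aeval (coeffMap ι (emb y)) (p i) * coeffMap ι (emb (f i)) = 0 := by
    have := congrArg emb' h1
    rw [map_zero, map_sum] at this
    rw [← this]
    refine Finset.sum_congr rfl fun i _ => ?_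
    rw [map_mul, ← Polynomial.aeval_algHom_apply, hΘ, hΘ]
  have h2 := poly_relation_descent ι emb y hy f hf p h1'
  intro i
  apply Subtype.ext
  rw [← hp i, h2]
  simp

include hΘ in
theorem finrank_adjoin_le_baseChange (y : F) (hy : Transcendental K y)
    [FiniteDimensional C⟮Θ y⟯ F'] :
    FiniteDimensional K⟮y⟯ F ∧ Module.finrank K⟮y⟯ F ≤ Module.finrank C⟮Θ y⟯ F' := by
  classical
  have hbound : ∀ (m : ℕ) (f : Fin m → F), LinearIndependent K⟮y⟯ f →
      m ≤ Module.finrank C⟮Θ y⟯ F' := by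
    intro m f hf
    have h1 := linearIndependent_baseChange ι emb emb' Θ hΘ y hy f hf
    have h3 := h1.fintype_card_le_finrank
    rwa [Fintype.card_fin] at h3
  have hrank : Module.rank K⟮y⟯ F ≤ (Module.finrank C⟮Θ y⟯ F' : ℕ) := by
    apply rank_le
    intro t ht
    have h1 : LinearIndependent K⟮y⟯ (fun i : Fin t.card => ((t.equivFin.symm i : t) : F)) :=
      ht.comp _ t.equivFin.symm.injective
    exact hbound _ _ h1
  have hfd : FiniteDimensional K⟮y⟯ F := by
    rw [FiniteDimensional, ← Module.rank_lt_aleph0_iff]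
    exact lt_of_le_of_lt hrank (Cardinal.natCast_lt_aleph0)
  exact ⟨hfd, Module.finrank_le_of_rank_le hrank⟩

end Descent

section Generic

variable {K C : Type*} [Field K] [Field C] (ι : K →+* C)
  {F : Type*} [Field F] [Algebra K F] (emb : F →ₐ[K] LaurentSeries K)
  {F' : Type*} [Field F'] [Algebra C F'] (emb' : F' →ₐ[C] LaurentSeries C)
  (Θ : F →+* F') (hΘ : ∀ x, emb' (Θ x) = coeffMap ι (emb x))
  (hΘc : ∀ c : K, Θ (algebraMap K F c) = algebraMap C F' (ι c))

theorem transcendental_of_finrank_ne_zero {y' x' : F'} (hx' : Transcendental C x')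
    (h : Module.finrank C⟮y'⟯ F' ≠ 0) : Transcendental C y' := by
  intro halg
  have h1 : FiniteDimensional C⟮y'⟯ F' := Module.finite_of_finrank_pos (Nat.pos_of_ne_zero h)
  have h2 : FiniteDimensional C C⟮y'⟯ :=
    IntermediateField.adjoin.finiteDimensional halg.isIntegral
  have h3 : FiniteDimensional C F' := FiniteDimensional.trans C C⟮y'⟯ F'
  exact hx' (Algebra.IsAlgebraic.isAlgebraic x')

include hΘc in
theorem baseChange_aeval (y : F) (p : Polynomial K) :
    Θ (Polynomial.aeval y p) = Polynomial.aeval (Θ y) (p.map ι) := by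
  rw [Polynomial.aeval_def, Polynomial.hom_eval₂, Polynomial.aeval_def, Polynomial.eval₂_map]
  congr 1
  ext1 c
  exact hΘc c

include hΘc in
theorem transcendental_of_baseChange {y : F} (h : Transcendental C (Θ y)) :
    Transcendental K y := by
  rintro ⟨p, hp0, hp⟩
  refine h ⟨p.map ι, ?_, ?_⟩
  · rwa [Ne, Polynomial.map_eq_zero]
  · rw [← baseChange_aeval ι Θ hΘc, hp, map_zero]

include hΘ hΘc in
theorem finrank_adjoin_le_of_eq (y : F) {x' : F'} (hx' : Transcendental C x') {d : ℕ}
    (hd : d ≠ 0) (hy : Module.finrank C⟮Θ y⟯ F' = d) :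
    FiniteDimensional K⟮y⟯ F ∧ Module.finrank K⟮y⟯ F ≤ d := by
  have h0 : Module.finrank C⟮Θ y⟯ F' ≠ 0 := by rw [hy]; exact hd
  have h1 : FiniteDimensional C⟮Θ y⟯ F' := Module.finite_of_finrank_pos (Nat.pos_of_ne_zero h0)
  have htr := transcendental_of_baseChange ι Θ hΘc (transcendental_of_finrank_ne_zero hx' h0)
  have := finrank_adjoin_le_baseChange ι emb emb' Θ hΘ y htr
  rwa [hy] at this

end Generic

section F0

variable {A : ValuationSubring Kb} {N : ℕ} [NeZero N]

/-- **[DEG]** -/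
theorem finrank_F0_le (y : F0 A N)
    (hy : Module.finrank Kb⟮embF0 A N y⟯ (FN N) = Nat.card (XN N)) :
    FiniteDimensional (KK A)⟮y⟯ (F0 A N) ∧
      Module.finrank (KK A)⟮y⟯ (F0 A N) ≤ dedekindPsi N := by
  have hpos : Nat.card (XN N) ≠ 0 := Nat.card_pos.ne'
  have := finrank_adjoin_le_of_eq (algebraMap (KK A) Kb)
    (laurentBaseChange (KK A) (modularFunctionFieldFull N)).val
    (modularFunctionFieldBar N).val (embF0 A N) (fun x => coe_embF0 A N x)
    (embF0_algebraMap A N) y (Fermat.Agent.RED.RB.isFiniteParam_jF N).transcendental hpos hy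
  rw [card_XN_eq] at this
  exact this

end F0

theorem dedekindPsi_mul_sq {M q : ℕ} (hM : M ≠ 0) (hq : q.Prime) (hqM : ¬ q ∣ M) :
    dedekindPsi (M * q * q) = q * (q + 1) * dedekindPsi M := by
  rw [Fermat.Agent.S20.dedekindPsi_mul_prime_of_dvd (Nat.mul_ne_zero hM hq.ne_zero) hq
    (dvd_mul_left q M), Fermat.Agent.S20.dedekindPsi_mul_prime_of_not_dvd hM hq hqM, mul_assoc]

section Level

variable (A : ValuationSubring Kb) (M q : ℕ) [NeZero M] [NeZero q]

/-- `[FN M : Kb(j)] = ψ(M)`, the start of the towers. -/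
theorem finrank_adjoin_jF' : Module.finrank Kb⟮jF M⟯ (FN M) = Nat.card (XN M) :=
  finrank_adjoin_jF M

/-- **[DEG]** at level `M q q`, for `y = j(q^i τ)` given as a word in `α`, `β`:
`φ₁ ∈ {α, β}` from level `M` to `M q`, `φ₂ ∈ {α, β}` from level `M q` to `M q q`. -/
theorem finrank_F0_level_le (hq : q.Prime) (hqM : ¬ q ∣ M) (y : F0 A (M * q * q))
    (hy : embF0 A (M * q * q) y = heckeAlphaBar Kb (M * q) q (heckeAlphaBar Kb M q (jF M)) ∨
      embF0 A (M * q * q) y = heckeBetaBar Kb (M * q) q (heckeAlphaBar Kb M q (jF M)) ∨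
      embF0 A (M * q * q) y = heckeAlphaBar Kb (M * q) q (heckeBetaBar Kb M q (jF M)) ∨
      embF0 A (M * q * q) y = heckeBetaBar Kb (M * q) q (heckeBetaBar Kb M q (jF M))) :
    FiniteDimensional (KK A)⟮y⟯ (F0 A (M * q * q)) ∧
      Module.finrank (KK A)⟮y⟯ (F0 A (M * q * q)) ≤ q * (q + 1) * dedekindPsi M := by
  rw [← dedekindPsi_mul_sq (NeZero.ne M) hq hqM]
  apply finrank_F0_le
  rcases hy with h | h | h | h <;> rw [h]
  · exact finrank_adjoin_alpha _ _ (finrank_adjoin_alpha _ _ (finrank_adjoin_jF M))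
  · exact finrank_adjoin_beta _ _ (finrank_adjoin_alpha _ _ (finrank_adjoin_jF M))
  · exact finrank_adjoin_alpha _ _ (finrank_adjoin_beta _ _ (finrank_adjoin_jF M))
  · exact finrank_adjoin_beta _ _ (finrank_adjoin_beta _ _ (finrank_adjoin_jF M))

end Level

end Fermat.Agent.S36
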