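import Fermat.Agent.S36.Mod.SysTop
import Fermat.Agent.S36.Abs.SepCusp
import Fermat.Agent.S36.Theta.IntDesc
import Fermat.Agent.SS.Mod.CuspOrdB

/-!
# S36 / modular part : `[JTRIP]`, the integrality half

The seven fields `int01 int10 int12 int21 inf01 inf12 inf21` of `JTriple C.R C.q C.O3 C.j`.

The modular equation at level `M q` over `ℚbar` (`SS.CuspB.exists_relation`,
`integral_of_relation`, and the swap) is transported by `α`, `β` to the level `M q²`, descended to `K`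
(`isIntegral_of_embF0`), and `GaussSys.mem_intCl_of_isIntegral` for `C.sys_j l`, `(C.sys_j l).inv`
concludes (`v_i (j l) = 1` for all `i`, `l`).
-/

set_option autoImplicit false
noncomputable section

open Polynomial ModularCurve

namespace Fermat.Agent.S36

open Fermat.Agent.S24 Fermat.Agent.SS

/-- from `IsIntegralElem (aeval x)` to integrality over `K[x]` -/
theorem isIntegral_adjoin_of_isIntegralElem {K F : Type*} [Field K] [Field F] [Algebra K F]
    {x y : F} (h : (aeval x : K[X] →ₐ[K] F).toRingHom.IsIntegralElem y) :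
    IsIntegral (Algebra.adjoin K {x}) y := by
  obtain ⟨p, hp, hpy⟩ := h
  let φ : K[X] →ₐ[K] Algebra.adjoin K {x} :=
    aeval (⟨x, Algebra.self_mem_adjoin_singleton K x⟩ : Algebra.adjoin K {x})
  refine ⟨p.map (φ : K[X] →+* Algebra.adjoin K {x}), hp.map _, ?_⟩
  rw [eval₂_map]
  have hc : (algebraMap (Algebra.adjoin K {x}) F).comp (φ : K[X] →+* Algebra.adjoin K {x}) =
      (aeval x : K[X] →ₐ[K] F).toRingHom := by
    refine RingHom.ext fun r => ?_
    show ((Algebra.adjoin K {x}).val (φ r) : F) = aeval x r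
    rw [← aeval_algHom_apply]
    rfl
  rw [hc]
  exact hpy

section Level

variable (M q : ℕ) [NeZero M] [hq : Fact q.Prime] (hqM : ¬ q ∣ M)

theorem jF_ne_zero' : jF (M * q) ≠ 0 := by
  intro h0
  exact (Fermat.Agent.RED.RB.isSepParam_jF (M * q)).transcendental (h0 ▸ isAlgebraic_zero)

include hqM in
theorem jF'_ne_zero' : jF' M q ≠ 0 := by
  intro h0
  apply jF_ne_zero' M q
  rw [← swAlg_jF' hqM, h0, map_zero]

/-- the four integrality statements at level `M q` -/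
theorem intI1 : (aeval (jF (M * q)) : Kb[X] →ₐ[Kb] FN (M * q)).toRingHom.IsIntegralElem
    (jF' M q) := by
  obtain ⟨n, P, hdeg, hrel⟩ := CuspB.exists_relation M q
  exact (CuspB.integral_of_relation (jF_ne_zero' M q) q n P hdeg hrel).1

theorem intI2 : (aeval (jF (M * q))⁻¹ : Kb[X] →ₐ[Kb] FN (M * q)).toRingHom.IsIntegralElem
    (jF' M q * (jF (M * q))⁻¹ ^ q) := by
  obtain ⟨n, P, hdeg, hrel⟩ := CuspB.exists_relation M q
  exact (CuspB.integral_of_relation (jF_ne_zero' M q) q n P hdeg hrel).2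

include hqM in
theorem intJ1 : (aeval (jF' M q) : Kb[X] →ₐ[Kb] FN (M * q)).toRingHom.IsIntegralElem
    (jF (M * q)) := by
  have J1 := isIntegralElem_map (swAlg M q hqM) (intI1 M q)
  rwa [swAlg_jF, swAlg_jF'] at J1

include hqM in
theorem intJ2 : (aeval (jF' M q)⁻¹ : Kb[X] →ₐ[Kb] FN (M * q)).toRingHom.IsIntegralElem
    (jF (M * q) * (jF' M q)⁻¹ ^ q) := by
  have J2 := isIntegralElem_map (swAlg M q hqM) (intI2 M q)
  rwa [map_inv₀, map_mul, map_pow, map_inv₀, swAlg_jF, swAlg_jF'] at J2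

end Level

namespace Ctx

variable (C : Ctx)

theorem embF0_jM_jt : embF0 C.A C.M C.jM = jF C.M := by
  apply Subtype.ext
  rw [coe_embF0]
  show cK C.A (coeffEmb C.K (qExpand ℚ 1 jq)) = coeffEmb Kb (qExpand ℚ 1 jq)
  ext n
  show algebraMap C.K Kb (algebraMap ℚ C.K _) = algebraMap ℚ Kb _
  simp

theorem embF0_j0 : embF0 C.A _ (C.j 0) =
    heckeAlphaBar Kb (C.M * C.q) C.q (jF (C.M * C.q)) := by
  show embF0 C.A _ (C.α (C.α' C.jM)) = _
  rw [embF0_alpha, embF0_alpha, embF0_jM_jt, alpha_jF]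

theorem embF0_j1 : embF0 C.A _ (C.j 1) =
    heckeAlphaBar Kb (C.M * C.q) C.q (jF' C.M C.q) := by
  show embF0 C.A _ (C.α (C.β' C.jM)) = _
  rw [embF0_alpha, embF0_beta, embF0_jM_jt]
  rfl

theorem embF0_j1' : embF0 C.A _ (C.j 1) =
    heckeBetaBar Kb (C.M * C.q) C.q (jF (C.M * C.q)) := by
  rw [embF0_j1]
  apply Subtype.ext
  rw [coe_heckeAlphaBar, coe_heckeBetaBar, jF', coe_heckeBetaBar, ← alpha_jF, coe_heckeAlphaBar]

theorem embF0_j2 : embF0 C.A _ (C.j 2) =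
    heckeBetaBar Kb (C.M * C.q) C.q (jF' C.M C.q) := by
  show embF0 C.A _ (C.β (C.β' C.jM)) = _
  rw [embF0_beta, embF0_beta, embF0_jM_jt]
  rfl

theorem val_j (i l : Fin 3) : (C.O3 i).valuation (C.j l) = 1 :=
  GaussAux.val_t C.irr ((C.sys_j l).gauss i)

theorem j_mem_O3 (i l : Fin 3) : C.j l ∈ C.O3 i :=
  ((C.O3 i).valuation_le_one_iff _).1 (C.val_j i l).le

theorem div_mem_O3 (i l l' : Fin 3) : C.j l / C.j l' ^ C.q ∈ C.O3 i := by
  refine ((C.O3 i).valuation_le_one_iff _).1 ?_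
  rw [map_div₀, map_pow, C.val_j, C.val_j, one_pow, div_one]

/-- the general principle, finite chart -/
theorem mem_intCl_j (l : Fin 3) {y : C.F} (hy : ∀ i, y ∈ C.O3 i)
    (h : (aeval (embF0 C.A _ (C.j l)) :
      Kb[X] →ₐ[Kb] FN (C.M * C.q * C.q)).toRingHom.IsIntegralElem (embF0 C.A _ y)) :
    y ∈ intCl C.R (C.j l) :=
  (C.sys_j l).mem_intCl_of_isIntegral C.irr hy
    (isIntegral_of_embF0 C.A _ _ _ (isIntegral_adjoin_of_isIntegralElem h))

/-- the general principle, chart at infinity -/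
theorem mem_intCl_j_inv (l : Fin 3) {y : C.F} (hy : ∀ i, y ∈ C.O3 i)
    (h : (aeval (embF0 C.A _ (C.j l))⁻¹ :
      Kb[X] →ₐ[Kb] FN (C.M * C.q * C.q)).toRingHom.IsIntegralElem (embF0 C.A _ y)) :
    y ∈ intCl C.R (C.j l)⁻¹ :=
  ((C.sys_j l).inv C.irr).mem_intCl_of_isIntegral C.irr hy
    (isIntegral_of_embF0 C.A _ _ _ (isIntegral_adjoin_of_isIntegralElem (by rwa [map_inv₀])))

theorem int01 : C.j 1 ∈ intCl C.R (C.j 0) := by
  refine C.mem_intCl_j 0 (fun i => C.j_mem_O3 i 1) ?_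
  rw [embF0_j0, embF0_j1]
  exact isIntegralElem_map _ (intI1 C.M C.q)

theorem int10 : C.j 0 ∈ intCl C.R (C.j 1) := by
  refine C.mem_intCl_j 1 (fun i => C.j_mem_O3 i 0) ?_
  rw [embF0_j0, embF0_j1]
  exact isIntegralElem_map _ (intJ1 C.M C.q C.hqM)

theorem int12 : C.j 2 ∈ intCl C.R (C.j 1) := by
  refine C.mem_intCl_j 1 (fun i => C.j_mem_O3 i 2) ?_
  rw [embF0_j1', embF0_j2]
  exact isIntegralElem_map _ (intI1 C.M C.q)

theorem int21 : C.j 1 ∈ intCl C.R (C.j 2) := by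
  refine C.mem_intCl_j 2 (fun i => C.j_mem_O3 i 1) ?_
  rw [embF0_j1', embF0_j2]
  exact isIntegralElem_map _ (intJ1 C.M C.q C.hqM)

theorem inf01 : C.j 1 / C.j 0 ^ C.q ∈ intCl C.R (C.j 0)⁻¹ := by
  refine C.mem_intCl_j_inv 0 (fun i => C.div_mem_O3 i 1 0) ?_
  have h := isIntegralElem_map (heckeAlphaBar Kb (C.M * C.q) C.q) (intI2 C.M C.q)
  rw [map_inv₀, map_mul, map_pow, map_inv₀] at h
  rwa [map_div₀, map_pow, embF0_j0, embF0_j1, div_eq_mul_inv, ← inv_pow]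

theorem inf12 : C.j 2 / C.j 1 ^ C.q ∈ intCl C.R (C.j 1)⁻¹ := by
  refine C.mem_intCl_j_inv 1 (fun i => C.div_mem_O3 i 2 1) ?_
  have h := isIntegralElem_map (heckeBetaBar Kb (C.M * C.q) C.q) (intI2 C.M C.q)
  rw [map_inv₀, map_mul, map_pow, map_inv₀] at h
  rwa [map_div₀, map_pow, embF0_j1', embF0_j2, div_eq_mul_inv, ← inv_pow]

theorem inf21 : C.j 1 / C.j 2 ^ C.q ∈ intCl C.R (C.j 2)⁻¹ := by
  refine C.mem_intCl_j_inv 2 (fun i => C.div_mem_O3 i 1 2) ?_
  have h := isIntegralElem_map (heckeBetaBar Kb (C.M * C.q) C.q) (intJ2 C.M C.q C.hqM)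
  rw [map_inv₀, map_mul, map_pow, map_inv₀] at h
  rwa [map_div₀, map_pow, embF0_j1', embF0_j2, div_eq_mul_inv, ← inv_pow]

end Ctx

end Fermat.Agent.S36
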