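import Fermat.Agent.S36.Mod.Objects
import Fermat.Agent.S36.Kum.Level
import Fermat.Agent.S36.Kum.Emb
import Fermat.Agent.GAL.HeckeInputs
import Fermat.Agent.RED.TorsESAbs

/-!
# S36 / modular part : `[NORM-DEG]` the degeneracy maps `α, β : C.F' → C.F` have degree `q`; the norms

Proof.  `Kum.bc_alpha`, `Kum.bc_beta` (`S36/Kum/Emb.lean`: `FiniteAlong`, `finrankAlong` over any subfield of `ℚbar` = the
ones over `ℚbar`), `GAL.HeckeComm.finrankAlong_alpha_of_dvd` (`q ∣ M q`), `Kum.finrankAlong_beta_eq_alpha'`.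
(`KK A` is definitionally `↥(K0 A)`; use `ι := algebraMap (KK A) Kb`.)
-/

set_option autoImplicit false
set_option linter.unusedSectionVars false
set_option linter.style.haveILetI false
noncomputable section

open ModularCurve AlgebraicCurve

namespace Fermat.Agent.S36

open Fermat.Agent.S24

namespace Ctx

variable (C : Ctx)

theorem isAlgebraic_range_KK (c : Kb) : IsAlgebraic ((algebraMap C.K Kb).range) c := by
  have h1 : IsAlgebraic ℚ c := Algebra.IsAlgebraic.isAlgebraic c
  have h2 : IsAlgebraic ℤ c := (IsFractionRing.isAlgebraic_iff ℤ ℚ Kb).mpr h1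
  exact h2.extendScalars (fun a b hab => by
    have := congrArg (Subtype.val) hab
    simpa using this)

theorem finite_α : FiniteAlong C.K C.α :=
  (Kum.bc_alpha (algebraMap C.K Kb) (C.M * C.q) C.q C.isAlgebraic_range_KK
    (GAL.HeckeInputs.finiteAlong_alpha (C.M * C.q) C.q)).1

theorem finite_β : FiniteAlong C.K C.β :=
  (Kum.bc_beta (algebraMap C.K Kb) (C.M * C.q) C.q C.isAlgebraic_range_KK
    (GAL.HeckeInputs.finiteAlong_beta (C.M * C.q) C.q)).1

theorem finrank_α : finrankAlong C.K C.α = C.q := by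
  rw [(Kum.bc_alpha (algebraMap C.K Kb) (C.M * C.q) C.q C.isAlgebraic_range_KK
    (GAL.HeckeInputs.finiteAlong_alpha (C.M * C.q) C.q)).2.1]
  exact GAL.HeckeComm.finrankAlong_alpha_of_dvd (C.M * C.q) C.q C.hq (dvd_mul_left _ _)

theorem finrank_β : finrankAlong C.K C.β = C.q := by
  rw [(Kum.bc_beta (algebraMap C.K Kb) (C.M * C.q) C.q C.isAlgebraic_range_KK
    (GAL.HeckeInputs.finiteAlong_beta (C.M * C.q) C.q)).2.1,
    Kum.finrankAlong_beta_eq_alpha' (C.M * C.q) C.q C.hq]
  exact GAL.HeckeComm.finrankAlong_alpha_of_dvd (C.M * C.q) C.q C.hq (dvd_mul_left _ _)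

/-- the norm along `α` -/
def Nα : C.F →* C.F' :=
  letI := algebraAlong C.α
  Algebra.norm C.F'

/-- the norm along `β` -/
def Nβ : C.F →* C.F' :=
  letI := algebraAlong C.β
  Algebra.norm C.F'

theorem Nα_apply (x : C.F) : C.Nα x = Fermat.Agent.RED.TorsES.normAlong C.α x := rfl

theorem Nβ_apply (x : C.F) : C.Nβ x = Fermat.Agent.RED.TorsES.normAlong C.β x := rfl

theorem Nα_const (c : C.K) : C.Nα (algebraMap C.K C.F c) = algebraMap C.K C.F' c ^ C.q := by
  letI := algebraAlong C.α
  have h : algebraMap C.K C.F c = algebraMap C.F' C.F (algebraMap C.K C.F' c) :=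
    (C.α.commutes c).symm
  rw [h]
  have := Algebra.norm_algebraMap (S := C.F) (algebraMap C.K C.F' c)
  rw [show Module.finrank C.F' C.F = C.q from C.finrank_α] at this
  exact this

theorem Nβ_const (c : C.K) : C.Nβ (algebraMap C.K C.F c) = algebraMap C.K C.F' c ^ C.q := by
  letI := algebraAlong C.β
  have h : algebraMap C.K C.F c = algebraMap C.F' C.F (algebraMap C.K C.F' c) :=
    (C.β.commutes c).symm
  rw [h]
  have := Algebra.norm_algebraMap (S := C.F) (algebraMap C.K C.F' c)
  rw [show Module.finrank C.F' C.F = C.q from C.finrank_β] at this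
  exact this

end Ctx

end Fermat.Agent.S36
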