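import Fermat.Agent.S36.Mod.NormExtB

/-!
# S36 / modular part : `[NORM-EXT]`, the `α` half (helper75, second source)

`Ctx.unif1_aux`, `Ctx.extα₀_aux`, `Ctx.extα₁_aux` : the statements of `Mod/NormExt.lean`.
-/

set_option autoImplicit false
set_option linter.unusedSectionVars false
set_option linter.style.haveILetI false
noncomputable section

open ModularCurve AlgebraicCurve

namespace Fermat.Agent.S36

open Fermat.Agent.RED.Gauss Fermat.Agent.S24

namespace Ctx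

variable (C : Ctx)

theorem unif1_aux : IsUnif C.O1 (C.q : C.FM) := by
  apply gv_isUnif C.hπ C.disc1
  rw [map_natCast, ← map_natCast (HahnSeries.C : Kb →+* LaurentSeries Kb)]
  refine ⟨1, (bigO C.π).one_mem, ?_, by simp⟩
  have : (⟨1, (bigO C.π).one_mem⟩ : bigO C.π) = 1 := rfl
  rw [this, map_one]
  exact one_ne_zero

/-- independence of `1, j₂, …, j₂^(q-1)` over `α (F')` modulo the maximal ideal of `O3 2`. -/
theorem nx_res_α₁ (c : Fin C.q → C.F') (hc : ∀ κ, c κ ∈ C.O2 1)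
    (h : (C.O3 2).valuation (∑ κ, C.α (c κ) * C.j 2 ^ (κ : ℕ)) < 1) (κ : Fin C.q) :
    (C.O2 1).valuation (c κ) < 1 := by
  have hj : RedsTo C.π (C.e3 2 (C.j 2)) (jqModC C.k) := by
    have := C.redsTo_e3_j 2 2
    simpa [nT] using this
  have h1 : RedsTo C.π (C.e3 2 (∑ κ, C.α (c κ) * C.j 2 ^ (κ : ℕ)))
      (∑ κ : Fin C.q, qExpand C.k C.q (C.red2 1 ⟨c κ, hc κ⟩) * jqModC C.k ^ (κ : ℕ)) := by
    rw [map_sum]
    apply redsTo_finset_sum
    intro κ _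
    rw [map_mul, map_pow, e3_two_α]
    exact ((C.fm_redsTo_red2 1 ⟨c κ, hc κ⟩).qExpand C.q).mul (hj.pow _)
  have h2 : RedsTo C.π (C.e3 2 (∑ κ, C.α (c κ) * C.j 2 ^ (κ : ℕ))) 0 :=
    (gv_valuation_lt_one_iff C.hπ (C.disc3 2)).1 h
  have h3 := RED.Desc.eq_zero_of_sum_qExpand_mul_pow C.q (jqModC C.k)
    (RED.Desc.order_jqModC' C.k) _ (h1.unique h2) κ
  exact (gv_valuation_lt_one_iff C.hπ (C.disc2 1)).2 ⟨hc κ, h3⟩

theorem nx_j_two_mem : C.j 2 ∈ C.O3 2 := (C.redsTo_e3_j 2 2).1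

theorem nx_ram_one_α (i : Fin 3) : letI := algebraAlong C.α
    ∃ ϖ : C.F, (C.O3 i).valuation ϖ < 1 ∧
      (C.O3 i).valuation (algebraMap C.F' C.F (C.q : C.F')) ≤ (C.O3 i).valuation ϖ ^ 1 := by
  letI := algebraAlong C.α
  refine ⟨(C.q : C.F), C.nx_val3_q_lt i, ?_⟩
  rw [pow_one, map_natCast]

theorem nx_ram_mid_α : letI := algebraAlong C.α
    ∃ ϖ : C.F, (C.O3 1).valuation ϖ < 1 ∧
      (C.O3 1).valuation (algebraMap C.F' C.F (C.q : C.F')) ≤ (C.O3 1).valuation ϖ ^ (C.q - 1) := by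
  letI := algebraAlong C.α
  obtain ⟨ϖ, h1, h2⟩ := (C.sys_j 0).ram 1
  refine ⟨ϖ, h1, ?_⟩
  rw [map_natCast] at h2
  rw [map_natCast]
  exact h2

theorem extα₀_aux : letI := algebraAlong C.α
    ExtSys (C.O2 0) (C.q : C.F') ![C.O3 0, C.O3 1] ![1, C.q - 1] ![1, 1] := by
  letI := algebraAlong C.α
  refine extSys_two (C.unif2_aux 0) (fun h => absurd (C.sys.inj h) (by decide)) (C.comap_α 0)
    (C.comap_α 1) (C.nx_ram_one_α 0) C.nx_ram_mid_α ?_
  have h : Module.finrank C.F' C.F = C.q := C.finrank_α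
  have := C.hq.one_lt
  omega

theorem extα₁_aux : letI := algebraAlong C.α
    ExtSys (C.O2 1) (C.q : C.F') (fun _ : Fin 1 => C.O3 2) (fun _ => 1) (fun _ => C.q) := by
  letI := algebraAlong C.α
  refine extSys_single (C.unif2_aux 1) (C.comap_α 2) (C.nx_ram_one_α 2) ?_ ?_
  · exact ⟨fun κ => C.j 2 ^ (κ : ℕ), fun κ => pow_mem C.nx_j_two_mem _,
      fun c hc h κ => C.nx_res_α₁ c hc h κ⟩
  · rw [one_mul]
    exact C.finrank_α.le

end Ctx

end Fermat.Agent.S36
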