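import Fermat.Agent.S36.Mod.NormDeg
import Fermat.Agent.S36.Mod.Formulas
import Fermat.Agent.S36.Mod.SysTop
import Fermat.Agent.S36.Abs.ExtDefs
import Fermat.Agent.S36.Mod.NormExtA

/-!
# S36 / modular part : `[NORM-EXT]` the four complete systems of extensions along `α` and `β`

* along `α` : above `O2 0` : `O3 0` (`e = f = 1`), `O3 1` (`e = q - 1`, `f = 1`); above `O2 1` : `O3 2` (`e = 1`, `f = q`);
* along `β` : above `O2 0` : `O3 0` (`e = 1`, `f = q`); above `O2 1` : `O3 1` (`e = q - 1`, `f = 1`), `O3 2` (`e = f = 1`).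

Fields of `ExtSys`:
* `unif` : `C.unif2` (`gv_isUnif`: `e2 j q = C q * 1` is a `NormalForm` with exponent `1`, `lam = q`);
* `inj` : `C.sys.inj`;  `comap` : `C.comap_α`, `C.comap_β`;
* `ram` : `e = 1` : `ϖ = q`;  `e = q - 1` : `(C.sys_j 0).ram 1` (`eVec q 1 = q - 1`; `algebraMap R F q = q = α q`);
* `res`, `f = 1` : `ω = 1` and `comap`;
* `res`, `f = q` (say `α`, `O3 2`) : `ω k = (C.j 2) ^ k`.  If `v (∑ α (c k) (j 2)^k) < 1` then, applying `red3 2`
  (`red3_two_α`): `∑ V (cbar k) jbar ^ k = 0` in `k((T))`, `V = qExpand k q`.  The nonzero terms have pairwise distinct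
  orders (`≡ - k mod q`, `k < q`, since `jbar` has order `-1`), so all `cbar k = 0`.  For `β`, `O3 0` : `ω k = (C.j 0) ^ k`.
* `sum` : `C.finrank_α`, `C.finrank_β` (`1 * 1 + (q - 1) * 1 = q`).
-/

set_option autoImplicit false
set_option linter.unusedSectionVars false
set_option linter.style.haveILetI false
noncomputable section

open ModularCurve AlgebraicCurve

namespace Fermat.Agent.S36

namespace Ctx

variable (C : Ctx)

theorem unif1 : IsUnif C.O1 (C.q : C.FM) := C.unif1_aux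

theorem unif2 (j : Fin 2) : IsUnif (C.O2 j) (C.q : C.F') := C.unif2_aux j

theorem extα₀ : letI := algebraAlong C.α
    ExtSys (C.O2 0) (C.q : C.F') ![C.O3 0, C.O3 1] ![1, C.q - 1] ![1, 1] := C.extα₀_aux

theorem extα₁ : letI := algebraAlong C.α
    ExtSys (C.O2 1) (C.q : C.F') (fun _ : Fin 1 => C.O3 2) (fun _ => 1) (fun _ => C.q) :=
  C.extα₁_aux

theorem extβ₀ : letI := algebraAlong C.β
    ExtSys (C.O2 0) (C.q : C.F') (fun _ : Fin 1 => C.O3 0) (fun _ => 1) (fun _ => C.q) :=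
  C.extβ₀_aux

theorem extβ₁ : letI := algebraAlong C.β
    ExtSys (C.O2 1) (C.q : C.F') ![C.O3 1, C.O3 2] ![C.q - 1, 1] ![1, 1] := C.extβ₁_aux

end Ctx

end Fermat.Agent.S36
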