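import Fermat.Agent.S36.Mod.NormDeg
import Fermat.Agent.S36.Mod.Formulas
import Fermat.Agent.S36.Mod.SysTop
import Fermat.Agent.S36.Mod.SysExp
import Fermat.Agent.S36.Abs.ExtDefs
import Fermat.Agent.RED.Desc.Series

/-!
# S36 / modular part : `[NORM-EXT]`, the `β` half (helper75)

`Ctx.extβ₀_aux`, `Ctx.extβ₁_aux` : the statements of `Ctx.extβ₀`, `Ctx.extβ₁` of `Mod/NormExt.lean`.
-/

set_option autoImplicit false
set_option linter.unusedSectionVars false
set_option linter.style.haveILetI false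
noncomputable section

open ModularCurve AlgebraicCurve

namespace Fermat.Agent.S36

open Fermat.Agent.RED.Gauss Fermat.Agent.S24

theorem redsTo_finset_sum {L : Type*} [Field L] {A : ValuationSubring L} {k : Type*} [Field k]
    {π : A →+* k} {ι : Type*} (s : Finset ι) (x : ι → LaurentSeries L) (y : ι → LaurentSeries k)
    (h : ∀ i ∈ s, RedsTo π (x i) (y i)) : RedsTo π (∑ i ∈ s, x i) (∑ i ∈ s, y i) := by
  classical
  induction s using Finset.induction_on with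
  | empty => simpa using redsTo_zero
  | insert a s ha ih =>
    rw [Finset.sum_insert ha, Finset.sum_insert ha]
    exact (h a (Finset.mem_insert_self a s)).add
      (ih fun i hi => h i (Finset.mem_insert_of_mem hi))

section Abs

variable {F' F : Type*} [Field F'] [Field F] [Algebra F' F] {O' : ValuationSubring F'} {ϖ' : F'}

/-- the field `res` when the residue degree is one. -/
theorem extSys_res_one {O : ValuationSubring F} (hc : O.comap (algebraMap F' F) = O') {n : ℕ}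
    (hn : n = 1) : ∃ ω : Fin n → F, (∀ k, ω k ∈ O) ∧ ∀ c : Fin n → F', (∀ k, c k ∈ O') →
      O.valuation (∑ k, algebraMap F' F (c k) * ω k) < 1 → ∀ k, O'.valuation (c k) < 1 := by
  subst hn
  refine ⟨fun _ => 1, fun _ => O.one_mem, ?_⟩
  intro c _ h k
  rw [Fin.sum_univ_one, mul_one] at h
  rw [Subsingleton.elim k 0, ← hc, GaussAux.comap_lt_one]
  exact h

/-- two extensions with residue degree one. -/
theorem extSys_two {Oa Ob : ValuationSubring F} {ea eb : ℕ} (hu : IsUnif O' ϖ') (hne : Oa ≠ Ob)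
    (ca : Oa.comap (algebraMap F' F) = O') (cb : Ob.comap (algebraMap F' F) = O')
    (ra : ∃ ϖ : F, Oa.valuation ϖ < 1 ∧ Oa.valuation (algebraMap F' F ϖ') ≤ Oa.valuation ϖ ^ ea)
    (rb : ∃ ϖ : F, Ob.valuation ϖ < 1 ∧ Ob.valuation (algebraMap F' F ϖ') ≤ Ob.valuation ϖ ^ eb)
    (hsum : Module.finrank F' F ≤ ea + eb) : ExtSys O' ϖ' ![Oa, Ob] ![ea, eb] ![1, 1] where
  unif := hu
  inj := by
    intro a b hab
    fin_cases a <;> fin_cases b
    · rfl
    · exact absurd hab hne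
    · exact absurd hab.symm hne
    · rfl
  comap := Fin.forall_fin_two.2 ⟨ca, cb⟩
  ram := Fin.forall_fin_two.2 ⟨ra, rb⟩
  res := Fin.forall_fin_two.2 ⟨extSys_res_one ca rfl, extSys_res_one cb rfl⟩
  sum := by
    rw [Fin.sum_univ_two]
    simpa using hsum

/-- one extension. -/
theorem extSys_single {O : ValuationSubring F} {e f : ℕ} (hu : IsUnif O' ϖ')
    (hc : O.comap (algebraMap F' F) = O')
    (hr : ∃ ϖ : F, O.valuation ϖ < 1 ∧ O.valuation (algebraMap F' F ϖ') ≤ O.valuation ϖ ^ e)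
    (hres : ∃ ω : Fin f → F, (∀ k, ω k ∈ O) ∧ ∀ c : Fin f → F', (∀ k, c k ∈ O') →
      O.valuation (∑ k, algebraMap F' F (c k) * ω k) < 1 → ∀ k, O'.valuation (c k) < 1)
    (hsum : Module.finrank F' F ≤ e * f) :
    ExtSys O' ϖ' (fun _ : Fin 1 => O) (fun _ => e) (fun _ => f) where
  unif := hu
  inj := fun _ _ _ => Subsingleton.elim _ _
  comap := fun _ => hc
  ram := fun _ => hr
  res := fun _ => hres
  sum := by simpa using hsum

end Abs

namespace Ctx

variable (C : Ctx)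

theorem nx_e2_natCast (j : Fin 2) (n : ℕ) : C.e2 j (n : C.F') = HahnSeries.C (n : Kb) := by
  rw [map_natCast, map_natCast]

theorem nx_e3_natCast (i : Fin 3) (n : ℕ) : C.e3 i (n : C.F) = HahnSeries.C (n : Kb) := by
  rw [map_natCast, map_natCast]

theorem unif2_aux (j : Fin 2) : IsUnif (C.O2 j) (C.q : C.F') := by
  apply gv_isUnif C.hπ (C.disc2 j)
  rw [nx_e2_natCast]
  refine ⟨1, (bigO C.π).one_mem, ?_, by simp⟩
  have : (⟨1, (bigO C.π).one_mem⟩ : bigO C.π) = 1 := rfl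
  rw [this, map_one]
  exact one_ne_zero

theorem nx_val_q_lt : C.A.valuation (C.q : Kb) < 1 := valuation_natCast_lt_one C.hA

theorem nx_redsTo_q : RedsTo C.π (HahnSeries.C (C.q : Kb)) 0 := by
  have hq : (C.q : Kb) ∈ C.A := (ValuationSubring.valuation_le_one_iff _ _).1 C.nx_val_q_lt.le
  have h := redsTo_C (π := C.π) (⟨(C.q : Kb), hq⟩ : C.A)
  have h0 : C.π ⟨(C.q : Kb), hq⟩ = 0 := (C.hπ.ker _).2 C.nx_val_q_lt
  rw [h0, map_zero] at h
  exact h

theorem nx_val3_q_lt (i : Fin 3) : (C.O3 i).valuation (C.q : C.F) < 1 := by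
  apply RedsTo.valuation_lt_one C.hπ (C.disc3 i)
  rw [nx_e3_natCast]
  exact C.nx_redsTo_q

theorem nx_lt_of_β {i : Fin 3} {j : Fin 2} (hij : idxβ i = j) {x : C.F'}
    (h : (C.O3 i).valuation (C.β x) < 1) : (C.O2 j).valuation x < 1 := by
  rw [← hij, ← C.comap_β i, GaussAux.comap_lt_one]
  exact h

/-- independence of `1, j₀, …, j₀^(q-1)` over `β (F')` modulo the maximal ideal of `O3 0`. -/
theorem nx_res_β₀ (c : Fin C.q → C.F') (hc : ∀ κ, c κ ∈ C.O2 0)
    (h : (C.O3 0).valuation (∑ κ, C.β (c κ) * C.j 0 ^ (κ : ℕ)) < 1) (κ : Fin C.q) :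
    (C.O2 0).valuation (c κ) < 1 := by
  have hj : RedsTo C.π (C.e3 0 (C.j 0)) (jqModC C.k) := by
    have := C.redsTo_e3_j 0 0
    simpa [nT] using this
  have h1 : RedsTo C.π (C.e3 0 (∑ κ, C.β (c κ) * C.j 0 ^ (κ : ℕ)))
      (∑ κ : Fin C.q, qExpand C.k C.q (C.red2 0 ⟨c κ, hc κ⟩) * jqModC C.k ^ (κ : ℕ)) := by
    rw [map_sum]
    apply redsTo_finset_sum
    intro κ _
    rw [map_mul, map_pow, e3_zero_β]
    exact ((C.fm_redsTo_red2 0 ⟨c κ, hc κ⟩).qExpand C.q).mul (hj.pow _)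
  have h2 : RedsTo C.π (C.e3 0 (∑ κ, C.β (c κ) * C.j 0 ^ (κ : ℕ))) 0 :=
    (gv_valuation_lt_one_iff C.hπ (C.disc3 0)).1 h
  have h3 := RED.Desc.eq_zero_of_sum_qExpand_mul_pow C.q (jqModC C.k)
    (RED.Desc.order_jqModC' C.k) _ (h1.unique h2) κ
  exact (gv_valuation_lt_one_iff C.hπ (C.disc2 0)).2 ⟨hc κ, h3⟩

theorem nx_j_zero_mem : C.j 0 ∈ C.O3 0 := (C.redsTo_e3_j 0 0).1

theorem nx_ram_one (i : Fin 3) : letI := algebraAlong C.β
    ∃ ϖ : C.F, (C.O3 i).valuation ϖ < 1 ∧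
      (C.O3 i).valuation (algebraMap C.F' C.F (C.q : C.F')) ≤ (C.O3 i).valuation ϖ ^ 1 := by
  letI := algebraAlong C.β
  refine ⟨(C.q : C.F), C.nx_val3_q_lt i, ?_⟩
  rw [pow_one, map_natCast]

theorem nx_ram_mid : letI := algebraAlong C.β
    ∃ ϖ : C.F, (C.O3 1).valuation ϖ < 1 ∧
      (C.O3 1).valuation (algebraMap C.F' C.F (C.q : C.F')) ≤ (C.O3 1).valuation ϖ ^ (C.q - 1) := by
  letI := algebraAlong C.β
  obtain ⟨ϖ, h1, h2⟩ := (C.sys_j 0).ram 1
  refine ⟨ϖ, h1, ?_⟩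
  rw [map_natCast] at h2
  rw [map_natCast]
  exact h2

theorem extβ₀_aux : letI := algebraAlong C.β
    ExtSys (C.O2 0) (C.q : C.F') (fun _ : Fin 1 => C.O3 0) (fun _ => 1) (fun _ => C.q) := by
  letI := algebraAlong C.β
  refine extSys_single (C.unif2_aux 0) (C.comap_β 0) (C.nx_ram_one 0) ?_ ?_
  · exact ⟨fun κ => C.j 0 ^ (κ : ℕ), fun κ => pow_mem C.nx_j_zero_mem _,
      fun c hc h κ => C.nx_res_β₀ c hc h κ⟩
  · rw [one_mul]
    exact C.finrank_β.le

theorem extβ₁_aux : letI := algebraAlong C.β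
    ExtSys (C.O2 1) (C.q : C.F') ![C.O3 1, C.O3 2] ![C.q - 1, 1] ![1, 1] := by
  letI := algebraAlong C.β
  refine extSys_two (C.unif2_aux 1) (fun h => absurd (C.sys.inj h) (by decide)) (C.comap_β 1)
    (C.comap_β 2) C.nx_ram_mid (C.nx_ram_one 2) ?_
  have h : Module.finrank C.F' C.F = C.q := C.finrank_β
  have := C.hq.one_lt
  omega

end Ctx

end Fermat.Agent.S36
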