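import Mathlib
import Fermat.Prelude.Def_ModularCurve_X0

/-!
# S36 / modular part (helper31): independence of `1, J, …, J^(q-1)` over the series in `T^q`
(`J` of order `-1`): the orders of the terms are pairwise distinct modulo `q`.
-/

set_option autoImplicit false
noncomputable section

open ModularCurve

namespace Fermat.Agent.S36

/-- a finite sum of nonzero series with pairwise distinct orders is nonzero. -/
theorem sum_ne_zero_of_order_injOn {k ι : Type*} [Field k] (s : Finset ι) (hs : s.Nonempty)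
    (x : ι → LaurentSeries k) (hx : ∀ i ∈ s, x i ≠ 0)
    (hinj : ∀ i ∈ s, ∀ j ∈ s, (x i).order = (x j).order → i = j) : ∑ i ∈ s, x i ≠ 0 := by
  classical
  obtain ⟨i₀, hi₀, hmin⟩ := s.exists_min_image (fun i => (x i).order) hs
  intro h0
  have h1 := congrArg (fun z : LaurentSeries k => z.coeff (x i₀).order) h0
  simp only [HahnSeries.coeff_zero] at h1
  rw [HahnSeries.coeff_sum, Finset.sum_eq_single i₀] at h1
  · exact hx i₀ hi₀ (HahnSeries.coeff_order_eq_zero.mp h1)
  · intro j hj hne
    apply HahnSeries.coeff_eq_zero_of_lt_order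
    exact lt_of_le_of_ne (hmin j hj) fun h => hne (hinj j hj i₀ hi₀ h.symm)
  · intro h; exact absurd hi₀ h

theorem order_qExpand_oq {k : Type*} [Field k] (M : ℕ) [NeZero M] (f : LaurentSeries k) :
    (qExpand k M f).order = (M : ℤ) * f.order := by
  by_cases hf : f = 0
  · subst hf; simp
  have hM : (0 : ℤ) < M := by exact_mod_cast Nat.pos_of_ne_zero (NeZero.ne M)
  have h1 : (qExpand k M f).coeff ((M : ℤ) * f.order) ≠ 0 := by
    rw [qExpand_coeff_mul]
    exact fun h => hf (HahnSeries.coeff_order_eq_zero.mp h)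
  apply le_antisymm (HahnSeries.order_le_of_coeff_ne_zero h1)
  have hne : qExpand k M f ≠ 0 := HahnSeries.ne_zero_of_coeff_ne_zero h1
  have h2 : (qExpand k M f).coeff (qExpand k M f).order ≠ 0 :=
    fun h => hne (HahnSeries.coeff_order_eq_zero.mp h)
  by_cases hd : (M : ℤ) ∣ (qExpand k M f).order
  · obtain ⟨m, hm⟩ := hd
    rw [hm, qExpand_coeff_mul] at h2
    rw [hm]
    exact mul_le_mul_of_nonneg_left (HahnSeries.order_le_of_coeff_ne_zero h2) hM.le
  · exact absurd (qExpand_coeff_of_not_dvd M f hd) h2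

/-- **[ORD-MOD-Q]** -/
theorem eq_zero_of_sum_qExpand_mul_pow {k : Type*} [Field k] (q : ℕ) [NeZero q]
    (J : LaurentSeries k) (hJ : J.order = -1) (c : Fin q → LaurentSeries k)
    (h : ∑ i, qExpand k q (c i) * J ^ (i : ℕ) = 0) : ∀ i, c i = 0 := by
  classical
  have hJ0 : J ≠ 0 := by
    rintro rfl
    simp at hJ
  by_contra hcon
  push Not at hcon
  obtain ⟨i₁, hi₁⟩ := hcon
  set s : Finset (Fin q) := Finset.univ.filter fun i => c i ≠ 0 with hs
  have hne : ∀ i ∈ s, qExpand k q (c i) * J ^ (i : ℕ) ≠ 0 := by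
    intro i hi
    have hci : c i ≠ 0 := (Finset.mem_filter.1 hi).2
    exact mul_ne_zero (fun h0 => hci (qExpand_injective q (by rw [h0, map_zero])))
      (pow_ne_zero _ hJ0)
  have hord : ∀ i ∈ s, (qExpand k q (c i) * J ^ (i : ℕ)).order = (q : ℤ) * (c i).order - i := by
    intro i hi
    have hci : c i ≠ 0 := (Finset.mem_filter.1 hi).2
    rw [HahnSeries.order_mul (fun h0 => hci (qExpand_injective q (by rw [h0, map_zero])))
      (pow_ne_zero _ hJ0), order_qExpand_oq, HahnSeries.order_pow, hJ]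
    simp
    ring
  have hsum : ∑ i ∈ s, qExpand k q (c i) * J ^ (i : ℕ) = 0 := by
    rw [← h, hs, Finset.sum_filter]
    refine Finset.sum_congr rfl fun i _ => ?_
    split_ifs with hi
    · rfl
    · push Not at hi
      rw [hi, map_zero, zero_mul]
  refine sum_ne_zero_of_order_injOn s ⟨i₁, Finset.mem_filter.2 ⟨Finset.mem_univ _, hi₁⟩⟩ _ hne ?_ hsum
  intro i hi j hj hij
  rw [hord i hi, hord j hj] at hij
  have hi' := i.2
  have hj' := j.2
  have h1 : (q : ℤ) ∣ (i : ℤ) - j := ⟨(c i).order - (c j).order, by linear_combination -hij⟩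
  apply Fin.ext
  have h2 : |((i : ℕ) : ℤ) - ((j : ℕ) : ℤ)| < q := by
    rw [abs_lt]; constructor <;> omega
  have h3 := Int.eq_zero_of_abs_lt_dvd h1 h2
  omega

end Fermat.Agent.S36
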