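import Fermat.Agent.RED.Cusp.Final

/-!
# S36 / modular part : `[RES-IND]` independent families in the residue fields

`E / k(x)` finite of degree `d`, `x` transcendental.  For `n > 0` there is a family of `n * d`
elements of `E` which is independent over the polynomials in `x ^ n`
(a basis `β i` of `E / k(x)` multiplied by `x ^ l`, `l < n`).
Applied to `E = Fb k M`, `x = jb k M`, `d = dedekindPsi M`.
-/

set_option autoImplicit false
noncomputable section

open Polynomial IntermediateField ModularCurve

namespace Fermat.Agent.S36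

theorem eq_zero_of_sum_expand_mul_X_pow {k : Type*} [CommRing k] {n : ℕ} (hn : 0 < n)
    (c : Fin n → k[X]) (h : ∑ l : Fin n, expand k n (c l) * X ^ (l : ℕ) = 0) : ∀ l, c l = 0 := by
  intro l0
  ext m
  have h1 := congrArg (fun p : k[X] => p.coeff (n * m + l0)) h
  simp only [finsetSum_coeff, coeff_zero] at h1
  rw [Finset.sum_eq_single l0] at h1
  · rw [coeff_mul_X_pow, coeff_expand hn, if_pos (dvd_mul_right n m),
      Nat.mul_div_cancel_left m hn] at h1
    rw [h1, coeff_zero]
  · intro l _ hl
    rw [coeff_mul_X_pow']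
    split_ifs with hle
    · rw [coeff_expand hn, if_neg]
      rintro ⟨t, ht⟩
      apply hl
      have h2 : n * m + l0 = n * t + l := by omega
      have h3 := congrArg (· % n) h2
      simp only [Nat.mul_add_mod, Nat.mod_eq_of_lt l0.2, Nat.mod_eq_of_lt l.2] at h3
      exact Fin.ext h3.symm
    · rfl
  · intro h2
    exact absurd (Finset.mem_univ _) h2

theorem exists_indep_family {k E : Type*} [Field k] [Field E] [Algebra k E] (x : E)
    (hx : Transcendental k x) [FiniteDimensional k⟮x⟯ E] {d : ℕ}
    (hd : Module.finrank k⟮x⟯ E = d) {n : ℕ} (hn : 0 < n) :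
    ∃ b : Fin (n * d) → E, ∀ c : Fin (n * d) → k[X],
      ∑ j, aeval (x ^ n) (c j) * b j = 0 → ∀ j, c j = 0 := by
  subst hd
  set d := Module.finrank k⟮x⟯ E with hd
  let β := Module.finBasis k⟮x⟯ E
  refine ⟨fun j => x ^ ((finProdFinEquiv.symm j).1 : ℕ) * β (finProdFinEquiv.symm j).2, ?_⟩
  intro c hc
  rw [← Equiv.sum_comp finProdFinEquiv, Fintype.sum_prod_type, Finset.sum_comm] at hc
  simp only [Equiv.symm_apply_apply] at hc
  let P : Fin d → k[X] := fun i => ∑ l : Fin n, expand k n (c (finProdFinEquiv (l, i))) * X ^ (l : ℕ)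
  have hP : ∀ i, aeval x (P i) = ∑ l : Fin n, aeval (x ^ n) (c (finProdFinEquiv (l, i))) * x ^ (l : ℕ) := by
    intro i
    simp only [P, map_sum, map_mul, expand_aeval, map_pow, aeval_X]
  have h1 : ∑ i, (aeval (AdjoinSimple.gen k x) (P i)) • β i = 0 := by
    rw [← hc]
    refine Finset.sum_congr rfl fun i _ => ?_
    rw [Algebra.smul_def, ← aeval_algebraMap_apply, AdjoinSimple.algebraMap_gen, hP, Finset.sum_mul]
    refine Finset.sum_congr rfl fun l _ => by ring
  have h2 := (Fintype.linearIndependent_iff.mp β.linearIndependent) _ h1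
  have h3 : ∀ i, P i = 0 := by
    intro i
    apply (transcendental_iff.mp hx)
    have := congrArg (algebraMap k⟮x⟯ E) (h2 i)
    rwa [← aeval_algebraMap_apply, AdjoinSimple.algebraMap_gen, map_zero] at this
  intro j
  have h4 := eq_zero_of_sum_expand_mul_X_pow hn _ (h3 (finProdFinEquiv.symm j).2)
    (finProdFinEquiv.symm j).1
  have h5 : finProdFinEquiv ((finProdFinEquiv.symm j).1, (finProdFinEquiv.symm j).2) = j :=
    finProdFinEquiv.apply_symm_apply j
  rwa [h5] at h4

open Fermat.Agent.RED.Cusp in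
/-- **[RES-IND]** -/
theorem exists_resInd (k : Type*) [Field k] [IsAlgClosed k] (q : ℕ) [Fact q.Prime] [CharP k q]
    (M : ℕ) [NeZero M] (hqM : ¬ q ∣ M) {n : ℕ} (hn : 0 < n) :
    ∃ b : Fin (n * dedekindPsi M) → Fb k M, ∀ c : Fin (n * dedekindPsi M) → k[X],
      ∑ j, aeval (((jb k M : Fb k M) : LaurentSeries k) ^ n) (c j) *
        ((b j : Fb k M) : LaurentSeries k) = 0 → ∀ j, c j = 0 := by
  have hsep := isSepParam_jb M k q hqM
  have := hsep.finite
  obtain ⟨b, hb⟩ := exists_indep_family (jb k M) hsep.transcendental (finrank_jb M k q hqM) hn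
  refine ⟨b, fun c hc => hb c ?_⟩
  have hinj : Function.Injective (Fb k M).val := (Fb k M).val.injective
  apply hinj
  rw [map_zero, ← hc, map_sum]
  refine Finset.sum_congr rfl fun j _ => ?_
  rw [map_mul, ← aeval_algHom_apply, map_pow]
  rfl

end Fermat.Agent.S36
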