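import Fermat.Agent.S36.Mod.SysTab
import Fermat.Agent.S36.Mod.Deg
import Fermat.Agent.S36.Mod.ResInd
import Fermat.Agent.S36.Haupt.Val
import Fermat.Agent.S36.Abs.Datum

/-!
# S36 / modular part : `[SYS]` the `GaussSys` instance for the chart functions `j(q^i τ)`

Context-free version (`M` any level prime to `q`, `s`, `w` parameters).
-/

set_option autoImplicit false
set_option linter.unusedSectionVars false
noncomputable section

open ModularCurve Polynomial

namespace Fermat.Agent.S36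

open Fermat.Agent.S24 Fermat.Agent.RED.Gauss Fermat.Agent.GAL.AD Fermat.Agent.S28

section Sys

variable (A : ValuationSubring Kb) {M : ℕ} [NeZero M] {q : ℕ} [Fact q.Prime]
  (hA : A.LiesOverPrime q) (hqM : ¬ q ∣ M)
  {s : FN (M * q * q) →+* LaurentSeries Kb} {w : FN (M * q * q) →+* FN (M * q * q)}
  {ζ : Kbˣ} (hζ : IsPrimitiveRoot ζ q) (H : IsSW M s w ζ)
  {lam : Fin 3 → Kb} (hd : ∀ l, IsDiscEmb A (lam l) (eT A M s w l))

local notation "π" => IsLocalRing.residue A
local notation "k" => IsLocalRing.ResidueField A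
local notation "hπ" => isResMap_residue A

/-- the three valuation rings -/
def OT (l : Fin 3) : ValuationSubring (F0 A (M * q * q)) := gvO π hπ (hd l)

/-- the residue degrees -/
def fT (M q : ℕ) (i l : Fin 3) : ℕ := q ^ nT l i * dedekindPsi M

theorem transcendental_jqModC_pow (n : ℕ) (hn : 0 < n) : Transcendental k (jqModC k ^ n) :=
  (P2MW.S_ModularCurve_coeff_jqModC_neg_one.ModularCurve.CharLRows.transcendental_jqModC k).pow hn

include hA hζ H in
theorem jT_mem_OT (l i : Fin 3) : jT (KK A) M q i ∈ OT A hd l :=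
  (redsTo_eT_jT A hA hζ H l i).mem_gvO hπ (hd l)

include hA hζ H in
/-- the field `gauss` -/
theorem isGaussAt_OT (l i : Fin 3) :
    IsGaussAt ((q : ℕ) : RK A) (jT (KK A) M q i) (OT A hd l) := by
  have hq : q.Prime := Fact.out
  have hs := jT_mem_OT A hA hζ H hd l i
  refine gv_isGaussAt hπ (hd l) (ρ := pi0 A) (hc_of_const A _ (H.eT_const A l)) hs
    (dvd_of_pi0_eq_zero A hA) (pi0_natCast_eq_zero A hA) ?_
  rw [(redsTo_eT_jT A hA hζ H l i).gvRed_eq hπ (hd l) hs]
  exact transcendental_jqModC_pow A _ (pow_pos hq.pos _)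

include hA hqM hζ H in
/-- the field `res`, with lifts in the range of `a_{g l}` and reductions in `Fb_M` -/
theorem exists_res_OT (l i : Fin 3) :
    ∃ (v : Fin (fT M q i l) → F0 A M) (b : Fin (fT M q i l) → modularFunctionFieldFullC k M),
      (∀ j, RedsTo π (cK A (v j : LaurentSeries (KK A))) (b j : LaurentSeries k)) ∧
      (∀ j, RedsTo π (eT A M s w l (aK (KK A) M q (gT l) (v j))) (b j : LaurentSeries k)) ∧
      (∀ j, aK (KK A) M q (gT l) (v j) ∈ OT A hd l) ∧
      ∀ c : Fin (fT M q i l) → (RK A)[X],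
        (OT A hd l).valuation
          (∑ j, aeval (jT (KK A) M q i) (c j) * aK (KK A) M q (gT l) (v j)) < 1 →
        ∀ j, C ((q : ℕ) : RK A) ∣ c j := by
  have hq : q.Prime := Fact.out
  have := Fermat.Agent.RED.GalEq.charP_residueField hq hA
  have := Fermat.Agent.RED.GalEq.isAlgClosed_residueField A
  obtain ⟨b, hb⟩ := exists_resInd k q M hqM (n := q ^ nT l i) (pow_pos hq.pos _)
  choose v hv using fun j => exists_lift_F0 A hA M hqM (b j)
  have hv' := fun j => redsTo_eT_gT A hA hζ H l (hv j)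
  have hω := fun j => (hv' j).mem_gvO hπ (hd l)
  have hs := jT_mem_OT A hA hζ H hd l i
  refine ⟨v, b, hv, hv', hω, ?_⟩
  refine gv_res hπ (hd l) (ρ := pi0 A) (hc_of_const A _ (H.eT_const A l)) hs
    (dvd_of_pi0_eq_zero A hA) _ hω ?_
  intro c hc
  apply hb c
  rw [← hc]
  refine Finset.sum_congr rfl fun j _ => ?_
  rw [(redsTo_eT_jT A hA hζ H l i).gvRed_eq hπ (hd l) hs, (hv' j).gvRed_eq hπ (hd l) (hω j)]
  rfl

theorem jqModC_pow_sub_ne_zero {a b : ℕ} (hab : a ≠ b) : jqModC k ^ a - jqModC k ^ b ≠ 0 := by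
  intro h
  have htr := P2MW.S_ModularCurve_coeff_jqModC_neg_one.ModularCurve.CharLRows.transcendental_jqModC k
  have h1 : aeval (jqModC k) (X ^ a - X ^ b : k[X]) = 0 := by simpa using h
  have h2 := (transcendental_iff.mp htr) _ h1
  have h3 : (X ^ a : k[X]) = X ^ b := sub_eq_zero.mp h2
  have h4 := congrArg natDegree h3
  rw [natDegree_X_pow, natDegree_X_pow] at h4
  exact hab h4

theorem OT_ne_of_sep {l l' : Fin 3} (x : F0 A (M * q * q)) (h1 : (OT A hd l).valuation x < 1)
    (h2 : (OT A hd l').valuation x = 1) : OT A hd l ≠ OT A hd l' := by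
  intro h
  rw [h, h2] at h1
  exact lt_irrefl _ h1

include hA hζ H in
/-- the field `inj` -/
theorem OT_injective : Function.Injective (OT A hd) := by
  have hq : q.Prime := Fact.out
  have hq2 : q ^ 2 ≠ q ^ 0 := by
    rw [pow_zero]
    have := hq.two_le
    nlinarith
  have J := fun l i => redsTo_eT_jT A hA hζ H l i
  -- `x = j₂ - j₀`
  have x0 : (OT A hd 0).valuation (jT (KK A) M q 2 - jT (KK A) M q 0) = 1 := by
    have := (J 0 2).sub (J 0 0)
    rw [← map_sub] at this
    exact this.valuation_eq_one hπ (hd 0) (jqModC_pow_sub_ne_zero A hq2)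
  have x1 : (OT A hd 1).valuation (jT (KK A) M q 2 - jT (KK A) M q 0) < 1 := by
    have := (J 1 2).sub (J 1 0)
    rw [← map_sub] at this
    have e : jqModC k ^ q ^ nT 1 2 - jqModC k ^ q ^ nT 1 0 = 0 := sub_self _
    rw [e] at this
    exact this.valuation_lt_one hπ (hd 1)
  have x2 : (OT A hd 2).valuation (jT (KK A) M q 2 - jT (KK A) M q 0) = 1 := by
    have := (J 2 2).sub (J 2 0)
    rw [← map_sub] at this
    exact this.valuation_eq_one hπ (hd 2) (jqModC_pow_sub_ne_zero A hq2.symm)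
  -- `y = j₂ - j₀ ^ (q²)`
  have y0 : (OT A hd 0).valuation (jT (KK A) M q 2 - jT (KK A) M q 0 ^ (q ^ 2)) < 1 := by
    have := (J 0 2).sub ((J 0 0).pow (q ^ 2))
    rw [← map_pow, ← map_sub] at this
    have e : jqModC k ^ q ^ nT 0 2 - (jqModC k ^ q ^ nT 0 0) ^ q ^ 2 = 0 := by
      show jqModC k ^ q ^ 2 - (jqModC k ^ q ^ 0) ^ q ^ 2 = 0
      rw [pow_zero, pow_one, sub_self]
    rw [e] at this
    exact this.valuation_lt_one hπ (hd 0)
  have y2 : (OT A hd 2).valuation (jT (KK A) M q 2 - jT (KK A) M q 0 ^ (q ^ 2)) = 1 := by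
    have := (J 2 2).sub ((J 2 0).pow (q ^ 2))
    rw [← map_pow, ← map_sub] at this
    refine this.valuation_eq_one hπ (hd 2) ?_
    show jqModC k ^ q ^ 0 - (jqModC k ^ q ^ 2) ^ q ^ 2 ≠ 0
    rw [← pow_mul]
    apply jqModC_pow_sub_ne_zero
    rw [pow_zero]
    have := hq.two_le
    have h4 : 4 ≤ q ^ 2 := by nlinarith
    nlinarith
  have h10 := OT_ne_of_sep A hd _ x1 x0
  have h12 := OT_ne_of_sep A hd _ x1 x2
  have h02 := OT_ne_of_sep A hd _ y0 y2
  intro a b hab
  fin_cases a <;> fin_cases b <;>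
    first
    | rfl
    | exact absurd hab h10
    | exact absurd hab.symm h10
    | exact absurd hab h12
    | exact absurd hab.symm h12
    | exact absurd hab h02
    | exact absurd hab.symm h02

theorem embF0_jK_one : embF0 A M (jK (KK A) M 1 (one_dvd M)) = jF M := by
  apply Subtype.ext
  rw [coe_embF0, cK_jK]
  exact (coe_jBar M 1 (one_dvd M)).symm

/-- `1 - j(τ) / j(q² τ)` -/
def varpiT (A : ValuationSubring Kb) (M q : ℕ) [NeZero M] [NeZero q] : F0 A (M * q * q) :=
  1 - jT (KK A) M q 0 * (jT (KK A) M q 2)⁻¹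

theorem embF0_varpiT : embF0 A (M * q * q) (varpiT A M q) = varpiJ M q := by
  rw [varpiT, varpiJ, map_sub, map_one, map_mul, map_inv₀, jT, jT, embF0_aK_zero, embF0_aK_two,
    embF0_jK_one, aa0_apply, aa2_apply]

include hA hζ H in
theorem valuation_varpiT_pow :
    (OT A hd 1).valuation (varpiT A M q) ^ (q - 1) =
      (OT A hd 1).valuation ((q : ℕ) : F0 A (M * q * q)) := by
  have hq : q.Prime := Fact.out
  have hζ' : IsPrimitiveRoot (ζ : Kb) q := IsPrimitiveRoot.coe_units_iff.mpr hζ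
  have h1 := redTo_s_varpiJ_pow hπ s ζ H.s1 H.s2 hq hζ (valuation_one_sub_zeta_lt hq hA hζ')
  have hq0 : ((q : ℕ) : F0 A (M * q * q)) ≠ 0 := by exact_mod_cast hq.ne_zero
  have e1 : eT A M s w 1 (varpiT A M q ^ (q - 1) / ((q : ℕ) : F0 A (M * q * q)))
      = s (varpiJ M q) ^ (q - 1) / HahnSeries.C (q : Kb) := by
    rw [map_div₀, map_pow, eT_one, embF0_varpiT, map_natCast, map_natCast]
  have h2 : RedsTo π (eT A M s w 1 (varpiT A M q ^ (q - 1) / ((q : ℕ) : F0 A (M * q * q))))
      (-(castLS k wJS) ^ (q - 1)) := by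
    rw [e1]; exact h1
  have h3 := h2.valuation_eq_one hπ (hd 1) (neg_ne_zero.2 (pow_ne_zero _ castLS_wJS_ne_zero))
  rw [map_div₀, map_pow] at h3
  exact (div_eq_one_iff_eq ((Valuation.ne_zero_iff _).2 hq0)).1 h3

include hA hζ H in
/-- the field `ram` -/
theorem exists_ram_OT (l : Fin 3) : ∃ ϖ : F0 A (M * q * q), (OT A hd l).valuation ϖ < 1 ∧
    (OT A hd l).valuation (algebraMap (RK A) (F0 A (M * q * q)) ((q : ℕ) : RK A)) ≤
      (OT A hd l).valuation ϖ ^ eVec q l := by
  have hq : q.Prime := Fact.out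
  have hlt := fun l => (isGaussAt_OT A hA hζ H hd l 0).lt_one
  have key : ∀ l : Fin 3, eVec q l = 1 → ∃ ϖ : F0 A (M * q * q), (OT A hd l).valuation ϖ < 1 ∧
      (OT A hd l).valuation (algebraMap (RK A) (F0 A (M * q * q)) ((q : ℕ) : RK A)) ≤
        (OT A hd l).valuation ϖ ^ eVec q l := by
    intro l hl
    exact ⟨_, hlt l, by rw [hl, pow_one]⟩
  fin_cases l
  · exact key 0 rfl
  · refine ⟨varpiT A M q, ?_, ?_⟩
    · have h1 := valuation_varpiT_pow A hA hζ H hd
      have h2 := hlt 1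
      rw [map_natCast, ← h1] at h2
      by_contra hcon
      exact absurd h2 (not_lt.2 (one_le_pow₀ (not_lt.1 hcon)))
    · show _ ≤ (OT A hd 1).valuation (varpiT A M q) ^ (q - 1)
      rw [valuation_varpiT_pow A hA hζ H hd, map_natCast]
      exact le_rfl
  · exact key 2 rfl

theorem sum_eVec_fT (hq : 1 ≤ q) (i : Fin 3) :
    ∑ l, eVec q l * fT M q i l = q * (q + 1) * dedekindPsi M := by
  obtain ⟨r, rfl⟩ : ∃ r, q = r + 1 := ⟨q - 1, by omega⟩
  rw [Fin.sum_univ_three]
  fin_cases i <;> simp [eVec, fT, nT] <;> ring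

include hA hqM hζ H in
/-- **[SYS]** the `GaussSys` instance for the chart function `j (q^i τ)`. -/
theorem gaussSys_jT (i : Fin 3) :
    GaussSys (KK A) ((q : ℕ) : RK A) (jT (KK A) M q i) (OT A hd) (eVec q) (fT M q i) := by
  have hq : q.Prime := Fact.out
  have hdeg := finrank_F0_level_le (A := A) (M := M) (q := q) hq hqM (jT (KK A) M q i) (by
    fin_cases i
    · left
      show embF0 A (M * q * q) (aK (KK A) M q 0 _) = _
      rw [embF0_aK_zero, embF0_jK_one]
    · right; right; left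
      show embF0 A (M * q * q) (aK (KK A) M q 1 _) = _
      rw [embF0_aK_one, embF0_jK_one]
    · right; right; right
      show embF0 A (M * q * q) (aK (KK A) M q 2 _) = _
      rw [embF0_aK_two, embF0_jK_one])
  refine ⟨OT_injective A hA hζ H hd, fun l => isGaussAt_OT A hA hζ H hd l i,
    exists_ram_OT A hA hζ H hd, fun l => ?_, hdeg.1, ?_⟩
  · obtain ⟨v, b, -, -, h3, h4⟩ := exists_res_OT A hA hqM hζ H hd l i
    exact ⟨_, h3, h4⟩
  · rw [sum_eVec_fT hq.one_le]
    exact hdeg.2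

end Sys

end Fermat.Agent.S36
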