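import Fermat.Agent.S36.Mod.SysFrac
import Fermat.Agent.S36.Mod.F0Defs
import Fermat.Agent.S36.Mod.Lz
import Fermat.Agent.GAL.AD.Basic

/-!
# S36 / modular part : `[DISC]` the embeddings have discrete coefficients (context-free statements)

* `isResMap_residue` : the residue map is a residue map;
* `map_mem_of_gen2`, `map_mem_of_gen3` : the function field of level `M q` (`M q²`) is generated by
  the images of the level `M` under the degeneracy maps;
* `isDiscEmb_q`, `isDiscEmb_zeta` : criteria for `s ∘ embF0`;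
* `isDiscEmb_level1/2/3` : for any `e` given on the images of the degeneracy maps by substitutions.
-/

set_option autoImplicit false
set_option linter.unusedSectionVars false
noncomputable section

open ModularCurve

namespace Fermat.Agent.S36

open Fermat.Agent.S24 Fermat.Agent.RED.Gauss Fermat.Agent.GAL.AD

theorem isResMap_residue {L : Type*} [Field L] (A : ValuationSubring L) :
    IsResMap (IsLocalRing.residue A) where
  surj := IsLocalRing.residue_surjective
  ker a := by
    rw [IsLocalRing.residue_eq_zero_iff, ← ValuationSubring.valuation_lt_one_iff]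

section Gen

variable (K : Type*) [Field K] [CharZero K]

theorem alphaBar_jK (N ℓ d : ℕ) [NeZero N] [NeZero ℓ] [NeZero d] (hd : d ∣ N) :
    heckeAlphaBar K N ℓ (jK K N d hd) = jK K (N * ℓ) d (hd.trans (dvd_mul_right N ℓ)) :=
  Subtype.ext rfl

theorem betaBar_jK (N ℓ d : ℕ) [NeZero N] [NeZero ℓ] [NeZero d] (hd : d ∣ N) :
    heckeBetaBar K N ℓ (jK K N d hd) = jK K (N * ℓ) (ℓ * d)
      (by rw [mul_comm N ℓ]; exact mul_dvd_mul_left ℓ hd) := by
  apply Subtype.ext
  rw [coe_heckeBetaBar, coe_jK, coe_jK, jqNModC, jqNModC, qExpand_qExpand]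

theorem jK_congr {N d d' : ℕ} [NeZero d] [NeZero d'] (hdd : d = d') (hd : d ∣ N) :
    jK K N d hd = jK K N d' (hdd ▸ hd) := by
  subst hdd; rfl

variable {K}

/-- level `M q` is generated by `α (level M)` and `β (level M)`. -/
theorem map_mem_of_gen2 {M q : ℕ} [NeZero M] [NeZero q] (hq : q.Prime) {E : Type*} [Field E]
    (φ : FK K (M * q) →+* E) (S : Subfield E)
    (h0 : ∀ u : FK K M, φ (heckeAlphaBar K M q u) ∈ S)
    (h1 : ∀ u : FK K M, φ (heckeBetaBar K M q u) ∈ S) (x : FK K (M * q)) : φ x ∈ S := by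
  apply map_mem_of_gen φ S
  · intro a
    have := h0 (algebraMap K _ a)
    rwa [AlgHom.commutes] at this
  · intro D _ hD
    obtain ⟨d, e, hd, he, rfl⟩ := exists_dvd_and_dvd_of_dvd_mul hD
    have hd0 : NeZero d := ⟨fun h => NeZero.ne M (by rw [h] at hd; exact zero_dvd_iff.1 hd)⟩
    rcases (Nat.dvd_prime hq).1 he with rfl | rfl
    · have := h0 (jK K M d hd)
      rw [alphaBar_jK] at this
      rwa [jK_congr K (mul_one d) hD]
    · have := h1 (jK K M d hd)
      rw [betaBar_jK] at this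
      rwa [jK_congr K (mul_comm d e) hD]

/-- level `M q²` is generated by the three images of the level `M`. -/
theorem map_mem_of_gen3 {M q : ℕ} [NeZero M] [NeZero q] (hq : q.Prime) {E : Type*} [Field E]
    (φ : FK K (M * q * q) →+* E) (S : Subfield E)
    (h0 : ∀ u : FK K M, φ (heckeAlphaBar K (M * q) q (heckeAlphaBar K M q u)) ∈ S)
    (h1 : ∀ u : FK K M, φ (heckeAlphaBar K (M * q) q (heckeBetaBar K M q u)) ∈ S)
    (h2 : ∀ u : FK K M, φ (heckeBetaBar K (M * q) q (heckeBetaBar K M q u)) ∈ S)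
    (x : FK K (M * q * q)) : φ x ∈ S := by
  apply map_mem_of_gen2 hq φ S
  · exact map_mem_of_gen2 hq (φ.comp (heckeAlphaBar K (M * q) q : FK K (M * q) →+* _)) S h0 h1
  · refine map_mem_of_gen2 hq (φ.comp (heckeBetaBar K (M * q) q : FK K (M * q) →+* _)) S ?_ h2
    intro u
    have e1 : heckeBetaBar K (M * q) q (heckeAlphaBar K M q u)
        = heckeAlphaBar K (M * q) q (heckeBetaBar K M q u) := by
      apply Subtype.ext
      rw [coe_heckeBetaBar, coe_heckeAlphaBar, coe_heckeAlphaBar, coe_heckeBetaBar]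
    show φ (heckeBetaBar K (M * q) q (heckeAlphaBar K M q u)) ∈ S
    rw [e1]
    exact h1 u

end Gen

section FracJ

variable {L : Type*} [Field L] (A : ValuationSubring L) (L₁ : Subfield L)

theorem jqNModC_mem_serS (d : ℕ) [NeZero d] : jqNModC A d ∈ serS A L₁ :=
  ⟨jqNModC _ d, ModularCurve.coeffMap_jqNModC _ d⟩

theorem jqNModC_mem_fracS (d : ℕ) [NeZero d] : jqNModC L d ∈ fracS A L₁ := by
  have := iota_mem_fracS (jqNModC_mem_serS A L₁ d)
  rwa [iota, ModularCurve.coeffMap_jqNModC] at this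

variable {A L₁}

theorem qExpand_mem_serS (d : ℕ) [NeZero d] {a : LaurentSeries A} (ha : a ∈ serS A L₁) :
    qExpand A d a ∈ serS A L₁ := by
  obtain ⟨a', rfl⟩ := ha
  exact ⟨qExpand _ d a', coeffMap_qExpand _ d a'⟩

theorem qExpand_mem_fracS (d : ℕ) [NeZero d] {x : LaurentSeries L} (hx : x ∈ fracS A L₁) :
    qExpand L d x ∈ fracS A L₁ := by
  obtain ⟨a, ha, b, hb, hb0, h⟩ := hx
  refine ⟨qExpand A d a, qExpand_mem_serS d ha, qExpand A d b, qExpand_mem_serS d hb, ?_, ?_⟩
  · intro h0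
    apply hb0
    apply iota_injective A
    have h1 : qExpand L d (iota A b) = 0 := by
      rw [iota, ← coeffMap_qExpand, h0, map_zero]
    rw [map_zero]
    exact (map_eq_zero (qExpand L d)).1 h1
  · rw [iota, coeffMap_qExpand, coeffMap_qExpand, ← map_mul]
    exact congrArg _ h

theorem rot_mem_fracS (ζ : Aˣ) (hζ : ((ζ : A) : L) ∈ L₁) {x : LaurentSeries L}
    (hx : x ∈ fracS A L₁) : S24.rot (Units.map (A.subtype : A →* L) ζ) x ∈ fracS A L₁ := by
  obtain ⟨a, ha, b, hb, hb0, h⟩ := hx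
  have key : ∀ c : LaurentSeries A, S24.rotHom (Units.map (A.subtype : A →* L) ζ) (iota A c)
      = iota A (RED.ES.rotR ζ c) := by
    intro c
    rw [S24.rotHom_apply, rot_eq_rotR_sys]
    exact (RED.ES.coeffMap_rotR A.subtype ζ c).symm
  refine ⟨RED.ES.rotR ζ a, rotR_mem_serS ζ hζ ha, RED.ES.rotR ζ b, rotR_mem_serS ζ hζ hb, ?_, ?_⟩
  · intro h0
    apply hb0
    apply iota_injective A
    have h1 := key b
    rw [h0, map_zero] at h1
    rw [map_zero]
    exact (map_eq_zero _).1 h1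
  · rw [← key, ← key, ← S24.rotHom_apply, ← map_mul]
    exact congrArg _ h

theorem exists_unit_of_valuation_eq_one (ζ : Lˣ) (h : A.valuation (ζ : L) = 1) :
    ∃ z : Aˣ, Units.map (A.subtype : A →* L) z = ζ :=
  ⟨A.unitGroupMulEquiv ⟨ζ, (A.mem_unitGroup_iff ζ).2 h⟩,
    Units.ext (A.coe_unitGroupMulEquiv_apply _)⟩

theorem rot_mem_fracS' (ζ : Lˣ) (h : A.valuation (ζ : L) = 1) (hζ : (ζ : L) ∈ L₁)
    {x : LaurentSeries L} (hx : x ∈ fracS A L₁) : S24.rot ζ x ∈ fracS A L₁ := by
  obtain ⟨z, rfl⟩ := exists_unit_of_valuation_eq_one ζ h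
  exact rot_mem_fracS z hζ hx

end FracJ

section Disc

variable {A : ValuationSubring Kb}

/-- the expansion at `∞` of an element of `F0 A N` is a fraction of series over `A ∩ L₁`. -/
theorem cK_mem_fracS (L₁ : Subfield Kb) (hL : ∀ x ∈ K0 A, x ∈ L₁) (N : ℕ) [NeZero N]
    (y : F0 A N) : cK A (y : LaurentSeries (KK A)) ∈ fracS A L₁ := by
  have := map_mem_of_gen (K := KK A) (N := N)
    ((cK A).comp (FKf (KK A) N).val.toRingHom) (fracS A L₁) ?_ ?_ y
  · exact this
  · intro a
    show cK A (algebraMap (KK A) (LaurentSeries (KK A)) a) ∈ fracS A L₁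
    rw [algebraMap_laurentSeries_eq_single, cK, coeffMap_single, ← HahnSeries.C_apply]
    exact C_mem_fracS (hL _ (algebraMap_KK_mem a))
  · intro d _ hd
    show cK A (jqNModC (KK A) d) ∈ fracS A L₁
    rw [cK, ModularCurve.coeffMap_jqNModC]
    exact jqNModC_mem_fracS A L₁ d

variable {q : ℕ} (hq : q.Prime) (hA : A.LiesOverPrime q)

include hq hA in
theorem isDiscEmb_q {F : Type*} [Field F] (e : F →+* LaurentSeries Kb)
    (he : ∀ y, e y ∈ fracS A (K0 A).toSubfield) : IsDiscEmb A (q : Kb) e :=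
  isDiscEmb_of_fracS (A.mem_nonunits_iff.mp hA) (by exact_mod_cast hq.ne_zero)
    (fun _ hx0 hx hxA => exists_pow_of_mem_K0 hq hA hx0 hx hxA) e he

include hq hA in
theorem isDiscEmb_zeta {ζ : Kb} (hζ : IsPrimitiveRoot ζ q) {F : Type*} [Field F]
    (e : F →+* LaurentSeries Kb)
    (he : ∀ y, e y ∈ fracS A (IntermediateField.adjoin (K0 A) {ζ}).toSubfield) :
    IsDiscEmb A (1 - ζ) e :=
  isDiscEmb_of_fracS (valuation_one_sub_zeta_lt hq hA hζ)
    (sub_ne_zero.mpr (hζ.ne_one hq.one_lt).symm)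
    (fun _ hx0 hx hxA => exists_pow_of_mem_adjoin_zeta hq hA hζ hx0 hx hxA) e he

include hq hA in
/-- the expansion at `∞`, any level -/
theorem isDiscEmb_val (N : ℕ) [NeZero N] :
    IsDiscEmb A (q : Kb)
      (((modularFunctionFieldBar N).val : FN N →+* LaurentSeries Kb).comp (embF0 A N)) :=
  isDiscEmb_q hq hA _ (fun y => cK_mem_fracS _ (fun _ h => h) N y)

variable (M : ℕ) [NeZero M] [NeZero q]

include hq hA in
/-- the expansion after the Atkin-Lehner swap, level `M q` -/
theorem isDiscEmb_sw (s : FN (M * q) →+* FN (M * q))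
    (hs1 : ∀ f : FN M, s (heckeAlphaBar Kb M q f) = heckeBetaBar Kb M q f)
    (hs2 : ∀ f : FN M, s (heckeBetaBar Kb M q f) = heckeAlphaBar Kb M q f) :
    IsDiscEmb A (q : Kb)
      ((((modularFunctionFieldBar (M * q)).val : FN (M * q) →+* LaurentSeries Kb).comp s).comp
        (embF0 A (M * q))) := by
  apply isDiscEmb_q hq hA
  apply map_mem_of_gen2 hq
  · intro u
    show ((s (embF0 A (M * q) (heckeAlphaBar (KK A) M q u)) : FN (M * q)) : LaurentSeries Kb) ∈ _
    rw [embF0_alpha, hs1, coe_heckeBetaBar]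
    exact qExpand_mem_fracS q (cK_mem_fracS _ (fun _ h => h) M u)
  · intro u
    show ((s (embF0 A (M * q) (heckeBetaBar (KK A) M q u)) : FN (M * q)) : LaurentSeries Kb) ∈ _
    rw [embF0_beta, hs2, coe_heckeAlphaBar]
    exact cK_mem_fracS _ (fun _ h => h) M u

include hq hA in
/-- the expansion after `W_{q²}`, level `M q²` -/
theorem isDiscEmb_W (w : FN (M * q * q) →+* FN (M * q * q))
    (hw0 : ∀ u : FN M, w (heckeAlphaBar Kb (M * q) q (heckeAlphaBar Kb M q u))
        = heckeBetaBar Kb (M * q) q (heckeBetaBar Kb M q u))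
    (hw1 : ∀ u : FN M, w (heckeAlphaBar Kb (M * q) q (heckeBetaBar Kb M q u))
        = heckeAlphaBar Kb (M * q) q (heckeBetaBar Kb M q u))
    (hw2 : ∀ u : FN M, w (heckeBetaBar Kb (M * q) q (heckeBetaBar Kb M q u))
        = heckeAlphaBar Kb (M * q) q (heckeAlphaBar Kb M q u)) :
    IsDiscEmb A (q : Kb)
      ((((modularFunctionFieldBar (M * q * q)).val :
        FN (M * q * q) →+* LaurentSeries Kb).comp w).comp (embF0 A (M * q * q))) := by
  apply isDiscEmb_q hq hA
  apply map_mem_of_gen3 hq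
  · intro u
    show ((w (embF0 A (M * q * q) (heckeAlphaBar (KK A) (M * q) q (heckeAlphaBar (KK A) M q u))) :
      FN (M * q * q)) : LaurentSeries Kb) ∈ _
    rw [embF0_alpha, embF0_alpha, hw0, coe_heckeBetaBar, coe_heckeBetaBar]
    exact qExpand_mem_fracS q (qExpand_mem_fracS q (cK_mem_fracS _ (fun _ h => h) M u))
  · intro u
    show ((w (embF0 A (M * q * q) (heckeAlphaBar (KK A) (M * q) q (heckeBetaBar (KK A) M q u))) :
      FN (M * q * q)) : LaurentSeries Kb) ∈ _
    rw [embF0_alpha, embF0_beta, hw1, coe_heckeAlphaBar, coe_heckeBetaBar]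
    exact qExpand_mem_fracS q (cK_mem_fracS _ (fun _ h => h) M u)
  · intro u
    show ((w (embF0 A (M * q * q) (heckeBetaBar (KK A) (M * q) q (heckeBetaBar (KK A) M q u))) :
      FN (M * q * q)) : LaurentSeries Kb) ∈ _
    rw [embF0_beta, embF0_beta, hw2, coe_heckeAlphaBar, coe_heckeAlphaBar]
    exact cK_mem_fracS _ (fun _ h => h) M u

include hq hA in
/-- the expansion at the cusp `1/q`, level `M q²` -/
theorem isDiscEmb_sigma (ζ : Kbˣ) (hζ : IsPrimitiveRoot ζ q)
    (s : FN (M * q * q) →+* LaurentSeries Kb)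
    (hs1 : ∀ y : FN (M * q), s (heckeAlphaBar Kb (M * q) q y) = (y : LaurentSeries Kb))
    (hs2 : ∀ u : FN M, s (heckeBetaBar Kb (M * q) q (heckeBetaBar Kb M q u))
        = rot ζ (u : LaurentSeries Kb)) :
    IsDiscEmb A (1 - (ζ : Kb)) (s.comp (embF0 A (M * q * q))) := by
  have hζ' : IsPrimitiveRoot (ζ : Kb) q := IsPrimitiveRoot.coe_units_iff.mpr hζ
  have hL : ∀ x ∈ K0 A, x ∈ (IntermediateField.adjoin (K0 A) {(ζ : Kb)}).toSubfield := by
    intro x hx
    exact (IntermediateField.adjoin (K0 A) {(ζ : Kb)}).algebraMap_mem ⟨x, hx⟩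
  apply isDiscEmb_zeta hq hA hζ'
  apply map_mem_of_gen3 hq
  · intro u
    show s (embF0 A (M * q * q) (heckeAlphaBar (KK A) (M * q) q (heckeAlphaBar (KK A) M q u))) ∈ _
    rw [embF0_alpha, embF0_alpha, hs1, coe_heckeAlphaBar]
    exact cK_mem_fracS _ hL M u
  · intro u
    show s (embF0 A (M * q * q) (heckeAlphaBar (KK A) (M * q) q (heckeBetaBar (KK A) M q u))) ∈ _
    rw [embF0_alpha, embF0_beta, hs1, coe_heckeBetaBar]
    exact qExpand_mem_fracS q (cK_mem_fracS _ hL M u)
  · intro u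
    show s (embF0 A (M * q * q) (heckeBetaBar (KK A) (M * q) q (heckeBetaBar (KK A) M q u))) ∈ _
    rw [embF0_beta, embF0_beta, hs2]
    exact rot_mem_fracS' ζ (valuation_eq_one_of_pow_eq_one _ hq.ne_zero hζ'.pow_eq_one)
      (IntermediateField.mem_adjoin_simple_self _ _) (cK_mem_fracS _ hL M u)

end Disc

end Fermat.Agent.S36
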