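import Fermat.Agent.S24.HolPerMore
import Fermat.Agent.S24.Conj
import Fermat.Agent.RED.ES.Swap

/-!
# S36 / Mod : translation by a real number on `Hol`, `Mer`, `HolPer h`, `MerPer h`

`u ↦ u(· + r)`; on `q_h`-expansions it is the rotation by `exp (2πi r / h)`.
-/

set_option autoImplicit false

open UpperHalfPlane Function Complex ModularForm
open scoped Manifold MatrixGroups Real
open Fermat.Agent.S24

noncomputable section

namespace Fermat.Agent.S36

local notation "𝕢" => Periodic.qParam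

/-- The matrix of the translation by `r`. -/
def trGL (r : ℝ) : GL (Fin 2) ℝ := upperTriangularGL 1 r 1 (by norm_num)

theorem det_trGL_pos (r : ℝ) : 0 < (trGL r).det.val := by
  have : (trGL r).det.val = 1 := by
    rw [Matrix.GeneralLinearGroup.val_det_apply, trGL, val_upperTriangularGL,
      Matrix.det_fin_two_of]
    ring
  rw [this]; exact one_pos

theorem trGL_smul (r : ℝ) (τ : ℍ) : trGL r • τ = r +ᵥ τ := by
  apply UpperHalfPlane.ext
  rw [UpperHalfPlane.coe_smul_of_det_pos (det_trGL_pos r), coe_vadd]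
  simp [UpperHalfPlane.num, UpperHalfPlane.denom, trGL]
  ring

/-- Translation by `r` on `Hol`. -/
def transHol (r : ℝ) : Hol →ₐ[ℂ] Hol := compGL (trGL r) (det_trGL_pos r)

theorem transHol_apply (r : ℝ) (f : Hol) (τ : ℍ) :
    (transHol r f : ℍ → ℂ) τ = (f : ℍ → ℂ) (r +ᵥ τ) := by
  rw [transHol, compGL_apply, trGL_smul]

/-- Translation by `r` on `Mer`. -/
def transMer (r : ℝ) : Mer →+* Mer := RED.ES.compMer (trGL r) (det_trGL_pos r)

theorem transMer_algebraMap (r : ℝ) (f : Hol) :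
    transMer r (algebraMap Hol Mer f) = algebraMap Hol Mer (transHol r f) :=
  RED.ES.compMer_algebraMap _ _ f

theorem transMer_const (r : ℝ) (c : ℂ) :
    transMer r (algebraMap ℂ Mer c) = algebraMap ℂ Mer c :=
  RED.ES.compMer_const _ _ c

theorem trans_mem_HolPer {h : ℕ} (r : ℝ) {f : ℍ → ℂ} (hf : f ∈ HolPer h) :
    (fun τ => f (r +ᵥ τ)) ∈ HolPer h := by
  rw [mem_HolPer_iff] at hf ⊢
  obtain ⟨h1, h2, h3⟩ := hf
  refine ⟨?_, ?_, ?_⟩
  · have := (transHol r ⟨f, h1⟩).2
    have h4 : ((transHol r ⟨f, h1⟩ : Hol) : ℍ → ℂ) = fun τ => f (r +ᵥ τ) := by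
      funext τ
      rw [transHol_apply]
    rw [← h4]; exact this
  · intro τ
    rw [vadd_comm, h2]
  · rw [isBoundedAtImInfty_iff] at h3 ⊢
    obtain ⟨M, A, hMA⟩ := h3
    exact ⟨M, A, fun z hz => hMA _ (by rwa [vadd_im])⟩

/-- Translation by `r` on `HolPer h`. -/
def transHolPer (h : ℕ) (r : ℝ) : HolPer h →ₐ[ℂ] HolPer h where
  toFun f := ⟨fun τ => (f : ℍ → ℂ) (r +ᵥ τ), trans_mem_HolPer r f.2⟩
  map_one' := rfl
  map_mul' _ _ := rfl
  map_zero' := rfl
  map_add' _ _ := rfl
  commutes' _ := rfl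

@[simp] theorem transHolPer_apply (h : ℕ) (r : ℝ) (f : HolPer h) (τ : ℍ) :
    (transHolPer h r f : ℍ → ℂ) τ = (f : ℍ → ℂ) (r +ᵥ τ) := rfl

theorem transHolPer_injective (h : ℕ) (r : ℝ) : Injective (transHolPer h r) := by
  intro a b hab
  apply Subtype.ext
  funext τ
  have := congrFun (congrArg Subtype.val hab) ((-r : ℝ) +ᵥ τ)
  simpa [vadd_vadd] using this

theorem inclHol_transHolPer (h : ℕ) (r : ℝ) (f : HolPer h) :
    inclHol h (transHolPer h r f) = transHol r (inclHol h f) := by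
  apply Subtype.ext
  funext τ
  rw [transHol_apply]
  rfl

variable (h : ℕ) [NeZero h]

/-- `exp (2πi r/h)` as a unit. -/
def expU (r : ℝ) : ℂˣ :=
  Units.mk0 (Complex.exp (2 * π * Complex.I * r / h)) (Complex.exp_ne_zero _)

@[simp] theorem coe_expU (r : ℝ) :
    ((expU h r : ℂˣ) : ℂ) = Complex.exp (2 * π * Complex.I * r / h) := rfl

theorem qParam_vadd (r : ℝ) (τ : ℍ) :
    𝕢 (h : ℝ) ((r +ᵥ τ : ℍ) : ℂ) = (expU h r : ℂ) * 𝕢 (h : ℝ) (τ : ℂ) := by
  rw [coe_expU, Periodic.qParam, Periodic.qParam, ← Complex.exp_add, coe_vadd]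
  congr 1
  push_cast
  ring

theorem qExpansion_trans_coeff (r : ℝ) (f : HolPer h) (n : ℕ) :
    (qExpansion (h : ℝ) (transHolPer h r f : ℍ → ℂ)).coeff n =
      (expU h r : ℂ) ^ n * (qExpansion (h : ℝ) (f : ℍ → ℂ)).coeff n := by
  refine (qExpansion_coeff_unique_fun (HolPer.pos h) (HolPer.analyticAt h (transHolPer h r f))
    (c := fun n => (expU h r : ℂ) ^ n * (qExpansion (h : ℝ) (f : ℍ → ℂ)).coeff n) ?_ n).symm
  intro τ
  have := hasSum_qExpansion (HolPer.pos h) f.2.2.1 f.2.1 f.2.2.2 (r +ᵥ τ)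
  rw [qParam_vadd] at this
  have h2 : (fun m : ℕ => ((expU h r : ℂ) ^ m * (qExpansion (h : ℝ) (f : ℍ → ℂ)).coeff m) •
      𝕢 (h : ℝ) (τ : ℂ) ^ m) = fun m : ℕ => (qExpansion (h : ℝ) (f : ℍ → ℂ)).coeff m •
      ((expU h r : ℂ) * 𝕢 (h : ℝ) (τ : ℂ)) ^ m := by
    funext m
    simp only [smul_eq_mul, mul_pow]
    ring
  rw [h2]
  exact this

theorem qExpLaurent_trans (r : ℝ) (f : HolPer h) :
    qExpLaurent h (transHolPer h r f) = rot (expU h r) (qExpLaurent h f) := by
  ext k
  rw [rot_coeff]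
  show (HahnSeries.ofPowerSeries ℤ ℂ (qExpansion (h : ℝ) (transHolPer h r f : ℍ → ℂ))).coeff k =
    _ * (HahnSeries.ofPowerSeries ℤ ℂ (qExpansion (h : ℝ) (f : ℍ → ℂ))).coeff k
  rcases le_or_gt 0 k with hk | hk
  · lift k to ℕ using hk
    rw [HahnSeries.ofPowerSeries_apply_coeff, HahnSeries.ofPowerSeries_apply_coeff,
      qExpansion_trans_coeff]
    simp
  · rw [ofPowerSeries_coeff_neg _ hk, ofPowerSeries_coeff_neg _ hk, mul_zero]

/-- Translation by `r` on `MerPer h`. -/
def transMerPer (r : ℝ) : MerPer h →+* MerPer h :=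
  IsFractionRing.map (A := HolPer h) (B := HolPer h) (K := MerPer h) (L := MerPer h)
    (j := (transHolPer h r).toRingHom) (transHolPer_injective h r)

theorem transMerPer_algebraMap (r : ℝ) (f : HolPer h) :
    transMerPer h r (algebraMap (HolPer h) (MerPer h) f) =
      algebraMap (HolPer h) (MerPer h) (transHolPer h r f) :=
  IsLocalization.map_eq (S := MerPer h) (Q := MerPer h) (g := (transHolPer h r).toRingHom)
    (nonZeroDivisors_le_comap_nonZeroDivisors_of_injective _ (transHolPer_injective h r)) f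

theorem toLaurent_transMerPer (r : ℝ) (u : MerPer h) :
    toLaurent h (transMerPer h r u) = rot (expU h r) (toLaurent h u) := by
  obtain ⟨a, b, -, rfl⟩ := IsFractionRing.div_surjective (A := HolPer h) u
  rw [map_div₀, map_div₀, map_div₀, transMerPer_algebraMap, transMerPer_algebraMap, rot_div]
  have key : ∀ f : HolPer h, toLaurent h (algebraMap (HolPer h) (MerPer h) f) = qExpLaurent h f :=
    fun f => toLaurent_algebraMap h f
  rw [key, key, key, key, qExpLaurent_trans, qExpLaurent_trans]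

theorem toMer_transMerPer (r : ℝ) (u : MerPer h) :
    toMer h (transMerPer h r u) = transMer r (toMer h u) := by
  obtain ⟨a, b, -, rfl⟩ := IsFractionRing.div_surjective (A := HolPer h) u
  rw [map_div₀, map_div₀, map_div₀, map_div₀, transMerPer_algebraMap, transMerPer_algebraMap,
    toMer_algebraMap, toMer_algebraMap, toMer_algebraMap, toMer_algebraMap, transMer_algebraMap,
    transMer_algebraMap, inclHol_transHolPer, inclHol_transHolPer]

end Fermat.Agent.S36
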